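import Mathlib.Algebra.MvPolynomial.Variables
import Mathlib.FieldTheory.IsAlgClosed.Classification
import Mathlib.RingTheory.AlgebraicIndependent.TranscendenceBasis
import Mathlib.RingTheory.AlgebraicIndependent.Transcendental

/-!
# Fixed elements of automorphism groups of algebraically closed fields

For algebraically closed fields `K ⊆ L` of characteristic zero, an element of `L` with finite orbit
under `Aut(L/K)` lies in `K`. This is the field theoretic input to the descent of torsion points of
the Jacobian from `ℂ` to `ℚ̄`.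
-/

noncomputable section

namespace Fermat.Agent.Mono

variable {K L : Type*} [Field K] [Field L] [Algebra K L] [IsAlgClosed K] [IsAlgClosed L]

omit [IsAlgClosed K] in
/-- A transcendental element can be translated by any constant. -/
theorem exists_algEquiv_translate {z : L} (hz : Transcendental K z) (t : K) :
    ∃ σ : L ≃ₐ[K] L, σ z = z + algebraMap K L t := by
  classical
  have h1 : AlgebraicIndepOn K id ({z} : Set L) := by
    rw [AlgebraicIndepOn, algebraicIndependent_singleton_iff ⟨z, rfl⟩]
    exact hz
  obtain ⟨B, hzB, hB⟩ := exists_isTranscendenceBasis_superset h1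
  let i₀ : B := ⟨z, hzB rfl⟩
  have := IsAlgClosed.isAlgClosure_of_transcendence_basis _ hB
  let f : B → MvPolynomial B K := fun i =>
    MvPolynomial.X i + (if i = i₀ then MvPolynomial.C t else 0)
  let g : B → MvPolynomial B K := fun i =>
    MvPolynomial.X i - (if i = i₀ then MvPolynomial.C t else 0)
  let e : MvPolynomial B K ≃ₐ[K] MvPolynomial B K :=
    AlgEquiv.ofAlgHom (MvPolynomial.aeval f) (MvPolynomial.aeval g)
      (by
        ext i : 1
        by_cases hi : i = i₀ <;> simp [f, g, hi])
      (by
        ext i : 1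
        by_cases hi : i = i₀ <;> simp [f, g, hi])
  let A := Algebra.adjoin K (Set.range ((↑) : B → L))
  let E : A ≃ₐ[K] A := (hB.1.aevalEquiv.symm.trans e).trans hB.1.aevalEquiv
  let σ : L ≃+* L := IsAlgClosure.equivOfEquiv L L E.toRingEquiv
  have hσ : ∀ a : A, σ (a : L) = (E a : L) := fun a =>
    IsAlgClosure.equivOfEquiv_algebraMap L L E.toRingEquiv a
  refine ⟨AlgEquiv.ofRingEquiv (f := σ) fun c => ?_, ?_⟩
  · have h := hσ (algebraMap K A c)
    simpa [E] using h
  · show σ z = _
    have hmem : hB.1.aevalEquiv (MvPolynomial.X i₀) = (⟨z, Algebra.subset_adjoin ⟨i₀, rfl⟩⟩ : A) :=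
      Subtype.ext (by
        rw [← Subalgebra.coe_val]
        exact (MvPolynomial.aeval_X _ i₀))
    have h := hσ ⟨z, Algebra.subset_adjoin ⟨i₀, rfl⟩⟩
    rw [h, ← hmem]
    show ((hB.1.aevalEquiv (e (hB.1.aevalEquiv.symm (hB.1.aevalEquiv _))) : A) : L) = _
    rw [AlgEquiv.symm_apply_apply]
    show MvPolynomial.aeval ((↑) : B → L) (e (MvPolynomial.X i₀)) = _
    simp [e, f, i₀]

/-- Elements with finite orbit under `Aut(L/K)` are constants. -/
theorem mem_range_of_finite_orbit {z : L}
    (h : (Set.range fun σ : L ≃ₐ[K] L => σ z).Finite) : z ∈ Set.range (algebraMap K L) := by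
  by_cases hz : IsAlgebraic K z
  · exact minpoly.degree_eq_one_iff.mp
      (IsAlgClosed.degree_eq_one_of_irreducible K (minpoly.irreducible hz.isIntegral))
  · exfalso
    refine (Set.infinite_range_of_injective (f := fun t : K => z + algebraMap K L t)
      (fun a b hab => (algebraMap K L).injective (add_left_cancel hab))) (h.subset ?_)
    rintro _ ⟨t, rfl⟩
    obtain ⟨σ, hσ⟩ := exists_algEquiv_translate (show Transcendental K z from hz) t
    exact ⟨σ, hσ⟩

/-- The fixed field of `Aut(L/K)` is `K`. -/
theorem mem_range_of_forall_fixed [CharZero K] {z : L} (h : ∀ σ : L ≃ₐ[K] L, σ z = z) :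
    z ∈ Set.range (algebraMap K L) :=
  mem_range_of_finite_orbit ((Set.finite_singleton z).subset (by rintro _ ⟨σ, rfl⟩; simp [h]))

end Fermat.Agent.Mono
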