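import Fermat.Agent.Mono.PlaceExtend

/-!
# `Pic⁰` and extension of constants

An extension of constants induces injective maps on places and maps on divisors and `Pic⁰`,
compatible with principal divisors and degrees.
-/

noncomputable section

namespace Fermat.Agent.Mono

open AlgebraicCurve

variable {K L F F' : Type*} [Field K] [Field L] [Field F] [Field F'] [Algebra K F] [Algebra L F']
variable {jK : K →+* L} {ι : F →+* F'}

/-- If a place of `F'` is non-trivial on `ι F`, it restricts to a place of `F`. -/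
theorem exists_restrict (hcompat : ∀ c, ι (algebraMap K F c) = algebraMap L F' (jK c))
    (w : Place L F') (hw : ∃ y : F, w.ord (ι y) ≠ 0) :
    ∃ v : Place K F, ∀ x, ι x ∈ w.toValuationSubring ↔ x ∈ v.toValuationSubring := by
  classical
  set B : ValuationSubring F := w.toValuationSubring.comap ι with hB
  have hmem : ∀ x : F, x ∈ B ↔ x = 0 ∨ 0 ≤ w.ord (ι x) := fun x => by
    rw [hB, ValuationSubring.mem_comap, mem_place_iff, map_eq_zero]
  have hw' : ∃ n : ℕ, 0 < n ∧ ∃ x : F, x ≠ 0 ∧ w.ord (ι x) = n := by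
    obtain ⟨y, hy⟩ := hw
    have hy0 : y ≠ 0 := by rintro rfl; simp at hy
    rcases lt_or_gt_of_ne hy with h | h
    · exact ⟨(-(w.ord (ι y))).toNat, by omega, y⁻¹, inv_ne_zero hy0,
        by rw [map_inv₀, w.ord_inv]; omega⟩
    · exact ⟨(w.ord (ι y)).toNat, by omega, y, hy0, by omega⟩
  obtain ⟨hd0, t, ht0, htd⟩ := Nat.find_spec hw'
  set d := Nat.find hw' with hd
  -- every order is a multiple of `d`
  have hdiv : ∀ x : F, x ≠ 0 → (d : ℤ) ∣ w.ord (ι x) := by
    intro x hx
    by_contra hnd
    have hr0 := Int.emod_nonneg (w.ord (ι x)) (show (d : ℤ) ≠ 0 by omega)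
    have hrd := Int.emod_lt_of_pos (w.ord (ι x)) (show (0 : ℤ) < d by omega)
    have hrne : w.ord (ι x) % d ≠ 0 := fun h => hnd (Int.dvd_of_emod_eq_zero h)
    refine Nat.find_min hw' (m := (w.ord (ι x) % d).toNat) (by omega)
      ⟨by omega, x / t ^ (w.ord (ι x) / d), div_ne_zero hx (zpow_ne_zero _ ht0), ?_⟩
    rw [map_div₀, map_zpow₀, ord_div w ((map_ne_zero ι).mpr hx)
      (zpow_ne_zero _ ((map_ne_zero ι).mpr ht0)), w.ord_zpow, htd]
    rw [Int.toNat_of_nonneg hr0, Int.emod_def]
    ring
  have htB : t ∈ B := (hmem t).mpr (Or.inr (by omega))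
  have hfact : ∀ {a : B}, a ≠ 0 → ∃ n : ℕ, Associated ((⟨t, htB⟩ : B) ^ n) a := by
    intro a ha
    have haF : (a : F) ≠ 0 := by simpa [ZeroMemClass.coe_eq_zero] using ha
    have h0 := ((hmem _).mp a.2).resolve_left haF
    obtain ⟨k, hk⟩ := hdiv _ haF
    have hk0 : 0 ≤ k := by
      by_contra hneg
      have : (d : ℤ) * k < 0 := mul_neg_of_pos_of_neg (by omega) (by omega)
      omega
    obtain ⟨n, rfl⟩ := Int.eq_ofNat_of_zero_le hk0
    have hq : ι ((a : F) / t ^ n) ≠ 0 :=
      (map_ne_zero ι).mpr (div_ne_zero haF (pow_ne_zero _ ht0))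
    have hord : w.ord (ι ((a : F) / t ^ n)) = 0 := by
      rw [map_div₀, map_pow, ← zpow_natCast, ord_div w ((map_ne_zero ι).mpr haF)
        (zpow_ne_zero _ ((map_ne_zero ι).mpr ht0)), w.ord_zpow, htd, hk]
      ring
    have h1 : (a : F) / t ^ n ∈ B := (hmem _).mpr (Or.inr hord.ge)
    have h2 : ((a : F) / t ^ n)⁻¹ ∈ B :=
      (hmem _).mpr (Or.inr (by rw [map_inv₀, w.ord_inv, hord, neg_zero]))
    refine ⟨n, ⟨⟨_, h1⟩, ⟨_, h2⟩, ?_, ?_⟩, ?_⟩
    · ext; exact mul_inv_cancel₀ (div_ne_zero haF (pow_ne_zero _ ht0))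
    · ext; exact inv_mul_cancel₀ (div_ne_zero haF (pow_ne_zero _ ht0))
    · ext
      simp only [MulMemClass.coe_mul, SubmonoidClass.coe_pow]
      exact mul_div_cancel₀ _ (pow_ne_zero _ ht0)
  have htop : B ≠ ⊤ := by
    intro he
    have h : t⁻¹ ∈ B := he ▸ ValuationSubring.mem_top _
    rcases (hmem _).mp h with h | h
    · exact inv_ne_zero ht0 h
    · rw [map_inv₀, w.ord_inv, htd] at h; omega
  have hu : ¬ IsUnit (⟨t, htB⟩ : B) := by
    rintro ⟨u, hu⟩
    have h : ((↑u⁻¹ : B) : F) = t⁻¹ := by
      refine eq_inv_of_mul_eq_one_left ?_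
      rw [show t = ((u : B) : F) by rw [hu]]
      rw [← MulMemClass.coe_mul, Units.inv_mul]; rfl
    rcases (hmem _).mp (h ▸ (↑u⁻¹ : B).2) with h | h
    · exact inv_ne_zero ht0 h
    · rw [map_inv₀, w.ord_inv, htd] at h; omega
  have hirr : Irreducible (⟨t, htB⟩ : B) := by
    refine ⟨hu, fun a b hab => ?_⟩
    have hab' : t = (a : F) * (b : F) := congrArg Subtype.val hab
    have haF : (a : F) ≠ 0 := fun h => ht0 (by simp [hab', h])
    have hbF : (b : F) ≠ 0 := fun h => ht0 (by simp [hab', h])
    have ha := ((hmem _).mp a.2).resolve_left haF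
    have hb := ((hmem _).mp b.2).resolve_left hbF
    have hsum : w.ord (ι a) + w.ord (ι b) = d := by
      rw [← w.ord_mul ((map_ne_zero ι).mpr haF) ((map_ne_zero ι).mpr hbF), ← map_mul, ← hab', htd]
    have unit_of : ∀ c : B, (c : F) ≠ 0 → w.ord (ι c) = 0 → IsUnit c := fun c hc h0 =>
      ⟨⟨c, ⟨_, (hmem (c : F)⁻¹).mpr (Or.inr (by rw [map_inv₀, w.ord_inv]; omega))⟩,
        Subtype.ext (mul_inv_cancel₀ hc), Subtype.ext (inv_mul_cancel₀ hc)⟩, rfl⟩
    obtain ⟨k, hk⟩ := hdiv _ haF
    rcases eq_or_ne k 0 with rfl | hk0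
    · exact Or.inl (unit_of a haF (by simpa using hk))
    · refine Or.inr (unit_of b hbF ?_)
      have : 1 ≤ k := by
        by_contra hneg
        have : (d : ℤ) * k < 0 := mul_neg_of_pos_of_neg (by omega) (by omega)
        omega
      have : (d : ℤ) ≤ d * k := le_mul_of_one_le_right (by omega) this
      omega
  have : IsDiscreteValuationRing B :=
    IsDiscreteValuationRing.ofHasUnitMulPowIrreducibleFactorization ⟨_, hirr, hfact⟩
  refine ⟨⟨B, fun c => ?_, htop, inferInstance⟩, fun x => (ValuationSubring.mem_comap).symm⟩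
  rw [hB, ValuationSubring.mem_comap, hcompat]
  exact w.algebraMap_mem' _

variable (h : IsConstExt jK ι) (hres : ∀ v : Place K F, HasTrivialResidue v)

/-- The place above a given place. -/
def placeMap (v : Place K F) : Place L F' := (exists_place_above h (hres v)).choose

theorem ord_placeMap (v : Place K F) (x : F) : (placeMap h hres v).ord (ι x) = v.ord x :=
  (exists_place_above h (hres v)).choose_spec.1 x

theorem placeMap_unique (v : Place K F) (w : Place L F')
    (hw : ∀ x, ι x ∈ w.toValuationSubring ↔ x ∈ v.toValuationSubring) : w = placeMap h hres v :=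
  (exists_place_above h (hres v)).choose_spec.2 w hw

theorem mem_placeMap_iff (v : Place K F) (x : F) :
    ι x ∈ (placeMap h hres v).toValuationSubring ↔ x ∈ v.toValuationSubring := by
  rw [mem_place_iff, mem_place_iff, ord_placeMap, map_eq_zero]

theorem placeMap_injective : Function.Injective (placeMap h hres) := by
  intro v v' hvv
  refine Place.ext (SetLike.ext fun x => ?_)
  rw [← mem_placeMap_iff h hres v, ← mem_placeMap_iff h hres v', hvv]

/-- A place of `F'` is in the image of `placeMap` as soon as it is non-trivial on `ι F`. -/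
theorem exists_placeMap_eq (w : Place L F') (hw : ∃ y : F, w.ord (ι y) ≠ 0) :
    ∃ v, placeMap h hres v = w := by
  obtain ⟨v, hv⟩ := exists_restrict h.compat w hw
  exact ⟨v, (placeMap_unique h hres v w hv).symm⟩

/-- The base change of divisors. -/
def divMap : Divisor K F →+ Divisor L F' := Finsupp.mapDomain.addMonoidHom (placeMap h hres)

theorem divMap_apply_placeMap (D : Divisor K F) (v : Place K F) :
    divMap h hres D (placeMap h hres v) = D v :=
  Finsupp.mapDomain_apply (placeMap_injective h hres) D v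

theorem divMap_apply_of_notMem (D : Divisor K F) (w : Place L F')
    (hw : ∀ v, placeMap h hres v ≠ w) : divMap h hres D w = 0 :=
  Finsupp.mapDomain_of_notMem_range D w (by rintro ⟨v, hv⟩; exact hw v hv)

/-- Base change takes the divisor of `f` to the divisor of `ι f`. -/
theorem divMap_principal {D : Divisor K F} {f : F} (hD : ∀ v, D v = v.ord f) (w : Place L F') :
    divMap h hres D w = w.ord (ι f) := by
  by_cases hw : ∃ v, placeMap h hres v = w
  · obtain ⟨v, rfl⟩ := hw
    rw [divMap_apply_placeMap, hD, ord_placeMap]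
  · rw [divMap_apply_of_notMem h hres D w (fun v hv => hw ⟨v, hv⟩)]
    by_contra hne
    exact hw (exists_placeMap_eq h hres w ⟨f, Ne.symm hne⟩)

variable (hK : ∀ v : Place K F, v.deg = 1) (hL : ∀ w : Place L F', w.deg = 1)

include hK hL in
theorem degree_divMap (D : Divisor K F) : Divisor.degree (divMap h hres D) = Divisor.degree D := by
  induction D using Finsupp.induction with
  | zero => simp
  | single_add v n D _ _ ih =>
    rw [map_add, map_add, map_add, ih, Divisor.degree_single]
    congr 1
    show Divisor.degree (Finsupp.mapDomain (placeMap h hres) (Finsupp.single v n)) = _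
    rw [Finsupp.mapDomain_single, Divisor.degree_single, hK, hL]

/-- Base change on degree zero divisors. -/
def degZeroMap : Divisor.degZero (K := K) (F := F) →+ Divisor.degZero (K := L) (F := F') :=
  ((divMap h hres).domRestrict _).codRestrict _ fun D => by
    rw [Divisor.mem_degZero]
    show Divisor.degree (divMap h hres (D : Divisor K F)) = 0
    rw [degree_divMap h hres hK hL]
    exact Divisor.mem_degZero.mp D.2

@[simp]
theorem coe_degZeroMap (D : Divisor.degZero (K := K) (F := F)) :
    (degZeroMap h hres hK hL D : Divisor L F') = divMap h hres D := rfl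

/-- Base change on `Pic⁰`. -/
def picMap : Pic0 K F →+ Pic0 L F' :=
  QuotientAddGroup.map _ _ (degZeroMap h hres hK hL) (by
    rintro D hD
    obtain ⟨f, hf, hD⟩ := (AddSubgroup.mem_addSubgroupOf.mp hD : Divisor.IsPrincipal _)
    refine AddSubgroup.mem_addSubgroupOf.mpr (Divisor.mem_principal.mpr ?_)
    exact ⟨ι f, (map_ne_zero ι).mpr hf, fun w => divMap_principal h hres hD w⟩)

@[simp]
theorem picMap_mk (D : Divisor.degZero (K := K) (F := F)) :
    picMap h hres hK hL (Pic0.mk D) = Pic0.mk (degZeroMap h hres hK hL D) := rfl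

end Fermat.Agent.Mono
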