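import Fermat.Prelude.Def_AlgebraicCurve_BaseChangeGalois
import Fermat.Prelude.Def_AlgebraicCurve_Repartitions
import Fermat.Agent.FF.Places
import Fermat.Agent.Mono.PicBaseChange

/-!
# Classes with finite orbit descend

A divisor class of the large function field with finite orbit under a group of semilinear
automorphisms fixing the small function field pointwise comes from the small one. The proof lowers a
divisor until its Riemann–Roch space is a line and descends the spanning function.
-/

noncomputable section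

namespace Fermat.Agent.Mono

open AlgebraicCurve

section Basics

variable {K F : Type*} [Field K] [Field F] [Algebra K F]

theorem ord_prod_pow (x : Place K F) {α : Type*} (f : α → F) (hf : ∀ a, f a ≠ 0) (n : α → ℕ)
    (T : Finset α) : x.ord (∏ a ∈ T, f a ^ n a) = ∑ a ∈ T, (n a : ℤ) * x.ord (f a) := by
  classical
  induction T using Finset.induction_on with
  | empty => simp
  | insert a T ha ih =>
    rw [Finset.prod_insert ha, Finset.sum_insert ha, x.ord_mul (pow_ne_zero _ (hf a))
      (Finset.prod_ne_zero_iff.mpr fun w _ => pow_ne_zero _ (hf w)), ih, ← zpow_natCast,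
      x.ord_zpow]

theorem degree_nonneg {T : Divisor K F} (hT : ∀ w, 0 ≤ T w) : 0 ≤ Divisor.degree T := by
  rw [Divisor.degree, Finsupp.liftAddHom_apply]
  exact Finset.sum_nonneg fun w _ => mul_nonneg (hT w) (by positivity)

/-- A function with invariant divisor is an eigenfunction. -/
theorem exists_eq_smul_of_divisor_smul_eq
    (hconst : ∀ f : F, f ≠ 0 → (∀ w : Place K F, w.ord f = 0) → f ∈ Set.range (algebraMap K F))
    (g : SemilinearAut K F) {f : F} (hf : f ≠ 0) {D : Divisor K F} (hD : ∀ w, D w = w.ord f)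
    (hgD : g • D = D) : ∃ c : K, g • f = c • f := by
  obtain ⟨c, hc⟩ := hconst (g • f / f) (div_ne_zero (by rwa [smul_ne_zero_iff_ne]) hf) (fun w => by
    have h1 := SemilinearAut.ord_smul g (g⁻¹ • w) f
    rw [smul_inv_smul] at h1
    rw [ord_div w (by rwa [smul_ne_zero_iff_ne]) hf, h1, ← hD, ← hD,
      ← SemilinearAut.divisor_smul_apply, hgD, sub_self])
  exact ⟨c, by rw [Algebra.smul_def, hc, div_mul_cancel₀ _ hf]⟩

/-- After adding enough poles of a non-constant `u`, every divisor has a non-zero section. -/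
theorem exists_mem_riemannRochSpace_twist (hres : ∀ w : Place K F, HasTrivialResidue w) (u : F)
    (hu : u ∉ Set.range (algebraMap K F)) (P : Divisor K F)
    (hP : ∀ w, P w = max (-(w.ord u)) 0) (D : Divisor K F) :
    ∃ n : ℕ, ∃ f : F, f ≠ 0 ∧ f ∈ riemannRochSpace (D + n • P) := by
  classical
  let nn : Place K F → ℕ := fun w => (-(D w)).toNat
  choose r hr using fun (W : Place K F) (h : u ∈ W.toValuationSubring) => hres W _ h
  let fac : Place K F → F := fun w =>
    if h : u ∈ w.toValuationSubring then u - algebraMap K F (r w h) else 1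
  have hfac0 : ∀ w, fac w ≠ 0 := fun w => by
    simp only [fac]
    split_ifs with h
    · exact fun h0 => hu ⟨_, (sub_eq_zero.mp h0).symm⟩
    · exact one_ne_zero
  have hfacR : ∀ w, fac w ∈ riemannRochSpace P := by
    intro w
    have h1 : (1 : F) ∈ riemannRochSpace P :=
      mem_riemannRochSpace_iff.mpr fun x => Or.inr (by
        rw [x.ord_one, hP]; exact neg_nonpos.mpr (le_max_right _ _))
    have h2 : u ∈ riemannRochSpace P :=
      mem_riemannRochSpace_iff.mpr fun x => Or.inr (by rw [hP]; exact neg_le.mp (le_max_left _ _))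
    simp only [fac]
    split_ifs with h
    · rw [Algebra.algebraMap_eq_smul_one]
      exact Submodule.sub_mem _ h2 (Submodule.smul_mem _ _ h1)
    · exact h1
  let S : ℕ := ∑ w ∈ D.support, nn w
  refine ⟨2 * S, ∏ w ∈ D.support, fac w ^ nn w,
    Finset.prod_ne_zero_iff.mpr fun w _ => pow_ne_zero _ (hfac0 w),
    mem_riemannRochSpace_iff.mpr fun x => Or.inr ?_⟩
  have hge : ∀ w, -(P x) ≤ x.ord (fac w) := fun w =>
    (mem_riemannRochSpace_iff.mp (hfacR w) x).resolve_left (hfac0 w)
  have hP0 : 0 ≤ P x := by rw [hP]; exact le_max_right _ _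
  simp only [Finsupp.add_apply, Finsupp.coe_smul, Pi.smul_apply, nsmul_eq_mul]
  push_cast
  rw [ord_prod_pow x fac hfac0 nn]
  have hnn : -(D x) ≤ (nn x : ℤ) := Int.self_le_toNat _
  have hzero : x ∉ D.support → D x = 0 := fun h => Finsupp.notMem_support_iff.mp h
  have hn1 : x ∈ D.support → (nn x : ℤ) ≤ (S : ℤ) := fun h => by
    exact_mod_cast Finset.single_le_sum (fun w _ => Nat.zero_le (nn w)) h
  rcases hP0.lt_or_eq with hlt | heq
  · have h1 : -((S : ℤ) * P x) ≤ ∑ w ∈ D.support, (nn w : ℤ) * x.ord (fac w) := by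
      simp only [S, Nat.cast_sum, Finset.sum_mul, ← Finset.sum_neg_distrib]
      refine Finset.sum_le_sum fun w _ => ?_
      rw [← mul_neg]
      exact mul_le_mul_of_nonneg_left (hge w) (by positivity)
    by_cases hxN : x ∈ D.support
    · have := hn1 hxN
      nlinarith
    · rw [hzero hxN]
      nlinarith
  · rw [← heq, mul_zero, add_zero]
    have hnonneg : ∀ w, 0 ≤ x.ord (fac w) := fun w => by have := hge w; omega
    by_cases hxN : x ∈ D.support
    · have hmemx : u ∈ x.toValuationSubring := (mem_place_iff x).mpr (Or.inr (by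
        rw [hP] at heq; omega))
      have h1 : 0 < x.ord (fac x) := by
        simp only [fac, dif_pos hmemx]
        exact (hr x hmemx).resolve_left fun h0 => hu ⟨_, (sub_eq_zero.mp h0).symm⟩
      have h2 : (nn x : ℤ) * x.ord (fac x) ≤ ∑ w ∈ D.support, (nn w : ℤ) * x.ord (fac w) :=
        Finset.single_le_sum (fun w _ => mul_nonneg (by positivity) (hnonneg w)) hxN
      nlinarith
    · rw [hzero hxN, neg_zero]
      exact Finset.sum_nonneg fun w _ => mul_nonneg (by positivity) (hnonneg w)

/-- Lowering a divisor at one place until its Riemann–Roch space is a line. -/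
theorem exists_line [HasPrincipalDivisors K F] (hdeg : ∀ w : Place K F, w.deg = 1)
    (hres : ∀ w : Place K F, HasTrivialResidue w) (D : Divisor K F) (w₀ : Place K F)
    {f₀ : F} (hf₀ : f₀ ≠ 0) (hf₀m : f₀ ∈ riemannRochSpace D) :
    ∃ s : ℕ, ∃ f : F, f ≠ 0 ∧ f ∈ riemannRochSpace (D - Finsupp.single w₀ (s : ℤ)) ∧
      ∀ g ∈ riemannRochSpace (D - Finsupp.single w₀ (s : ℤ)), ∃ c : K, g = c • f := by
  classical
  have hbound : ∀ s : ℕ, (∃ f, f ≠ 0 ∧ f ∈ riemannRochSpace (D - Finsupp.single w₀ (s : ℤ))) →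
      (s : ℤ) ≤ Divisor.degree D := by
    rintro s ⟨f, hf, hfm⟩
    obtain ⟨Df, hDf, hd0⟩ := HasPrincipalDivisors.exists_divisor (K := K) f hf
    have h0 := degree_nonneg (T := Df + (D - Finsupp.single w₀ (s : ℤ))) fun w => by
      have := (mem_riemannRochSpace_iff.mp hfm w).resolve_left hf
      rw [Finsupp.add_apply, hDf]
      omega
    rw [map_add, map_sub, hd0, Divisor.degree_single, hdeg] at h0
    omega
  have hex : ∃ s : ℕ, ¬ ∃ f, f ≠ 0 ∧ f ∈ riemannRochSpace (D - Finsupp.single w₀ ((s : ℤ) + 1)) :=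
    ⟨(Divisor.degree D).toNat, fun h => by
      have := hbound ((Divisor.degree D).toNat + 1) (by simpa using h)
      omega⟩
  have hmax := Nat.find_spec hex
  obtain ⟨f, hf0, hfmem⟩ :
      ∃ f, f ≠ 0 ∧ f ∈ riemannRochSpace (D - Finsupp.single w₀ (Nat.find hex : ℤ)) := by
    rcases Nat.eq_zero_or_pos (Nat.find hex) with h0 | h0
    · exact ⟨f₀, hf₀, by rw [h0]; simpa using hf₀m⟩
    · have h := Nat.find_min hex (Nat.sub_one_lt_of_lt h0)
      rw [not_not] at h
      have he : (((Nat.find hex - 1 : ℕ) : ℤ) + 1) = (Nat.find hex : ℤ) := by omega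
      rwa [he] at h
  refine ⟨_, f, hf0, hfmem, fun g hg => ?_⟩
  set D'' := D - Finsupp.single w₀ (Nat.find hex : ℤ) with hD''
  have hexact : ∀ g : F, g ≠ 0 → g ∈ riemannRochSpace D'' → w₀.ord g = -(D'' w₀) := by
    intro g hg0 hg
    refine le_antisymm ?_ ((mem_riemannRochSpace_iff.mp hg w₀).resolve_left hg0)
    by_contra hlt
    refine hmax ⟨g, hg0, mem_riemannRochSpace_iff.mpr fun w => Or.inr ?_⟩
    have h1 := (mem_riemannRochSpace_iff.mp hg w).resolve_left hg0
    rcases eq_or_ne w w₀ with rfl | hw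
    · simp only [hD'', Finsupp.sub_apply, Finsupp.single_eq_same] at hlt ⊢
      omega
    · simp only [hD'', Finsupp.sub_apply, Finsupp.single_eq_of_ne hw] at h1 ⊢
      exact h1
  rcases eq_or_ne g 0 with rfl | hg0
  · exact ⟨0, by simp⟩
  obtain ⟨c, hc⟩ := hres w₀ (g / f) ((mem_place_iff w₀).mpr (Or.inr (by
    rw [ord_div w₀ hg0 hf0, hexact g hg0 hg, hexact f hf0 hfmem, sub_self])))
  refine ⟨c, sub_eq_zero.mp ?_⟩
  by_contra hne
  have hmem' : g - c • f ∈ riemannRochSpace D'' :=
    Submodule.sub_mem _ hg (Submodule.smul_mem _ _ hfmem)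
  have heq : g - c • f = (g / f - algebraMap K F c) * f := by
    rw [sub_mul, div_mul_cancel₀ _ hf0, ← Algebra.smul_def]
  have hne' : g / f - algebraMap K F c ≠ 0 := fun h => hne (by rw [heq, h, zero_mul])
  have h1 := hexact _ hne hmem'
  rw [heq, w₀.ord_mul hne' hf0, hexact f hf0 hfmem] at h1
  have := hc.resolve_left hne'
  omega

end Basics

variable {K L F F' : Type*} [Field K] [Field L] [Field F] [Field F'] [Algebra K F] [Algebra L F']
variable {jK : K →+* L} {ι : F →+* F'}
variable {G : Type*} [Group G] {ρ : G →* SemilinearAut L F'}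

theorem smul_placeMap_eq (h : IsConstExt jK ι) (hres : ∀ v : Place K F, HasTrivialResidue v)
    (hfix : ∀ g x, ρ g • ι x = ι x) (g : G) (v : Place K F) :
    ρ g • placeMap h hres v = placeMap h hres v := by
  refine placeMap_unique h hres v _ fun x => ?_
  have hinv : (ρ g)⁻¹ • ι x = ι x := by rw [← map_inv, hfix]
  rw [SemilinearAut.smul_toValuationSubring,
    ValuationSubring.mem_pointwise_smul_iff_inv_smul_mem, hinv]
  exact mem_placeMap_iff h hres v x

theorem smul_divMap_eq (h : IsConstExt jK ι) (hres : ∀ v : Place K F, HasTrivialResidue v)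
    (hfix : ∀ g x, ρ g • ι x = ι x) (g : G) (D : Divisor K F) :
    ρ g • divMap h hres D = divMap h hres D := by
  show ρ g • Finsupp.mapDomain (placeMap h hres) D = Finsupp.mapDomain (placeMap h hres) D
  rw [SemilinearAut.divisor_smul_def, ← Finsupp.mapDomain_comp]
  exact congrArg (fun f => Finsupp.mapDomain f D) (funext (smul_placeMap_eq h hres hfix g))

theorem divMap_comap (h : IsConstExt jK ι) (hres : ∀ v : Place K F, HasTrivialResidue v)
    (E : Divisor L F') (hE : ∀ w ∈ E.support, ∃ v, placeMap h hres v = w) :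
    divMap h hres (Finsupp.comapDomain (placeMap h hres) E (placeMap_injective h hres).injOn)
      = E := by
  ext w
  by_cases hw : ∃ v, placeMap h hres v = w
  · obtain ⟨v, rfl⟩ := hw
    rw [divMap_apply_placeMap, Finsupp.comapDomain_apply]
  · rw [divMap_apply_of_notMem h hres _ w (fun v hv => hw ⟨v, hv⟩),
      Finsupp.notMem_support_iff.mp fun hmem => hw (hE w hmem)]

/-- A place with finite orbit is non-trivial on `ι F`. -/
theorem exists_ord_ne_zero_of_finite_orbit (hresL : ∀ w : Place L F', HasTrivialResidue w)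
    (hcompat : ∀ c, ι (algebraMap K F c) = algebraMap L F' (jK c))
    (hfix : ∀ g x, ρ g • ι x = ι x)
    (hfixed : ∀ c : L, (Set.range fun g => SemilinearAut.baseAut (ρ g) c).Finite →
      c ∈ Set.range jK)
    {V : Place L F'} (hV : (Set.range fun g => ρ g • V).Finite)
    {u : F} (hu : u ∉ Set.range (algebraMap K F)) : ∃ y : F, V.ord (ι y) ≠ 0 := by
  classical
  by_contra hne
  simp only [not_exists, not_not] at hne
  have hx : ι u ∈ V.toValuationSubring := (mem_place_iff V).mpr (Or.inr (hne u).ge)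
  choose r hr using fun (W : Place L F') (h : ι u ∈ W.toValuationSubring) => hresL W _ h
  let res : Place L F' → L := fun W =>
    if h : ι u ∈ W.toValuationSubring then r W h else 0
  obtain ⟨a, ha⟩ := hfixed (r V hx) ((hV.image res).subset (by
    rintro _ ⟨g, rfl⟩
    refine ⟨ρ g • V, ⟨g, rfl⟩, ?_⟩
    have hmem : ι u ∈ (ρ g • V).toValuationSubring := by
      rw [← hfix g u]
      exact ValuationSubring.smul_mem_pointwise_smul (ρ g) _ _ hx
    show res (ρ g • V) = SemilinearAut.baseAut (ρ g) (r V hx)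
    simp only [res, dif_pos hmem]
    refine FF.const_unique _ (hr _ hmem) ?_
    have heq : ι u - algebraMap L F' (SemilinearAut.baseAut (ρ g) (r V hx))
        = ρ g • (ι u - algebraMap L F' (r V hx)) := by
      rw [smul_sub, hfix, SemilinearAut.smul_algebraMap]
    rw [heq]
    rcases hr V hx with h | h
    · left; rw [h, smul_zero]
    · right; rwa [SemilinearAut.ord_smul]))
  have h := hr V hx
  rw [← ha, ← hcompat, ← map_sub] at h
  rcases h with h | h
  · exact hu ⟨a, (sub_eq_zero.mp ((map_eq_zero ι).mp h)).symm⟩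
  · rw [hne] at h; omega

/-- If the orbit of `x` is finite and its stabilizer moves `V` inside a finite set, then the orbit
of `V` is finite. -/
theorem finite_orbit_of_stabilizer {G H M P : Type*} [Group G] [Group H] [MulAction H M]
    [MulAction H P] (ρ : G →* H) {x : M} (hx : (Set.range fun g => ρ g • x).Finite) {T : Set P}
    (hT : T.Finite) {V : P} (hV : ∀ g, ρ g • x = x → ρ g • V ∈ T) :
    (Set.range fun g => ρ g • V).Finite := by
  have := hx.to_subtype
  choose σ hσ using fun z : Set.range fun g => ρ g • x => z.2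
  refine ((Set.finite_univ.prod hT).image
    (fun p : (Set.range fun g => ρ g • x) × P => ρ (σ p.1) • p.2)).subset ?_
  rintro _ ⟨g, rfl⟩
  set τ := σ ⟨_, g, rfl⟩ with hτ
  have hη : ρ (τ⁻¹ * g) • x = x := by
    have h1 : ρ τ • x = ρ g • x := hσ ⟨_, g, rfl⟩
    rw [map_mul, mul_smul, ← h1, ← mul_smul, ← map_mul, inv_mul_cancel, map_one, one_smul]
  refine ⟨(⟨_, g, rfl⟩, ρ (τ⁻¹ * g) • V), ⟨Set.mem_univ _, hV _ hη⟩, ?_⟩
  show ρ τ • ρ (τ⁻¹ * g) • V = ρ g • V
  rw [← mul_smul, ← map_mul, mul_inv_cancel_left]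

variable (h : IsConstExt jK ι) (hres : ∀ v : Place K F, HasTrivialResidue v)
  (hK : ∀ v : Place K F, v.deg = 1) (hL : ∀ w : Place L F', w.deg = 1)

/-- A class with finite orbit descends. -/
theorem mem_range_picMap_of_finite_orbit [HasPrincipalDivisors L F']
    (hresL : ∀ w : Place L F', HasTrivialResidue w) (hfix : ∀ g x, ρ g • ι x = ι x)
    (hfixed : ∀ c : L, (Set.range fun g => SemilinearAut.baseAut (ρ g) c).Finite →
      c ∈ Set.range jK)
    (hconst : ∀ f : F', f ≠ 0 → (∀ w : Place L F', w.ord f = 0) →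
      f ∈ Set.range (algebraMap L F'))
    {u : F} (hu : u ∉ Set.range (algebraMap K F))
    (z : Pic0 L F') (hz : (Set.range fun g => ρ g • z).Finite) :
    z ∈ Set.range (picMap h hres hK hL) := by
  classical
  obtain ⟨D, rfl⟩ := Pic0.mk_surjective z
  have hιu : ι u ∉ Set.range (algebraMap L F') := by
    rintro ⟨c, hc⟩
    obtain ⟨a, rfl⟩ := hfixed c ((Set.finite_singleton c).subset (by
      rintro _ ⟨g, rfl⟩
      have h' := hfix g u
      rw [← hc, SemilinearAut.smul_algebraMap] at h'
      exact (algebraMap L F').injective h'))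
    exact hu ⟨a, ι.injective (by rw [h.compat]; exact hc)⟩
  have hιu0 : ι u ≠ 0 := fun h' => hιu ⟨0, by rw [map_zero, h']⟩
  obtain ⟨w₀, hw₀⟩ : ∃ w : Place L F', w.ord (ι u) ≠ 0 := by
    by_contra hne
    exact hιu (hconst _ hιu0 fun w => not_not.mp fun h' => hne ⟨w, h'⟩)
  obtain ⟨v₀, rfl⟩ := exists_placeMap_eq h hres w₀ ⟨u, hw₀⟩
  obtain ⟨U, hU, -⟩ := HasPrincipalDivisors.exists_divisor (K := L) (ι u) hιu0
  let PL : Divisor L F' := Finsupp.mapRange (fun n : ℤ => max (-n) 0) (by simp) U
  have hPL : ∀ w, PL w = max (-(w.ord (ι u))) 0 := fun w => by simp [PL, hU]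
  obtain ⟨PK, hPK⟩ : ∃ PK, divMap h hres PK = PL := by
    refine ⟨_, divMap_comap h hres PL fun w hw => exists_placeMap_eq h hres w ⟨u, fun h0 => ?_⟩⟩
    simp [hPL, h0] at hw
  obtain ⟨n, f₀, hf₀, hf₀m⟩ :=
    exists_mem_riemannRochSpace_twist hresL (ι u) hιu PL hPL (D : Divisor L F')
  obtain ⟨s, f, hf0, hfmem, hone⟩ := exists_line hL hresL _ (placeMap h hres v₀) hf₀ hf₀m
  set D'' : Divisor L F' :=
    (D : Divisor L F') + n • PL - Finsupp.single (placeMap h hres v₀) (s : ℤ) with hD''
  obtain ⟨Df, hDf, hd0⟩ := HasPrincipalDivisors.exists_divisor (K := L) f hf0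
  set E := Df + D'' with hEdef
  have hEnn : ∀ w, 0 ≤ E w := fun w => by
    have := (mem_riemannRochSpace_iff.mp hfmem w).resolve_left hf0
    rw [hEdef, Finsupp.add_apply, hDf]
    omega
  have hstab : ∀ g : G, ρ g • Pic0.mk D = Pic0.mk D → ρ g • E = E := by
    intro g hg
    rw [SemilinearAut.pic0_smul_mk] at hg
    have hmem := AddSubgroup.mem_addSubgroupOf.mp (QuotientAddGroup.eq.mp hg)
    rw [AddSubgroup.coe_add, NegMemClass.coe_neg, SemilinearAut.coe_degZeroSMulHom,
      Divisor.mem_principal] at hmem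
    obtain ⟨q, hq0, hq⟩ := hmem
    have hD''g : ∀ w, (ρ g • D'') w = D'' w - w.ord q := fun w => by
      have hsingle : ρ g • Finsupp.single (placeMap h hres v₀) (s : ℤ)
          = Finsupp.single (placeMap h hres v₀) (s : ℤ) := by
        rw [SemilinearAut.smul_single, smul_placeMap_eq h hres hfix]
      have hPLg : ρ g • (n • PL) = n • PL := by
        rw [← hPK, ← map_nsmul, smul_divMap_eq h hres hfix]
      have := hq w
      rw [Finsupp.add_apply, Finsupp.neg_apply] at this
      rw [hD'', smul_sub, smul_add, hPLg, hsingle]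
      simp only [Finsupp.sub_apply, Finsupp.add_apply]
      omega
    have hgf0 : ρ g • f ≠ 0 := by rwa [smul_ne_zero_iff_ne]
    have hordgf : ∀ w : Place L F', w.ord (ρ g • f) = (ρ g • Df) w := fun w => by
      rw [SemilinearAut.divisor_smul_apply, hDf]
      have h1 := SemilinearAut.ord_smul (ρ g) ((ρ g)⁻¹ • w) f
      rwa [smul_inv_smul] at h1
    have hgE : ∀ w, (ρ g • E) w = (ρ g • Df) w + (D'' w - w.ord q) := fun w => by
      rw [hEdef, smul_add, Finsupp.add_apply, hD''g]
    have hne : ρ g • f * q⁻¹ ≠ 0 := mul_ne_zero hgf0 (inv_ne_zero hq0)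
    obtain ⟨c, hc⟩ := hone (ρ g • f * q⁻¹) (mem_riemannRochSpace_iff.mpr fun w => Or.inr (by
      have h1 : 0 ≤ (ρ g • E) w := by
        rw [SemilinearAut.divisor_smul_apply]; exact hEnn _
      rw [hgE] at h1
      rw [w.ord_mul hgf0 (inv_ne_zero hq0), w.ord_inv, hordgf]
      omega))
    have hc0 : c ≠ 0 := fun h0 => hne (by rw [hc, h0, zero_smul])
    ext w
    have h2 := congrArg w.ord hc
    rw [w.ord_mul hgf0 (inv_ne_zero hq0), w.ord_inv, hordgf, Algebra.smul_def,
      w.ord_mul (by simpa using hc0) hf0, ord_algebraMap w hc0, zero_add] at h2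
    rw [hgE, hEdef, Finsupp.add_apply, hDf]
    omega
  have hsupp : ∀ V ∈ E.support, ∃ v, placeMap h hres v = V := fun V hV =>
    exists_placeMap_eq h hres V
      (exists_ord_ne_zero_of_finite_orbit hresL h.compat hfix hfixed
        (finite_orbit_of_stabilizer ρ (x := Pic0.mk D) hz E.support.finite_toSet fun g hg => by
          rw [Finset.mem_coe, Finsupp.mem_support_iff, ← hstab g hg,
            SemilinearAut.divisor_smul_apply_smul]
          exact Finsupp.mem_support_iff.mp hV) hu)
  set EK := Finsupp.comapDomain (placeMap h hres) E (placeMap_injective h hres).injOn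
  have hEK : divMap h hres EK = E := divMap_comap h hres E hsupp
  set B : Divisor K F := EK - n • PK + Finsupp.single v₀ (s : ℤ) with hB
  have hBL : divMap h hres B = E - n • PL + Finsupp.single (placeMap h hres v₀) (s : ℤ) := by
    rw [hB, map_add, map_sub, map_nsmul, hPK, hEK]
    congr 1
    exact Finsupp.mapDomain_single
  have hBdeg : Divisor.degree B = 0 := by
    rw [← degree_divMap h hres hK hL B, hBL, hEdef, hD'']
    simp only [map_add, map_sub]
    rw [hd0, Divisor.mem_degZero.mp D.2]
    abel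
  refine ⟨Pic0.mk ⟨B, Divisor.mem_degZero.mpr hBdeg⟩, ?_⟩
  rw [picMap_mk]
  refine QuotientAddGroup.eq.mpr (AddSubgroup.mem_addSubgroupOf.mpr ?_)
  rw [AddSubgroup.coe_add, NegMemClass.coe_neg, coe_degZeroMap]
  refine Divisor.mem_principal.mpr ⟨f⁻¹, inv_ne_zero hf0, fun w => ?_⟩
  rw [w.ord_inv, ← hDf, hBL, hEdef, hD'']
  simp only [Finsupp.add_apply, Finsupp.sub_apply, Finsupp.neg_apply]
  abel

end Fermat.Agent.Mono
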