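import Mathlib.FieldTheory.IntermediateField.Adjoin.Basic
import Mathlib.RingTheory.DiscreteValuationRing.Basic
import Mathlib.RingTheory.Valuation.LocalSubring
import Fermat.Prelude.Def_AlgebraicCurve_DivisorClassGroup
import Fermat.Agent.FF.Basic

/-!
# Extending a place along an extension of constants

`F/K` is a field extension, `v` a place with residue field `K`, `F'/L` is generated over `L` by the
image of `ι : F → F'` (semilinear over `jK : K → L`), such that `L`-relations between elements of
`ι F` project to `K`-relations. Then `v` has exactly one extension to a place of `F'/L`, and it is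
unramified. This is applied to base change from `ℚ̄` to `ℂ` on `X₀(N)`.
-/

noncomputable section

namespace Fermat.Agent.Mono

open AlgebraicCurve

variable {K L F F' : Type*} [Field K] [Field L] [Field F] [Field F'] [Algebra K F] [Algebra L F']

section PlaceBasics

variable (v : Place K F)

theorem mem_place_iff {x : F} : x ∈ v.toValuationSubring ↔ x = 0 ∨ 0 ≤ v.ord x :=
  FF.mem_iff v

theorem exists_ord_eq_one : ∃ t : F, t ≠ 0 ∧ v.ord t = 1 :=
  FF.exists_ord_eq_one v

theorem ord_div {x y : F} (hx : x ≠ 0) (hy : y ≠ 0) : v.ord (x / y) = v.ord x - v.ord y :=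
  FF.ord_div v hx hy

/-- A sum of elements vanishing at a place vanishes there. -/
theorem add_posOrd {x y : F} (hx : x = 0 ∨ 0 < v.ord x) (hy : y = 0 ∨ 0 < v.ord y) :
    x + y = 0 ∨ 0 < v.ord (x + y) := by
  obtain ⟨t, ht0, ht⟩ := exists_ord_eq_one v
  have key : ∀ z : F, (z = 0 ∨ 0 < v.ord z) ↔ z / t ∈ v.toValuationSubring := by
    intro z
    rcases eq_or_ne z 0 with rfl | hz
    · simp
    · rw [mem_place_iff, ord_div v hz ht0, ht]
      simp only [hz, false_or, div_eq_zero_iff, ht0, or_false]
      omega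
  rw [key] at hx hy ⊢
  rw [add_div]
  exact add_mem hx hy

theorem ord_algebraMap {c : K} (hc : c ≠ 0) : v.ord (algebraMap K F c) = 0 := by
  have h0 : algebraMap K F c ≠ 0 := by simpa using hc
  have h1 := ((mem_place_iff v).mp (v.algebraMap_mem' c)).resolve_left h0
  have h2 := ((mem_place_iff v).mp (v.algebraMap_mem' c⁻¹)).resolve_left (by simpa using hc)
  rw [map_inv₀, v.ord_inv] at h2
  omega

theorem smul_posOrd (c : K) {x : F} (hx : x = 0 ∨ 0 < v.ord x) :
    c • x = 0 ∨ 0 < v.ord (c • x) := by
  rcases eq_or_ne c 0 with rfl | hc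
  · simp
  rcases eq_or_ne x 0 with rfl | hx0
  · simp
  rw [Algebra.smul_def, v.ord_mul (by simpa using hc) hx0, ord_algebraMap v hc, zero_add]
  exact Or.inr (hx.resolve_left hx0)

theorem one_not_posOrd : ¬ ((1 : F) = 0 ∨ 0 < v.ord (1 : F)) := by simp

end PlaceBasics

/-- `F'` is the compositum of `L` and `F` over `K`. -/
structure IsConstExt (jK : K →+* L) (ι : F →+* F') : Prop where
  compat : ∀ c, ι (algebraMap K F c) = algebraMap L F' (jK c)
  proj : ∀ φ : L →+ K, (∀ k l, φ (jK k * l) = k * φ l) →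
    ∀ {n : ℕ} (c : Fin n → L) (x : Fin n → F), ∑ i, c i • ι (x i) = 0 → ∑ i, φ (c i) • x i = 0
  gen : IntermediateField.adjoin L (Set.range ι) = ⊤

variable {jK : K →+* L} {ι : F →+* F'}

/-- There is a `K`-linear functional on `L` taking value `1` at a given non-zero element. -/
theorem exists_proj (jK : K →+* L) {a : L} (ha : a ≠ 0) :
    ∃ φ : L →+ K, (∀ k l, φ (jK k * l) = k * φ l) ∧ φ a = 1 := by
  let : Algebra K L := jK.toAlgebra
  obtain ⟨φ, hφ⟩ := (LinearMap.toSpanSingleton K L a).exists_leftInverse_of_injective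
    (LinearMap.ker_toSpanSingleton K ha)
  refine ⟨φ.toAddMonoidHom, fun k l => ?_, ?_⟩
  · show φ (jK k * l) = k * φ l
    rw [show jK k * l = k • l from (Algebra.smul_def k l).symm, map_smul, smul_eq_mul]
  · simpa using LinearMap.congr_fun hφ 1

/-- A valuation subring of `F'` compatible with the place `v`. -/
structure IsAbove (ι : F →+* F') (v : Place K F) (t : F) (A : ValuationSubring F') : Prop where
  const_mem : ∀ c : L, algebraMap L F' c ∈ A
  image_mem : ∀ x ∈ v.toValuationSubring, ι x ∈ A
  uniformizer_lt : A.valuation (ι t) < 1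

/-- The residue field of `v` is `K`. -/
def HasTrivialResidue (v : Place K F) : Prop :=
  ∀ x ∈ v.toValuationSubring, ∃ c : K, x - algebraMap K F c = 0 ∨ 0 < v.ord (x - algebraMap K F c)

section

variable {v : Place K F} {t : F}

omit [Algebra L F'] in
/-- An element of a valuation subring with inverse there has valuation one. -/
theorem valuation_eq_one_of_mem_inv_mem (A : ValuationSubring F') {z : F'} (hz : z ≠ 0)
    (h1 : z ∈ A) (h2 : z⁻¹ ∈ A) : A.valuation z = 1 := by
  rw [← A.valuation_le_one_iff] at h1 h2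
  have h3 : A.valuation z * A.valuation z⁻¹ = 1 := by rw [← map_mul, mul_inv_cancel₀ hz, map_one]
  exact le_antisymm h1 (h3 ▸ mul_le_of_le_one_right' h2)

/-- The valuation of the image of `x` is that of the uniformizer to the power `v.ord x`. -/
theorem valuation_image {A : ValuationSubring F'} (hA : IsAbove (L := L) ι v t A) (ht0 : t ≠ 0)
    (ht : v.ord t = 1) {x : F} (hx : x ≠ 0) :
    A.valuation (ι x) = A.valuation (ι t) ^ v.ord x := by
  have hunit : ∀ u : F, u ≠ 0 → v.ord u = 0 → A.valuation (ι u) = 1 := by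
    intro u hu h0
    have h1 : ι u ∈ A := hA.image_mem u ((mem_place_iff v).mpr (Or.inr h0.ge))
    have h2 : ι u⁻¹ ∈ A :=
      hA.image_mem u⁻¹ ((mem_place_iff v).mpr (Or.inr (by rw [v.ord_inv, h0, neg_zero])))
    rw [map_inv₀] at h2
    exact valuation_eq_one_of_mem_inv_mem A (by simpa using hu) h1 h2
  have hz : t ^ v.ord x ≠ 0 := zpow_ne_zero _ ht0
  have h := hunit (x / t ^ v.ord x) (div_ne_zero hx hz)
    (by rw [ord_div v hx hz, v.ord_zpow, ht, mul_one, sub_self])
  rw [map_div₀, map_div₀, map_zpow₀, map_zpow₀] at h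
  exact eq_of_div_eq_one h

/-- Constants have valuation one. -/
theorem valuation_const {A : ValuationSubring F'} (hA : IsAbove (L := L) ι v t A) {c : L}
    (hc : c ≠ 0) : A.valuation (algebraMap L F' c) = 1 := by
  exact valuation_eq_one_of_mem_inv_mem A (by simpa using hc) (hA.const_mem c)
    (by rw [← map_inv₀]; exact hA.const_mem c⁻¹)

/-- The order of an element of the `L`-span of `ι F` does not depend on the valuation subring. -/
theorem exists_order_sum (h : IsConstExt jK ι) (hres : HasTrivialResidue v)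
    (ht0 : t ≠ 0) (ht : v.ord t = 1) (n : ℕ) :
    ∀ (c : Fin n → L) (x : Fin n → F) (b : ℤ), (∀ i, x i = 0 ∨ b ≤ v.ord (x i)) →
      (∑ i, c i • ι (x i) = 0 ∨
      ∃ k : ℤ, b ≤ k ∧ ∀ A : ValuationSubring F', IsAbove (L := L) ι v t A →
        A.valuation (∑ i, c i • ι (x i)) = A.valuation (ι t) ^ k) := by
  induction n with
  | zero => intro c x b _; simp
  | succ n ih =>
    intro c x b hb
    classical
    by_cases hzero : ∀ i, x i = 0
    · left; simp [hzero]
    obtain ⟨j, hj, hmin⟩ : ∃ j, x j ≠ 0 ∧ ∀ i, x i = 0 ∨ v.ord (x j) ≤ v.ord (x i) := by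
      have hne : (Finset.univ.filter fun i => x i ≠ 0).Nonempty := by
        rw [not_forall] at hzero
        obtain ⟨i, hi⟩ := hzero
        exact ⟨i, by simpa using hi⟩
      obtain ⟨j, hjmem, hjmin⟩ := Finset.exists_min_image _ (fun i => v.ord (x i)) hne
      refine ⟨j, by simpa using hjmem, fun i => ?_⟩
      by_cases hi : x i = 0
      · exact Or.inl hi
      · exact Or.inr (hjmin i (by simpa using hi))
    set n₀ := v.ord (x j) with hn₀
    have hlam : ∀ i, ∃ l : K, x i - l • x j = 0 ∨ n₀ + 1 ≤ v.ord (x i - l • x j) := by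
      intro i
      have hmem : x i / x j ∈ v.toValuationSubring := by
        rw [mem_place_iff]
        rcases hmin i with hi | hi
        · left; simp [hi]
        · by_cases hi0 : x i = 0
          · left; simp [hi0]
          · right; rw [ord_div v hi0 hj]; omega
      obtain ⟨l, hl⟩ := hres _ hmem
      refine ⟨l, ?_⟩
      have heq : x i - l • x j = (x i / x j - algebraMap K F l) * x j := by
        rw [sub_mul, div_mul_cancel₀ _ hj, ← Algebra.smul_def]
      by_cases hz : x i / x j - algebraMap K F l = 0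
      · left; rw [heq, hz, zero_mul]
      · right
        rw [heq, v.ord_mul hz hj]
        have := hl.resolve_left hz
        omega
    choose l hl using hlam
    set C : L := c j + ∑ i : Fin n, c (j.succAbove i) * jK (l (j.succAbove i)) with hC
    set x' : Fin n → F := fun i => x (j.succAbove i) - l (j.succAbove i) • x j with hx'
    have hsum : ∑ i, c i • ι (x i) = C • ι (x j) + ∑ i, c (j.succAbove i) • ι (x' i) := by
      rw [Fin.sum_univ_succAbove _ j, hC, add_smul, Finset.sum_smul, add_assoc,
        ← Finset.sum_add_distrib]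
      congr 1
      refine Finset.sum_congr rfl fun i _ => ?_
      simp only [hx', map_sub, smul_sub]
      rw [Algebra.smul_def (l (j.succAbove i)), map_mul, h.compat, ← Algebra.smul_def, ← mul_smul]
      abel
    have hbj : b ≤ n₀ := (hb j).resolve_left hj
    have hrec := ih (fun i => c (j.succAbove i)) x' (n₀ + 1) (fun i => hl (j.succAbove i))
    rw [hsum]
    rcases eq_or_ne C 0 with hC0 | hC0
    · rw [hC0, zero_smul, zero_add]
      rcases hrec with h0 | ⟨k, hk, hval⟩
      · exact Or.inl h0
      · exact Or.inr ⟨k, by omega, hval⟩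
    · right
      refine ⟨n₀, hbj, fun A hA => ?_⟩
      have hmain : A.valuation (C • ι (x j)) = A.valuation (ι t) ^ n₀ := by
        rw [Algebra.smul_def, map_mul, valuation_const hA hC0, one_mul,
          valuation_image hA ht0 ht hj]
      have hτ0 : A.valuation (ι t) ≠ 0 :=
        (Valuation.ne_zero_iff _).mpr (by simpa using ht0)
      have hlt : A.valuation (∑ i, c (j.succAbove i) • ι (x' i)) <
          A.valuation (ι t) ^ n₀ := by
        rcases hrec with h0 | ⟨k, hk, hval⟩
        · rw [h0, map_zero]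
          exact zero_lt_iff.mpr (zpow_ne_zero _ hτ0)
        · rw [hval A hA]
          exact zpow_lt_zpow_right_of_lt_one₀ (zero_lt_iff.mpr hτ0) hA.uniformizer_lt (by omega)
      rw [← hmain] at hlt
      rw [Valuation.map_add_eq_of_lt_left _ hlt, hmain]

/-- The algebra generated by the image of a field is its linear span. -/
theorem adjoin_range_toSubmodule (ι : F →+* F') :
    (Algebra.adjoin L (Set.range ι)).toSubmodule = Submodule.span L (Set.range ι) := by
  rw [Algebra.adjoin_eq_span]
  congr 1
  rw [← RingHom.coe_range, ← Subring.coe_toSubsemiring, ← Subsemiring.coe_toSubmonoid,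
    Submonoid.closure_eq]

/-- Every non-zero element of `F'` has a well-defined order above `v`. -/
theorem exists_order (h : IsConstExt jK ι) (hres : HasTrivialResidue v)
    (ht0 : t ≠ 0) (ht : v.ord t = 1) {y : F'} (hy : y ≠ 0) :
    ∃ k : ℤ, ∀ A : ValuationSubring F', IsAbove (L := L) ι v t A →
      A.valuation y = A.valuation (ι t) ^ k := by
  have hspan : ∀ a ∈ Algebra.adjoin L (Set.range ι), a ≠ 0 →
      ∃ k : ℤ, ∀ A : ValuationSubring F', IsAbove (L := L) ι v t A →
        A.valuation a = A.valuation (ι t) ^ k := by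
    intro a ha ha0
    rw [← Subalgebra.mem_toSubmodule, adjoin_range_toSubmodule] at ha
    obtain ⟨n, c, g, rfl⟩ := Submodule.mem_span_set'.mp ha
    choose x hx using fun i => (g i).2
    obtain ⟨b, hb⟩ := (Finset.univ.image fun i => v.ord (x i)).bddBelow
    have hg : ∑ i, c i • (g i : F') = ∑ i, c i • ι (x i) := by simp [hx]
    rw [hg] at ha0 ⊢
    rcases exists_order_sum h hres ht0 ht n c x b
        (fun i => Or.inr (hb (by simp))) with h0 | ⟨k, -, hk⟩
    · exact absurd h0 ha0
    · exact ⟨k, hk⟩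
  have hy' : y ∈ IntermediateField.adjoin L (Set.range ι) := h.gen ▸ IntermediateField.mem_top
  obtain ⟨r, hr, s, hs, rfl⟩ := IntermediateField.mem_adjoin_iff_div.mp hy'
  have hr0 : r ≠ 0 := fun h0 => hy (by simp [h0])
  have hs0 : s ≠ 0 := fun h0 => hy (by simp [h0])
  obtain ⟨k, hk⟩ := hspan r hr hr0
  obtain ⟨k', hk'⟩ := hspan s hs hs0
  refine ⟨k - k', fun A hA => ?_⟩
  rw [map_div₀, hk A hA, hk' A hA, zpow_sub₀]
  exact (Valuation.ne_zero_iff _).mpr (by simpa using ht0)

/-- At most one valuation subring lies above `v`. -/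
theorem isAbove_unique (h : IsConstExt jK ι) (hres : HasTrivialResidue v)
    (ht0 : t ≠ 0) (ht : v.ord t = 1) {A B : ValuationSubring F'}
    (hA : IsAbove (L := L) ι v t A) (hB : IsAbove (L := L) ι v t B) : A = B := by
  ext y
  rcases eq_or_ne y 0 with rfl | hy
  · simp
  obtain ⟨k, hk⟩ := exists_order h hres ht0 ht hy
  have key : ∀ C : ValuationSubring F', IsAbove (L := L) ι v t C → (y ∈ C ↔ 0 ≤ k) := by
    intro C hC
    have hτ0 : C.valuation (ι t) ≠ 0 := (Valuation.ne_zero_iff _).mpr (by simpa using ht0)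
    rw [← C.valuation_le_one_iff, hk C hC]
    exact zpow_le_one_iff_right_of_lt_one₀ (zero_lt_iff.mpr hτ0) hC.uniformizer_lt
  rw [key A hA, key B hB]

/-- Existence of a valuation subring above a place. -/
theorem exists_isAbove (h : IsConstExt jK ι) (ht : v.ord t = 1) :
    ∃ A : ValuationSubring F', IsAbove (L := L) ι v t A := by
  classical
  let M : Submonoid F' :=
    (v.toValuationSubring.toSubring.toSubmonoid).map (ι : F →* F')
  let R : Subalgebra L F' := Algebra.adjoin L (M : Set F')
  have hR : R.toSubmodule = Submodule.span L (M : Set F') := by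
    rw [Algebra.adjoin_eq_span, Submonoid.closure_eq]
  let m : Set F' := ι '' {x | x = 0 ∨ 0 < v.ord x}
  have hmul : ∀ a ∈ R, ∀ b ∈ Submodule.span L m, a * b ∈ Submodule.span L m := by
    intro a ha b hb
    rw [← Subalgebra.mem_toSubmodule, hR] at ha
    have := Submodule.mul_mem_mul ha hb
    rw [Submodule.span_mul_span] at this
    refine Submodule.span_mono ?_ this
    rintro _ ⟨_, ⟨x, hx, rfl⟩, _, ⟨y, hy, rfl⟩, rfl⟩
    refine ⟨x * y, ?_, map_mul ι x y⟩
    rcases eq_or_ne (x * y) 0 with h0 | h0
    · exact Or.inl h0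
    · right
      obtain ⟨hx0, hy0⟩ := mul_ne_zero_iff.mp h0
      have := ((mem_place_iff v).mp hx).resolve_left hx0
      have := (hy : y = 0 ∨ 0 < v.ord y).resolve_left hy0
      rw [v.ord_mul hx0 hy0]
      omega
  let I : Ideal R.toSubring :=
    { carrier := {r | (r : F') ∈ Submodule.span L m}
      zero_mem' := by simp
      add_mem' := fun {a b} ha hb => by
        simp only [Set.mem_ofPred_eq, Subring.coe_add] at ha hb ⊢
        exact Submodule.add_mem _ ha hb
      smul_mem' := fun r b hb => hmul r r.2 b hb }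
  have hI : I ≠ ⊤ := by
    rw [Ideal.ne_top_iff_one]
    intro h1
    change (1 : F') ∈ Submodule.span L m at h1
    obtain ⟨n, c, g, hg⟩ := Submodule.mem_span_set'.mp h1
    choose x hx hxg using fun i => (g i).2
    obtain ⟨φ, hφ, hφ1⟩ := exists_proj jK (one_ne_zero (α := L))
    have hd : ∑ i, (Fin.cons (-1) c : Fin (n + 1) → L) i •
        ι ((Fin.cons 1 x : Fin (n + 1) → F) i) = 0 := by
      rw [Fin.sum_univ_succ]
      simp [hxg, hg]
    have := h.proj φ hφ _ _ hd
    rw [Fin.sum_univ_succ] at this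
    simp only [Fin.cons_zero, Fin.cons_succ, map_neg, hφ1, neg_smul, one_smul] at this
    refine one_not_posOrd v ?_
    rw [show (1 : F) = ∑ i, φ (c i) • x i from (neg_add_eq_zero.mp this)]
    exact Finset.sum_induction _ (fun y => y = 0 ∨ 0 < v.ord y) (fun _ _ => add_posOrd v)
      (Or.inl rfl) fun i _ => smul_posOrd v _ (hx i)
  obtain ⟨A, hRA, hIA⟩ := Ideal.image_subset_nonunits_valuationSubring I hI
  refine ⟨A, fun c => hRA (R.algebraMap_mem c), fun x hx => hRA (Algebra.subset_adjoin
    ⟨x, hx, rfl⟩), ?_⟩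
  rw [← A.mem_nonunits_iff]
  refine hIA ⟨⟨ι t, Algebra.subset_adjoin ⟨t, (mem_place_iff v).mpr (Or.inr (by omega)), rfl⟩⟩,
    Submodule.subset_span ⟨t, Or.inr (by omega), rfl⟩, rfl⟩

/-- The valuation subring above `v` is a discrete valuation ring. -/
theorem isPrincipalIdealRing_of_isAbove (h : IsConstExt jK ι) (hres : HasTrivialResidue v)
    (ht0 : t ≠ 0) (ht : v.ord t = 1) {A : ValuationSubring F'}
    (hA : IsAbove (L := L) ι v t A) :
    (∃ π : A, Irreducible π ∧ (π : F') = ι t) ∧ IsPrincipalIdealRing A := by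
  have htA : ι t ∈ A := (A.valuation_le_one_iff _).mp hA.uniformizer_lt.le
  set π : A := ⟨ι t, htA⟩ with hπdef
  have hπ0 : π ≠ 0 := by simpa [hπdef, Subtype.ext_iff] using ht0
  have hτ0 : 0 < A.valuation (ι t) :=
    zero_lt_iff.mpr ((Valuation.ne_zero_iff _).mpr (by simpa using ht0))
  have hfact : ∀ {a : A}, a ≠ 0 → ∃ n : ℕ, Associated (π ^ n) a := by
    intro a ha
    have haF : (a : F') ≠ 0 := by simpa [ZeroMemClass.coe_eq_zero] using ha
    obtain ⟨k, hk⟩ := exists_order h hres ht0 ht haF
    have hk' := hk A hA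
    have hk0 : 0 ≤ k := by
      rw [← zpow_le_one_iff_right_of_lt_one₀ hτ0 hA.uniformizer_lt, ← hk',
        A.valuation_le_one_iff]
      exact a.2
    obtain ⟨n, rfl⟩ := Int.eq_ofNat_of_zero_le hk0
    have hmem : (a : F') / ι t ^ n ∈ A := by
      rw [← A.valuation_le_one_iff, map_div₀, map_pow, hk', zpow_natCast,
        div_self (pow_ne_zero _ hτ0.ne')]
    have hu : IsUnit (⟨_, hmem⟩ : A) := by
      rw [A.valuation_eq_one_iff]
      show A.valuation ((a : F') / ι t ^ n) = 1
      rw [map_div₀, map_pow, hk', zpow_natCast, div_self (pow_ne_zero _ hτ0.ne')]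
    refine ⟨n, hu.unit, ?_⟩
    ext
    simp only [hπdef, IsUnit.unit_spec, MulMemClass.coe_mul, SubmonoidClass.coe_pow]
    rw [mul_div_cancel₀]
    exact pow_ne_zero _ (by simpa using ht0)
  have hπu : ¬ IsUnit π := by
    rw [A.valuation_eq_one_iff]
    exact hA.uniformizer_lt.ne
  have hirr : Irreducible π := by
    refine ⟨hπu, fun a b hab => ?_⟩
    have ha : a ≠ 0 := fun h0 => hπ0 (by simp [hab, h0])
    have hb : b ≠ 0 := fun h0 => hπ0 (by simp [hab, h0])
    obtain ⟨n, hn⟩ := hfact ha
    obtain ⟨k, hk⟩ := hfact hb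
    rcases Nat.eq_zero_or_pos n with rfl | hn0
    · exact Or.inl (associated_one_iff_isUnit.mp (by simpa using hn.symm))
    rcases Nat.eq_zero_or_pos k with rfl | hk0
    · exact Or.inr (associated_one_iff_isUnit.mp (by simpa using hk.symm))
    exfalso
    have h2 : Associated (π ^ (n + k)) π := by
      rw [pow_add]; exact (hn.mul_mul hk).trans (Associated.of_eq hab.symm)
    obtain ⟨u, hu⟩ := h2
    have h3 : π * (π ^ (n + k - 1) * u) = π * 1 := by
      rw [← mul_assoc, ← pow_succ', Nat.sub_add_cancel (by omega), hu, mul_one]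
    have h4 := mul_left_cancel₀ hπ0 h3
    exact hπu ((isUnit_pow_iff (by omega)).mp (IsUnit.of_mul_eq_one _ h4))
  refine ⟨⟨π, hirr, rfl⟩, ?_⟩
  have : IsDiscreteValuationRing A :=
    IsDiscreteValuationRing.ofHasUnitMulPowIrreducibleFactorization ⟨π, hirr, hfact⟩
  infer_instance

/-- The unique extension of a place with trivial residue field. -/
theorem exists_place_above (h : IsConstExt jK ι) (hres : HasTrivialResidue v) :
    ∃ w : Place L F', (∀ x, w.ord (ι x) = v.ord x) ∧
      ∀ w' : Place L F',
        (∀ x, ι x ∈ w'.toValuationSubring ↔ x ∈ v.toValuationSubring) → w' = w := by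
  obtain ⟨t, ht0, ht⟩ := exists_ord_eq_one v
  obtain ⟨A, hA⟩ := exists_isAbove (t := t) h ht
  obtain ⟨⟨π, hπ, hπt⟩, hP⟩ := isPrincipalIdealRing_of_isAbove h hres ht0 ht hA
  have htop : A ≠ ⊤ := by
    intro he
    have h1 := hA.uniformizer_lt
    rw [← A.mem_nonunits_iff, A.mem_nonunits_iff_or] at h1
    rcases h1 with h0 | h0
    · exact (by simpa using ht0 : ι t ≠ 0) h0
    · exact h0 (he ▸ ValuationSubring.mem_top _)
  let w : Place L F' := ⟨A, hA.const_mem, htop, hP⟩
  refine ⟨w, fun x => ?_, fun w' hw' => ?_⟩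
  · rcases eq_or_ne x 0 with rfl | hx
    · simp
    obtain ⟨n, hn⟩ : ∃ n, n = v.ord x := ⟨_, rfl⟩
    have hmem : ∀ y : F, y ≠ 0 → v.ord y = 0 → w.ord (ι y) = 0 := by
      intro y hy h0
      have h1 := hA.image_mem y ((mem_place_iff v).mpr (Or.inr h0.ge))
      have h2 := hA.image_mem y⁻¹ ((mem_place_iff v).mpr (Or.inr (by rw [v.ord_inv]; omega)))
      have a1 := ((mem_place_iff w).mp h1).resolve_left (by simpa using hy)
      have a2 := ((mem_place_iff w).mp h2).resolve_left (by simpa using hy)
      rw [map_inv₀, w.ord_inv] at a2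
      omega
    have hz : t ^ n ≠ 0 := zpow_ne_zero _ ht0
    have h0 := hmem (x / t ^ n) (div_ne_zero hx hz)
      (by rw [ord_div v hx hz, v.ord_zpow, ht, mul_one, ← hn, sub_self])
    have hwt : w.ord (ι t) = 1 := by
      rw [← hπt]; exact w.ord_coe_irreducible (π := π) hπ
    rw [map_div₀, ord_div w (by simpa using hx) ((map_ne_zero ι).mpr hz), map_zpow₀, w.ord_zpow,
      hwt] at h0
    omega
  · refine Place.ext (isAbove_unique h hres ht0 ht ?_ hA)
    refine ⟨w'.algebraMap_mem', fun x hx => (hw' x).mpr hx, ?_⟩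
    rw [← ValuationSubring.mem_nonunits_iff, ValuationSubring.mem_nonunits_iff_or, ← map_inv₀,
      hw', mem_place_iff, v.ord_inv, ht]
    exact Or.inr (by simp [ht0])

end

end Fermat.Agent.Mono
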