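import Fermat.Prelude.Def_ModularCurve_LaurentCoeff
import Fermat.Agent.Mono.PlaceExtend

/-!
# Extension of constants for subfields of Laurent series

For a subfield `F₀` of `ℚ((q))` and an embedding of constants `K → L`, the inclusion of `K·F₀` in
`L·F₀` is an extension of constants in the sense of `IsConstExt`, so places and divisors can be
extended along it.
-/

noncomputable section

namespace Fermat.Agent.Mono

open ModularCurve HahnSeries

variable {K L : Type*} [Field K] [Field L] [Algebra ℚ K] [Algebra ℚ L]
variable (F₀ : IntermediateField ℚ (LaurentSeries ℚ)) (j : K →ₐ[ℚ] L)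

theorem coeffMap_mem_baseChange {x : LaurentSeries K} (hx : x ∈ laurentBaseChange K F₀) :
    coeffMap (j : K →+* L) x ∈ laurentBaseChange L F₀ := by
  rw [mem_laurentBaseChange_iff] at hx
  induction hx using Subfield.closure_induction with
  | mem y hy =>
      rcases hy with ⟨a, rfl⟩ | ⟨z, hz, rfl⟩
      · rw [algebraMap_laurentSeries_eq_single, coeffMap_single,
          ← algebraMap_laurentSeries_eq_single]
        exact (laurentBaseChange L F₀).algebraMap_mem _
      · rw [coeffEmb, coeffMap_coeffMap, j.comp_algebraMap]
        exact coeffEmb_mem_laurentBaseChange L hz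
  | one => simp
  | add x y _ _ hx hy => simpa using add_mem hx hy
  | neg x _ hx => simpa using neg_mem hx
  | inv x _ hx => simpa using inv_mem hx
  | mul x y _ _ hx hy => simpa using mul_mem hx hy

/-- The inclusion `K·F₀ → L·F₀`. -/
def baseChangeHom : laurentBaseChange K F₀ →+* laurentBaseChange L F₀ :=
  ((coeffMap (j : K →+* L)).comp (laurentBaseChange K F₀).val.toRingHom).codRestrict
    (laurentBaseChange L F₀).toSubfield.toSubring fun x => coeffMap_mem_baseChange F₀ j x.2

@[simp]
theorem coe_baseChangeHom (x : laurentBaseChange K F₀) :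
    ((baseChangeHom F₀ j x : laurentBaseChange L F₀) : LaurentSeries L)
      = coeffMap (j : K →+* L) (x : LaurentSeries K) := rfl

omit [Algebra ℚ L] in
theorem coeff_const_smul (c : L) (x : LaurentSeries L) (k : ℤ) :
    ((algebraMap L (LaurentSeries L) c) * x).coeff k = c * x.coeff k := by
  rw [algebraMap_laurentSeries_eq_single, HahnSeries.coeff_single_mul, sub_zero]

/-- Coefficientwise projection: `L`-relations give `K`-relations. -/
theorem coeffMap_proj (φ : L →+ K) (hφ : ∀ k l, φ (j k * l) = k * φ l) {ι : Type*} (s : Finset ι)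
    (c : ι → L) (x : ι → LaurentSeries K)
    (h : ∑ i ∈ s, algebraMap L (LaurentSeries L) (c i) * coeffMap (j : K →+* L) (x i) = 0) :
    ∑ i ∈ s, algebraMap K (LaurentSeries K) (φ (c i)) * x i = 0 := by
  ext k
  have hk := congrArg (fun f : LaurentSeries L => f.coeff k) h
  simp only [HahnSeries.coeff_sum, coeff_const_smul, coeffMap_coeff, HahnSeries.coeff_zero] at hk
  simp only [HahnSeries.coeff_sum, HahnSeries.coeff_zero]
  have := congrArg φ hk
  rw [map_sum, map_zero] at this
  rw [← this]
  refine Finset.sum_congr rfl fun i _ => ?_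
  rw [algebraMap_laurentSeries_eq_single, HahnSeries.coeff_single_mul, sub_zero,
    mul_comm (c i), show ((j : K →+* L) ((x i).coeff k)) = j ((x i).coeff k) from rfl, hφ]
  ring

/-- `L·F₀` is an extension of constants of `K·F₀`. -/
theorem isConstExt_baseChangeHom : IsConstExt (j : K →+* L) (baseChangeHom F₀ j) where
  compat c := Subtype.ext (by
    show coeffMap (j : K →+* L) (algebraMap K (LaurentSeries K) c) = _
    rw [algebraMap_laurentSeries_eq_single, coeffMap_single, ← algebraMap_laurentSeries_eq_single]
    rfl)
  proj φ hφ := by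
    intro n c x h
    have h' := congrArg (laurentBaseChange L F₀).val h
    rw [map_sum, map_zero] at h'
    apply (laurentBaseChange K F₀).val.injective
    rw [map_sum, map_zero]
    simp only [Algebra.smul_def, map_mul, AlgHom.commutes] at h' ⊢
    exact coeffMap_proj j φ hφ Finset.univ c (fun i => (x i : LaurentSeries K))
      (by simpa using h')
  gen := by
    rw [eq_top_iff]
    intro y _
    have hle : laurentBaseChange L F₀ ≤
        (IntermediateField.adjoin L (Set.range (baseChangeHom F₀ j))).map
          (laurentBaseChange L F₀).val := by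
      refine IntermediateField.adjoin_le_iff.mpr ?_
      rintro _ ⟨z, hz, rfl⟩
      refine ⟨⟨_, coeffEmb_mem_laurentBaseChange L hz⟩,
        IntermediateField.subset_adjoin L _
          ⟨⟨_, coeffEmb_mem_laurentBaseChange K hz⟩, ?_⟩, rfl⟩
      ext1
      show coeffMap (j : K →+* L) (coeffEmb K z) = coeffEmb L z
      rw [coeffEmb, coeffEmb, coeffMap_coeffMap, j.comp_algebraMap]
    obtain ⟨y', hy', hyy⟩ := hle y.2
    rwa [show y = y' from Subtype.ext hyy.symm]

end Fermat.Agent.Mono
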