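import Fermat.Prelude.Def_AlgebraicCurve_Repartitions
import Fermat.Prelude.Def_ModularCurve_ArithmeticGalois
import Fermat.Agent.Mono.AutFixed
import Fermat.Agent.Mono.DescentSurj
import Fermat.Agent.Mono.LaurentConst
import Fermat.Agent.Mono.PicBaseChange

/-!
# Descent of `Pic⁰` along extensions of algebraically closed constants

For subfields of Laurent series, extending the algebraically closed field of constants from `K` to
`L` is injective on `Pic⁰`, commutes with semilinear automorphisms, and hits every class with finite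
orbit under `Aut(L/K)`.
-/

noncomputable section

namespace Fermat.Agent.Mono

open AlgebraicCurve ModularCurve

section Equivariant

variable {K L F F' : Type*} [Field K] [Field L] [Field F] [Field F'] [Algebra K F] [Algebra L F']
variable {jK : K →+* L} {ι : F →+* F'}
variable (h : IsConstExt jK ι) (hres : ∀ v : Place K F, HasTrivialResidue v)

theorem placeMap_smul (g : SemilinearAut K F) (g' : SemilinearAut L F')
    (hg : ∀ x, ι (g • x) = g' • ι x) (v : Place K F) :
    placeMap h hres (g • v) = g' • placeMap h hres v := by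
  refine (placeMap_unique h hres (g • v) _ fun x => ?_).symm
  have hinv : g'⁻¹ • ι x = ι (g⁻¹ • x) :=
    inv_smul_eq_iff.mpr (by rw [← hg, smul_inv_smul])
  rw [SemilinearAut.smul_toValuationSubring, SemilinearAut.smul_toValuationSubring,
    ValuationSubring.mem_pointwise_smul_iff_inv_smul_mem,
    ValuationSubring.mem_pointwise_smul_iff_inv_smul_mem, hinv]
  exact mem_placeMap_iff h hres v _

theorem divMap_smul (g : SemilinearAut K F) (g' : SemilinearAut L F')
    (hg : ∀ x, ι (g • x) = g' • ι x) (D : Divisor K F) :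
    divMap h hres (g • D) = g' • divMap h hres D := by
  show Finsupp.mapDomain (placeMap h hres) (g • D) = g' • Finsupp.mapDomain (placeMap h hres) D
  rw [SemilinearAut.divisor_smul_def, SemilinearAut.divisor_smul_def, ← Finsupp.mapDomain_comp,
    ← Finsupp.mapDomain_comp]
  exact congrArg (fun f => Finsupp.mapDomain f D) (funext (placeMap_smul h hres g g' hg))

variable (hK : ∀ v : Place K F, v.deg = 1) (hL : ∀ w : Place L F', w.deg = 1)

theorem picMap_smul (g : SemilinearAut K F) (g' : SemilinearAut L F')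
    (hg : ∀ x, ι (g • x) = g' • ι x) (z : Pic0 K F) :
    picMap h hres hK hL (g • z) = g' • picMap h hres hK hL z := by
  obtain ⟨D, rfl⟩ := Pic0.mk_surjective z
  rw [SemilinearAut.pic0_smul_mk, picMap_mk, picMap_mk, SemilinearAut.pic0_smul_mk]
  exact congrArg Pic0.mk (Subtype.ext (divMap_smul h hres g g' hg D))

end Equivariant

section Laurent

variable {K L : Type*} [Field K] [Field L] [Algebra ℚ K] [Algebra ℚ L]
variable (F₀ : IntermediateField ℚ (LaurentSeries ℚ)) (j : K →ₐ[ℚ] L)

/-- The automorphisms of `L` fixing `j K`. -/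
def fixK : Subgroup (L ≃ₐ[ℚ] L) where
  carrier := {σ | ∀ a, σ (j a) = j a}
  one_mem' _ := rfl
  mul_mem' := fun {σ τ} hσ hτ a => by
    show σ (τ (j a)) = j a
    rw [hτ, hσ]
  inv_mem' := fun {σ} hσ a => by
    show σ.symm (j a) = j a
    rw [AlgEquiv.symm_apply_eq, hσ]

/-- An element with finitely many conjugates over an algebraically closed field lies in it. -/
theorem mem_range_of_finite_fixK_orbit [IsAlgClosed K] [IsAlgClosed L] {z : L}
    (hz : ((fun σ : L ≃ₐ[ℚ] L => σ z) '' (fixK j : Set (L ≃ₐ[ℚ] L))).Finite) :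
    z ∈ Set.range j := by
  let : Algebra K L := j.toRingHom.toAlgebra
  have : IsScalarTower ℚ K L := IsScalarTower.of_algebraMap_eq fun q => (j.commutes q).symm
  have : CharZero K := charZero_of_injective_algebraMap (algebraMap ℚ K).injective
  refine mem_range_of_finite_orbit (K := K) (hz.subset ?_)
  rintro _ ⟨σ, rfl⟩
  exact ⟨σ.restrictScalars ℚ, fun a => σ.commutes a, rfl⟩

theorem arithmeticGalois_baseChangeHom {σ : L ≃ₐ[ℚ] L} {τ : K ≃ₐ[ℚ] K}
    (hc : ∀ a, j (τ a) = σ (j a)) (x : laurentBaseChange K F₀) :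
    baseChangeHom F₀ j (arithmeticGalois (L := K) F₀ τ • x)
      = arithmeticGalois (L := L) F₀ σ • baseChangeHom F₀ j x := by
  apply Subtype.ext
  rw [coe_baseChangeHom, coe_arithmeticGalois_smul, coe_arithmeticGalois_smul, coe_baseChangeHom,
    coeffMap_coeffMap, coeffMap_coeffMap]
  exact coeffMap_congr (RingHom.ext fun a => hc a) _

theorem smul_baseChangeHom {σ : L ≃ₐ[ℚ] L} (hσ : σ ∈ fixK j) (x : laurentBaseChange K F₀) :
    arithmeticGalois (L := L) F₀ σ • baseChangeHom F₀ j x = baseChangeHom F₀ j x := by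
  rw [← arithmeticGalois_baseChangeHom F₀ j (σ := σ) (τ := 1) (fun a => (hσ a).symm), map_one,
    one_smul]

theorem coe_sum_smul {E : Type*} [Field E] [Algebra ℚ E] {n : ℕ} (d : Fin n → E)
    (u : Fin n → laurentBaseChange E F₀) :
    ((∑ i, d i • u i : laurentBaseChange E F₀) : LaurentSeries E)
      = ∑ i, algebraMap E (LaurentSeries E) (d i) * (u i : LaurentSeries E) := by
  show (laurentBaseChange E F₀).val (∑ i, d i • u i) = _
  rw [map_sum]
  refine Finset.sum_congr rfl fun i _ => ?_
  rw [Algebra.smul_def, map_mul, AlgHom.commutes]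
  rfl

/-- A series with coefficients in a smaller field is a member of the smaller field. -/
theorem exists_coeffMap_eq_of_coeff {f : LaurentSeries L}
    (hcoef : ∀ k, f.coeff k ∈ Set.range j) :
    ∃ Y : LaurentSeries K, coeffMap (j : K →+* L) Y = f := by
  choose y hy using hcoef
  refine ⟨HahnSeries.mk y (f.isPWO_support.mono fun k hk => ?_), ?_⟩
  · simp only [Function.mem_support] at hk ⊢
    exact fun h0 => hk (j.injective ((hy k).trans (h0.trans (map_zero j).symm)))
  · ext k
    exact hy k

/-- A function with coefficients in a smaller field is defined over that field. -/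
theorem mem_range_baseChangeHom_of_coeff {f : laurentBaseChange L F₀}
    (hcoef : ∀ k, (f : LaurentSeries L).coeff k ∈ Set.range j) :
    f ∈ Set.range (baseChangeHom F₀ j) := by
  obtain ⟨Y, hY⟩ := exists_coeffMap_eq_of_coeff j hcoef
  have hmem : f ∈ IntermediateField.adjoin L (Set.range (baseChangeHom F₀ j)) :=
    (isConstExt_baseChangeHom F₀ j).gen ▸ IntermediateField.mem_top
  obtain ⟨a, ha, b, hb, hab⟩ := IntermediateField.mem_adjoin_iff_div.mp hmem
  rw [← Subalgebra.mem_toSubmodule, adjoin_range_toSubmodule] at ha hb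
  rcases eq_or_ne b 0 with rfl | hb0
  · exact ⟨0, by rw [map_zero, hab, div_zero]⟩
  obtain ⟨n, c, xa, rfl⟩ := Submodule.mem_span_set'.mp ha
  obtain ⟨n', d, xb, rfl⟩ := Submodule.mem_span_set'.mp hb
  choose x hx using fun i => (xa i).2
  choose u hu using fun i => (xb i).2
  have hrel := congrArg (fun g : laurentBaseChange L F₀ => (g : LaurentSeries L))
    ((eq_div_iff hb0).mp hab)
  have hb0' : ((∑ i, d i • (xb i : laurentBaseChange L F₀) : laurentBaseChange L F₀) :
      LaurentSeries L) ≠ 0 := fun h => hb0 (Subtype.ext h)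
  simp only [IntermediateField.coe_mul] at hrel
  rw [coe_sum_smul F₀ d (fun i => (xb i : laurentBaseChange L F₀))] at hb0' hrel
  rw [coe_sum_smul F₀ c (fun i => (xa i : laurentBaseChange L F₀))] at hrel
  simp only [← hx, ← hu, coe_baseChangeHom, ← hY] at hrel hb0'
  obtain ⟨k, hk⟩ : ∃ k, (∑ i, algebraMap L (LaurentSeries L) (d i) *
      coeffMap (j : K →+* L) (u i : LaurentSeries K)).coeff k ≠ 0 := by
    by_contra hne
    simp only [not_exists, not_not] at hne
    exact hb0' (HahnSeries.ext (funext fun k => by simpa using hne k))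
  obtain ⟨φ, hφ, hφ1⟩ := exists_proj (j : K →+* L) hk
  have hzero : ∑ i : Fin n' ⊕ Fin n,
      algebraMap L (LaurentSeries L) (Sum.elim d (fun i => -c i) i) *
        coeffMap (j : K →+* L)
          (Sum.elim (fun i => Y * (u i : LaurentSeries K)) (fun i => (x i : LaurentSeries K)) i)
        = 0 := by
    rw [Fintype.sum_sum_type]
    simp only [Sum.elim_inl, Sum.elim_inr, map_mul, map_neg, neg_mul, Finset.sum_neg_distrib]
    rw [← hrel, Finset.mul_sum, ← sub_eq_add_neg, sub_eq_zero]
    exact Finset.sum_congr rfl fun i _ => by ring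
  have hres := coeffMap_proj j φ hφ Finset.univ _ _ hzero
  rw [Fintype.sum_sum_type] at hres
  simp only [Sum.elim_inl, Sum.elim_inr, map_neg, neg_mul, Finset.sum_neg_distrib,
    ← sub_eq_add_neg, sub_eq_zero] at hres
  set B : laurentBaseChange K F₀ := ∑ i, φ (d i) • u i with hB
  set A : laurentBaseChange K F₀ := ∑ i, φ (c i) • x i with hA
  have hYB : Y * (B : LaurentSeries K) = (A : LaurentSeries K) := by
    rw [hA, hB, coe_sum_smul, coe_sum_smul, Finset.mul_sum, ← hres]
    exact Finset.sum_congr rfl fun i _ => by ring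
  have hB0 : (B : LaurentSeries K) ≠ 0 := by
    intro h
    rw [hB, coe_sum_smul] at h
    have hk' := congrArg (fun g : LaurentSeries K => g.coeff k) h
    simp only [HahnSeries.coeff_sum, coeff_const_smul, HahnSeries.coeff_zero] at hk'
    simp only [HahnSeries.coeff_sum, coeff_const_smul, coeffMap_coeff] at hφ1
    refine one_ne_zero (α := K) (hφ1.symm.trans ?_)
    rw [map_sum, ← hk']
    refine Finset.sum_congr rfl fun i _ => ?_
    rw [mul_comm (d i), mul_comm (φ (d i))]
    exact hφ _ _
  refine ⟨A / B, Subtype.ext ?_⟩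
  rw [coe_baseChangeHom, ← hY]
  refine congrArg _ ?_
  rw [IntermediateField.coe_div, div_eq_iff hB0]
  exact hYB.symm

/-- An element of `L·F₀` fixed by `Aut(L/K)` comes from `K·F₀`. -/
theorem mem_range_baseChangeHom [IsAlgClosed K] [IsAlgClosed L] {f : laurentBaseChange L F₀}
    (hf : ∀ σ ∈ fixK j, arithmeticGalois (L := L) F₀ σ • f = f) :
    f ∈ Set.range (baseChangeHom F₀ j) := by
  refine mem_range_baseChangeHom_of_coeff F₀ j fun k => mem_range_of_finite_fixK_orbit j
    ((Set.finite_singleton ((f : LaurentSeries L).coeff k)).subset ?_)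
  rintro _ ⟨σ, hσ, rfl⟩
  have h := congrArg (fun g : laurentBaseChange L F₀ => (g : LaurentSeries L).coeff k) (hf σ hσ)
  rw [coe_arithmeticGalois_smul] at h
  simpa using h

/-- An eigenfunction of `Aut(L/K)` is, up to a constant, defined over `K`. -/
theorem exists_smul_mem_range [IsAlgClosed K] [IsAlgClosed L] {f : laurentBaseChange L F₀}
    (hf0 : f ≠ 0) (hf : ∀ σ ∈ fixK j, ∃ c : L, arithmeticGalois (L := L) F₀ σ • f = c • f) :
    ∃ a : L, a ≠ 0 ∧ a • f ∈ Set.range (baseChangeHom F₀ j) := by
  have hsne : (f : LaurentSeries L) ≠ 0 := fun h => hf0 (Subtype.ext h)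
  obtain ⟨n, hn⟩ : ∃ n, (f : LaurentSeries L).coeff n ≠ 0 := by
    by_contra hne
    simp only [not_exists, not_not] at hne
    exact hsne (HahnSeries.ext (funext fun k => by simpa using hne k))
  set a := ((f : LaurentSeries L).coeff n)⁻¹ with ha
  refine ⟨a, inv_ne_zero hn, mem_range_baseChangeHom F₀ j fun σ hσ => ?_⟩
  obtain ⟨c, hc⟩ := hf σ hσ
  have hk := congrArg (fun x : laurentBaseChange L F₀ => (x : LaurentSeries L).coeff n) hc
  simp only [coe_arithmeticGalois_smul, coeffMap_coeff] at hk
  rw [Algebra.smul_def, IntermediateField.coe_mul,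
    show ((algebraMap L (laurentBaseChange L F₀) c : laurentBaseChange L F₀) :
      LaurentSeries L) = algebraMap L (LaurentSeries L) c from rfl, coeff_const_smul] at hk
  rw [Algebra.smul_def a f, smul_mul', SemilinearAut.smul_algebraMap, hc, Algebra.smul_def c f,
    ← mul_assoc, ← map_mul]
  congr 2
  show σ a * c = a
  rw [ha, map_inv₀]
  change σ ((f : LaurentSeries L).coeff n) = _ at hk
  rw [hk, mul_inv, mul_comm c⁻¹, mul_assoc, inv_mul_cancel₀, mul_one]
  rintro rfl
  rw [zero_mul] at hk
  exact hn (σ.injective (by rw [hk, map_zero]))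

variable {F₀ j}
variable (hres : ∀ v : Place K (laurentBaseChange K F₀), HasTrivialResidue v)
variable (hK : ∀ v : Place K (laurentBaseChange K F₀), v.deg = 1)
variable (hL : ∀ w : Place L (laurentBaseChange L F₀), w.deg = 1)

local notation "ι" => baseChangeHom F₀ j

theorem smul_divMap {σ : L ≃ₐ[ℚ] L} (hσ : σ ∈ fixK j) (D : Divisor K (laurentBaseChange K F₀)) :
    arithmeticGalois (L := L) F₀ σ • divMap (isConstExt_baseChangeHom F₀ j) hres D
      = divMap (isConstExt_baseChangeHom F₀ j) hres D := by
  rw [← divMap_smul _ hres (1 : SemilinearAut K (laurentBaseChange K F₀)) _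
    (fun x => by rw [one_smul, smul_baseChangeHom F₀ j hσ]), one_smul]

variable (hconst : ∀ f : laurentBaseChange L F₀, f ≠ 0 →
  (∀ w : Place L (laurentBaseChange L F₀), w.ord f = 0) → f ∈ Set.range (algebraMap L _))

include hconst in
/-- Extending algebraically closed constants is injective on `Pic⁰`. -/
theorem picMap_injective [IsAlgClosed K] [IsAlgClosed L] :
    Function.Injective (picMap (isConstExt_baseChangeHom F₀ j) hres hK hL) := by
  rw [injective_iff_map_eq_zero]
  intro z hz
  obtain ⟨D, rfl⟩ := Pic0.mk_surjective z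
  rw [picMap_mk] at hz
  have hmem := AddSubgroup.mem_addSubgroupOf.mp ((QuotientAddGroup.eq_zero_iff _).mp hz)
  rw [coe_degZeroMap, Divisor.mem_principal] at hmem
  obtain ⟨f, hf0, hf⟩ := hmem
  obtain ⟨a, ha0, y, hy⟩ := exists_smul_mem_range F₀ j hf0 fun σ hσ =>
    exists_eq_smul_of_divisor_smul_eq hconst (arithmeticGalois (L := L) F₀ σ) hf0 hf
      (smul_divMap hres hσ _)
  refine (QuotientAddGroup.eq_zero_iff _).mpr
    (AddSubgroup.mem_addSubgroupOf.mpr (Divisor.mem_principal.mpr ?_))
  refine ⟨y, fun h0 => ?_, fun v => ?_⟩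
  · rw [h0, map_zero, Algebra.smul_def a f] at hy
    exact mul_ne_zero ((map_ne_zero (algebraMap L _)).mpr ha0) hf0 hy.symm
  · rw [← ord_placeMap (isConstExt_baseChangeHom F₀ j) hres v y, hy, Algebra.smul_def,
      Place.ord_mul _ (by simpa using ha0) hf0, ord_algebraMap _ ha0, zero_add, ← hf,
      divMap_apply_placeMap]

include hconst in
/-- A class of `L·F₀` with finite orbit under `Aut(L/K)` comes from `K·F₀`. -/
theorem mem_range_picMap_of_finite [IsAlgClosed K] [IsAlgClosed L]
    [HasPrincipalDivisors L (laurentBaseChange L F₀)]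
    (hresL : ∀ w : Place L (laurentBaseChange L F₀), HasTrivialResidue w)
    {u : laurentBaseChange K F₀} (hu : u ∉ Set.range (algebraMap K _))
    (z : Pic0 L (laurentBaseChange L F₀))
    (hz : ((fun σ : L ≃ₐ[ℚ] L => σ • z) '' (fixK j : Set (L ≃ₐ[ℚ] L))).Finite) :
    z ∈ Set.range (picMap (isConstExt_baseChangeHom F₀ j) hres hK hL) := by
  refine mem_range_picMap_of_finite_orbit
    (ρ := (arithmeticGalois (L := L) F₀).comp (fixK j).subtype)
    _ hres hK hL hresL (fun g x => smul_baseChangeHom F₀ j g.2 x) (fun c hc => ?_) hconst hu z ?_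
  · refine mem_range_of_finite_fixK_orbit j (hc.subset ?_)
    rintro _ ⟨σ, hσ, rfl⟩
    exact ⟨⟨σ, hσ⟩, rfl⟩
  · refine hz.subset ?_
    rintro _ ⟨g, rfl⟩
    exact ⟨(g : L ≃ₐ[ℚ] L), g.2, rfl⟩

end Laurent

end Fermat.Agent.Mono
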