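import Fermat.Prelude.Def_GaloisRep_ComplexConjugation
import Fermat.Prelude.Def_ModularCurve_X0ModL
import Fermat.Prelude.Thm_ModularCurve_coeffMap_qExpand
import Fermat.Agent.FF.Degree
import Fermat.Agent.MF.FunctionField

/-!
# The function field of `X₀(N)` over `ℂ`

`FC N` is `ℂ · F₀(N)`; its elements are the expansions of ratios of forms of level `N`
(`mem_FC_iff`).
-/

noncomputable section

namespace Fermat.Agent.Mono

open AlgebraicCurve ModularCurve

/-- The function field of `X₀(N)` over `ℂ`. -/
abbrev FC (N : ℕ) : IntermediateField ℂ (LaurentSeries ℂ) :=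
  laurentBaseChange ℂ (modularFunctionFieldFull N)

/-- `j(q)` over `ℚ` base changes to `j(q)` over `L`. -/
theorem coeffEmb_jq (L : Type*) [Field L] [Algebra ℚ L] : coeffEmb L jq = jqModC L := by
  rw [← jqModC_rat, ← map_jqModC (algebraMap ℚ L)]
  rfl

/-- `FC N` is generated over `ℂ` by the `j(q^d)`, `d ∣ N`. -/
theorem FC_eq_full (N : ℕ) : FC N = modularFunctionFieldFullC ℂ N := by
  refine le_antisymm ?_ ?_
  · refine IntermediateField.adjoin_le_iff.mpr ?_
    rintro _ ⟨z, hz, rfl⟩
    induction hz using IntermediateField.adjoin_induction with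
    | mem y hy =>
      obtain ⟨d, hd, hdvd, rfl⟩ := hy
      rw [SetLike.mem_coe, coeffEmb, coeffMap_qExpand, ← coeffEmb, coeffEmb_jq]
      exact jqModCd_mem_full ℂ N hdvd
    | algebraMap q =>
      rw [SetLike.mem_coe, ModularCurve.algebraMap_laurentSeries_eq_single, coeffEmb,
        coeffMap_single, ← ModularCurve.algebraMap_laurentSeries_eq_single]
      exact (modularFunctionFieldFullC ℂ N).algebraMap_mem _
    | add x y _ _ hx hy => rw [SetLike.mem_coe, map_add]; exact add_mem hx hy
    | inv x _ hx => rw [SetLike.mem_coe, map_inv₀]; exact inv_mem hx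
    | mul x y _ _ hx hy => rw [SetLike.mem_coe, map_mul]; exact mul_mem hx hy
  · refine IntermediateField.adjoin_le_iff.mpr ?_
    rintro _ ⟨d, hd, hdvd, rfl⟩
    have h := coeffEmb_mem_laurentBaseChange ℂ (jqd_mem_full N hdvd)
    rwa [coeffEmb, coeffMap_qExpand, ← coeffEmb, coeffEmb_jq] at h

/-- `FC N` consists of the expansions of ratios of forms of level `N`. -/
theorem mem_FC_iff (N : ℕ) [NeZero N] {x : LaurentSeries ℂ} : x ∈ FC N ↔ MF.IsRatio N x := by
  rw [FC_eq_full, MF.modularFunctionFieldFullC_complex_eq, MF.mem_modularFunctionFieldC_iff]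

/-- A function without zeros and poles is constant. -/
theorem mem_range_of_ord_eq_zero {K F : Type*} [Field K] [Field F] [Algebra K F] [IsAlgClosed K]
    [FF.IsFunctionField K F] {f : F} (h : ∀ v : Place K F, v.ord f = 0) :
    f ∈ Set.range (algebraMap K F) :=
  FF.mem_range_of_ord_nonneg fun v => (h v).ge

end Fermat.Agent.Mono

end
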