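import Fermat.Prelude.Def_GaloisRep_ComplexConjugation
import Fermat.Prelude.Def_ModularCurve_X0ModL
import Fermat.Agent.FF.Degree
import Fermat.Agent.MF.Degree
import Fermat.Agent.Mono.Descent
import Fermat.Agent.Mono.FunctionFieldC

/-!
# Base change of `J₀(N)` from `ℚ̄` to `ℂ`

The function field `FC N` of `X₀(N)` over `ℂ`, the injective map `baseChange` from `J₀(N)(ℚ̄)` to
`J₀(N)(ℂ)`, and the fact that its image contains every class with finite orbit under `Aut(ℂ/ℚ̄)`, in
particular all torsion.
-/

noncomputable section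

namespace Fermat.Agent.Mono

open AlgebraicCurve ModularCurve

local notation "ℚbar" => AlgebraicClosure ℚ

/-- The points of `J₀(N)` over `ℂ`. -/
abbrev JC (N : ℕ) : Type := Pic0 ℂ (FC N)

theorem hasTrivialResidue {K F : Type*} [Field K] [Field F] [Algebra K F] [IsAlgClosed K]
    [FF.IsFunctionField K F] (v : Place K F) : HasTrivialResidue v := by
  intro x hx
  obtain ⟨c, hc⟩ := FF.exists_const (v := v) ((FF.mem_iff_ord_nonneg v).mp hx)
  exact ⟨c, hc⟩

/-- `ℚ̄·F₀ → ℂ·F₀`, by `complexEmbedding` on coefficients. -/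
def toFC (N : ℕ) : modularFunctionFieldBar N →+* FC N :=
  baseChangeHom (modularFunctionFieldFull N) complexEmbedding

theorem coe_toFC (N : ℕ) (x : modularFunctionFieldBar N) :
    (toFC N x : LaurentSeries ℂ) = coeffMap (complexEmbedding : ℚbar →+* ℂ)
        (x : LaurentSeries ℚbar) :=
  rfl

variable (N : ℕ) [FF.IsFunctionField ℚbar (modularFunctionFieldBar N)]
  [FF.IsFunctionField ℂ (FC N)]

/-- The place of `X₀(N)_ℂ` above a place of `X₀(N)_ℚ̄`. -/
def placeC (v : Place ℚbar (modularFunctionFieldBar N)) : Place ℂ (FC N) :=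
  placeMap (isConstExt_baseChangeHom _ complexEmbedding) hasTrivialResidue v

omit [FF.IsFunctionField ℂ ↥(FC N)] in
/-- The place over `ℂ` has the same orders on functions defined over `ℚ̄`. -/
theorem ord_placeC (v : Place ℚbar (modularFunctionFieldBar N)) (x : modularFunctionFieldBar N) :
    (placeC N v).ord (toFC N x) = v.ord x :=
  ord_placeMap (isConstExt_baseChangeHom _ complexEmbedding) hasTrivialResidue v x

omit [FF.IsFunctionField ℂ ↥(FC N)] in
theorem placeC_injective : Function.Injective (placeC N) :=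
  placeMap_injective (isConstExt_baseChangeHom _ complexEmbedding) hasTrivialResidue

omit [FF.IsFunctionField ℂ ↥(FC N)] in
theorem placeC_unique (v : Place ℚbar (modularFunctionFieldBar N)) (V : Place ℂ (FC N))
    (h : ∀ x, toFC N x ∈ V.toValuationSubring ↔ x ∈ v.toValuationSubring) : V = placeC N v :=
  placeMap_unique (isConstExt_baseChangeHom _ complexEmbedding) hasTrivialResidue v V h

/-- Base change of divisors. -/
def divC : Divisor ℚbar (modularFunctionFieldBar N) →+ Divisor ℂ (FC N) :=
  Finsupp.mapDomain.addMonoidHom (placeC N)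

omit [FF.IsFunctionField ℂ ↥(FC N)] in
@[simp]
theorem divC_single (v : Place ℚbar (modularFunctionFieldBar N)) (n : ℤ) :
    divC N (Finsupp.single v n) = Finsupp.single (placeC N v) n :=
  Finsupp.mapDomain_single

/-- Base change of degree zero divisors. -/
def degZeroC :
    Divisor.degZero (K := ℚbar) (F := modularFunctionFieldBar N) →+
      Divisor.degZero (K := ℂ) (F := FC N) :=
  degZeroMap (isConstExt_baseChangeHom _ complexEmbedding) hasTrivialResidue FF.place_deg_eq_one
    FF.place_deg_eq_one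

@[simp]
theorem coe_degZeroC (D : Divisor.degZero (K := ℚbar) (F := modularFunctionFieldBar N)) :
    (degZeroC N D : Divisor ℂ (FC N)) = divC N D := rfl

/-- `J₀(N)(ℚ̄) → J₀(N)(ℂ)`. -/
def baseChange : JZero N →+ JC N :=
  picMap (isConstExt_baseChangeHom _ complexEmbedding) hasTrivialResidue FF.place_deg_eq_one
    FF.place_deg_eq_one

theorem baseChange_mk (D : Divisor.degZero (K := ℚbar) (F := modularFunctionFieldBar N)) :
    baseChange N (Pic0.mk D) = Pic0.mk (degZeroC N D) := rfl

/-- `J₀(N)(ℚ̄) → J₀(N)(ℂ)` is injective. -/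
theorem baseChange_injective : Function.Injective (baseChange N) :=
  picMap_injective hasTrivialResidue FF.place_deg_eq_one FF.place_deg_eq_one
    fun _ _ h => mem_range_of_ord_eq_zero h

/-- Base change intertwines compatible field automorphisms. -/
theorem baseChange_smul (σ : ℂ ≃ₐ[ℚ] ℂ) (τ : ℚbar ≃ₐ[ℚ] ℚbar)
    (h : ∀ a, complexEmbedding (τ a) = σ (complexEmbedding a)) (x : JZero N) :
    baseChange N (τ • x) = σ • baseChange N x :=
  picMap_smul _ hasTrivialResidue FF.place_deg_eq_one FF.place_deg_eq_one _ _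
    (arithmeticGalois_baseChangeHom (modularFunctionFieldFull N) complexEmbedding h) x

theorem jBar_not_const (N : ℕ) :
    (⟨coeffEmb ℚbar jq, coeffEmb_mem_laurentBaseChange ℚbar (by
      simpa [qExpand_one_apply] using jqd_mem_full N (one_dvd N))⟩ : modularFunctionFieldBar N)
        ∉ Set.range (algebraMap ℚbar (modularFunctionFieldBar N)) := by
  rintro ⟨c, hc⟩
  have h : algebraMap ℚbar (LaurentSeries ℚbar) c = coeffEmb ℚbar jq := congrArg Subtype.val hc
  refine MF.transcendental_jqModC (K := ℚbar) ?_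
  rw [← coeffEmb_jq, ← h]
  exact isAlgebraic_algebraMap c

/-- Classes with finite orbit under `Aut(ℂ/ℚ̄)` come from `ℚ̄`. -/
theorem mem_range_baseChange_of_finite (z : JC N)
    (hz : ((fun σ : ℂ ≃ₐ[ℚ] ℂ => σ • z) '' (fixK complexEmbedding : Set (ℂ ≃ₐ[ℚ] ℂ))).Finite) :
    z ∈ Set.range (baseChange N) :=
  mem_range_picMap_of_finite hasTrivialResidue FF.place_deg_eq_one FF.place_deg_eq_one
    (fun _ _ h => mem_range_of_ord_eq_zero h) hasTrivialResidue (jBar_not_const N) z hz

/-- Torsion of `J₀(N)(ℂ)` is rational over `ℚ̄`, as soon as it is finite. -/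
theorem baseChange_torsion_surjective {m : ℕ} [Finite (Pic0.torsion ℂ (FC N) m)]
    (z : JC N) (hz : z ∈ Pic0.torsion ℂ (FC N) m) :
    ∃ x ∈ Pic0.torsion ℚbar (modularFunctionFieldBar N) m, baseChange N x = z := by
  obtain ⟨x, rfl⟩ := mem_range_baseChange_of_finite N z
    ((Set.toFinite (Pic0.torsion ℂ (FC N) m : Set (JC N))).subset (by
      rintro _ ⟨σ, -, rfl⟩
      exact SemilinearAut.smul_mem_torsion _ hz))
  refine ⟨x, Pic0.mem_torsion.mpr (baseChange_injective N ?_), rfl⟩
  rw [map_zsmul, Pic0.mem_torsion.mp hz, map_zero]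

end Fermat.Agent.Mono
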