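import Fermat.Agent.FF.Modular
import Fermat.Agent.Mono.BaseChange

/-!
# Points of `J₀(N)(ℚ̄)` are defined over number fields

For a field `F₀` of series over `ℚ` with a non-constant element fixed by Galois, every element of
`ℚ̄ · F₀`, every place, every divisor and every class is fixed by an open subgroup of the absolute
Galois group; so the Galois action on the torsion of `J₀(N)(ℚ̄)` is continuous.
-/

noncomputable section

namespace Fermat.Agent.Mono

open AlgebraicCurve ModularCurve Topology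
open scoped Pointwise

local notation "ℚbar" => AlgebraicClosure ℚ
/-- The action of the absolute Galois group, with the constants `ℚ̄` given to avoid searches. -/
local notation "galQ" => arithmeticGalois (L := AlgebraicClosure ℚ)

variable {F₀ : IntermediateField ℚ (LaurentSeries ℚ)}

theorem coeffMap_coeffEmb (σ : ℚbar ≃ₐ[ℚ] ℚbar) (y : LaurentSeries ℚ) :
    coeffMap (σ : ℚbar →+* ℚbar) (coeffEmb ℚbar y) = coeffEmb ℚbar y := by
  ext k
  rw [coeffMap_coeff, coeffEmb, coeffMap_coeff]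
  exact σ.commutes _

/-- Each element of `F̄` has its constants in a number field. -/
theorem exists_level_elem (x : laurentBaseChange ℚbar F₀) :
    ∃ L : IntermediateField ℚ ℚbar, FiniteDimensional ℚ L ∧
      ∀ σ : ℚbar ≃ₐ[ℚ] ℚbar, (∀ a ∈ L, σ a = a) → galQ F₀ σ • x = x := by
  suffices h : ∀ z ∈ laurentBaseChange ℚbar F₀, ∃ L : IntermediateField ℚ ℚbar,
      FiniteDimensional ℚ L ∧ ∀ σ : ℚbar ≃ₐ[ℚ] ℚbar, (∀ a ∈ L, σ a = a) →
        coeffMap (σ : ℚbar →+* ℚbar) z = z by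
    obtain ⟨L, hL, h⟩ := h _ x.2
    exact ⟨L, hL, fun σ hσ => Subtype.ext (h σ hσ)⟩
  intro z hz
  induction hz using IntermediateField.adjoin_induction with
  | mem y hy =>
    obtain ⟨w, -, rfl⟩ := hy
    exact ⟨⊥, inferInstance, fun σ _ => coeffMap_coeffEmb σ w⟩
  | algebraMap c =>
    refine ⟨IntermediateField.adjoin ℚ {c},
      IntermediateField.adjoin.finiteDimensional
        ((AlgebraicClosure.isAlgebraic ℚ).isAlgebraic c).isIntegral, fun σ hσ => ?_⟩
    rw [ModularCurve.algebraMap_laurentSeries_eq_single, coeffMap_single]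
    exact congrArg _ (hσ c (IntermediateField.subset_adjoin ℚ {c} rfl))
  | add x y _ _ hx hy =>
    obtain ⟨L₁, h₁, e₁⟩ := hx
    obtain ⟨L₂, h₂, e₂⟩ := hy
    exact ⟨L₁ ⊔ L₂, IntermediateField.finiteDimensional_sup L₁ L₂, fun σ hσ => by
      rw [map_add, e₁ σ fun a ha => hσ a (le_sup_left (a := L₁) ha),
        e₂ σ fun a ha => hσ a (le_sup_right (a := L₁) ha)]⟩
  | inv x _ hx =>
    obtain ⟨L, h, e⟩ := hx
    exact ⟨L, h, fun σ hσ => by rw [map_inv₀, e σ hσ]⟩
  | mul x y _ _ hx hy =>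
    obtain ⟨L₁, h₁, e₁⟩ := hx
    obtain ⟨L₂, h₂, e₂⟩ := hy
    exact ⟨L₁ ⊔ L₂, IntermediateField.finiteDimensional_sup L₁ L₂, fun σ hσ => by
      rw [map_mul, e₁ σ fun a ha => hσ a (le_sup_left (a := L₁) ha),
        e₂ σ fun a ha => hσ a (le_sup_right (a := L₁) ha)]⟩

/-- The stabiliser of a place. -/
def placeStab (v : Place ℚbar (laurentBaseChange ℚbar F₀)) : Subgroup (ℚbar ≃ₐ[ℚ] ℚbar) :=
  (MulAction.stabilizer (SemilinearAut ℚbar (laurentBaseChange ℚbar F₀)) v).comap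
    (galQ F₀)

theorem mem_placeStab {v : Place ℚbar (laurentBaseChange ℚbar F₀)} {σ : ℚbar ≃ₐ[ℚ] ℚbar} :
    σ ∈ placeStab v ↔ galQ F₀ σ • v = v := Iff.rfl

theorem mem_smul_place_iff (σ : ℚbar ≃ₐ[ℚ] ℚbar) (v : Place ℚbar (laurentBaseChange ℚbar F₀))
    (x : laurentBaseChange ℚbar F₀) :
    x ∈ (galQ F₀ σ • v).toValuationSubring ↔
      galQ F₀ σ⁻¹ • x ∈ v.toValuationSubring := by
  rw [SemilinearAut.smul_toValuationSubring,
    ValuationSubring.mem_pointwise_smul_iff_inv_smul_mem, map_inv]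

theorem isClosed_placeStab (v : Place ℚbar (laurentBaseChange ℚbar F₀)) :
    IsClosed (placeStab v : Set (ℚbar ≃ₐ[ℚ] ℚbar)) := by
  rw [← isOpen_compl_iff, isOpen_iff_mem_nhds]
  intro σ hσ
  obtain ⟨x, hx⟩ : ∃ x, ¬ (galQ F₀ σ⁻¹ • x ∈ v.toValuationSubring ↔
      x ∈ v.toValuationSubring) := by
    by_contra h
    push Not at h
    refine hσ (mem_placeStab.mpr (Place.ext (SetLike.ext fun x => ?_)))
    rw [mem_smul_place_iff]
    exact h x
  obtain ⟨L, hL, hfix⟩ := exists_level_elem (galQ F₀ σ⁻¹ • x)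
  have h1 : (L.fixingSubgroup : Set (ℚbar ≃ₐ[ℚ] ℚbar)) ∈ 𝓝 1 :=
    (krullTopology_mem_nhds_one_iff ℚ ℚbar _).mpr ⟨L, hL, subset_rfl⟩
  have h2 : (σ * ·) '' (L.fixingSubgroup : Set (ℚbar ≃ₐ[ℚ] ℚbar)) ∈ 𝓝 σ := by
    have := (Homeomorph.mulLeft σ).isOpenMap.image_mem_nhds h1
    simpa using this
  refine Filter.mem_of_superset h2 ?_
  rintro _ ⟨ρ, hρ, rfl⟩ hmem
  apply hx
  have e : galQ F₀ (σ * ρ)⁻¹ • x = galQ F₀ σ⁻¹ • x := by
    rw [mul_inv_rev, map_mul, mul_smul]
    exact hfix ρ⁻¹ fun a ha =>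
      (IntermediateField.mem_fixingSubgroup_iff L ρ⁻¹).mp (inv_mem hρ) a ha
  rw [← e, ← mem_smul_place_iff, mem_placeStab.mp hmem]

section Transcendental

variable (t : laurentBaseChange ℚbar F₀) (ht : ∀ σ : ℚbar ≃ₐ[ℚ] ℚbar, galQ F₀ σ • t = t)
  (htc : t ∉ Set.range (algebraMap ℚbar (laurentBaseChange ℚbar F₀)))
  [FF.IsFunctionField ℚbar (laurentBaseChange ℚbar F₀)]

omit [FF.IsFunctionField ℚbar (laurentBaseChange ℚbar F₀)] in
include ht in
theorem ord_galF_smul (σ : ℚbar ≃ₐ[ℚ] ℚbar) (v : Place ℚbar (laurentBaseChange ℚbar F₀))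
    (a : ℚbar) :
    (galQ F₀ σ • v).ord (t - algebraMap ℚbar (laurentBaseChange ℚbar F₀) (σ a)) =
      v.ord (t - algebraMap ℚbar (laurentBaseChange ℚbar F₀) a) := by
  have h := SemilinearAut.ord_smul (galQ F₀ σ) v
    (t - algebraMap ℚbar (laurentBaseChange ℚbar F₀) a)
  rw [smul_sub, ht σ, SemilinearAut.smul_algebraMap] at h
  exact h

include ht htc in
/-- A place has finite Galois orbit. -/
theorem finite_orbit_place (v : Place ℚbar (laurentBaseChange ℚbar F₀)) :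
    (Set.range fun σ : ℚbar ≃ₐ[ℚ] ℚbar => galQ F₀ σ • v).Finite := by
  have hne : ∀ a : ℚbar, t - algebraMap ℚbar (laurentBaseChange ℚbar F₀) a ≠ 0 := fun a h =>
    htc ⟨a, (sub_eq_zero.mp h).symm⟩
  rcases le_or_gt 0 (v.ord (t)) with h | h
  · obtain ⟨a, ha | ha⟩ := FF.exists_const (v := v) h
    · exact absurd ha (hne a)
    refine Set.Finite.subset (Set.Finite.biUnion ((minpoly ℚ a).rootSet_finite ℚbar) fun b _ =>
      FF.finite_ord_pos (K := ℚbar) (t - algebraMap ℚbar (laurentBaseChange ℚbar F₀) b)) ?_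
    rintro _ ⟨σ, rfl⟩
    refine Set.mem_biUnion (x := σ a) ?_ ?_
    · rw [Polynomial.mem_rootSet]
      exact ⟨minpoly.ne_zero ((AlgebraicClosure.isAlgebraic ℚ).isAlgebraic a).isIntegral,
        by rw [← minpoly.algEquiv_eq σ a]; exact minpoly.aeval ℚ (σ a)⟩
    · show 0 < (galQ F₀ σ • v).ord _
      rwa [ord_galF_smul t ht]
  · refine (FF.finite_ord_ne_zero (K := ℚbar) (t)).subset ?_
    rintro _ ⟨σ, rfl⟩
    have h' := SemilinearAut.ord_smul (galQ F₀ σ) v (t)
    rw [ht σ] at h'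
    show (galQ F₀ σ • v).ord (t) ≠ 0
    omega

include ht htc in
/-- The stabiliser of a place is open. -/
theorem isOpen_placeStab (v : Place ℚbar (laurentBaseChange ℚbar F₀)) :
    IsOpen (placeStab v : Set (ℚbar ≃ₐ[ℚ] ℚbar)) := by
  have : Finite (Set.range fun σ : ℚbar ≃ₐ[ℚ] ℚbar => galQ F₀ σ • v) :=
    (finite_orbit_place t ht htc v).to_subtype
  have : Finite ((ℚbar ≃ₐ[ℚ] ℚbar) ⧸ placeStab v) := by
    refine Finite.of_injective
      (Quotient.lift (fun σ => (⟨galQ F₀ σ • v, σ, rfl⟩ :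
        Set.range fun σ : ℚbar ≃ₐ[ℚ] ℚbar => galQ F₀ σ • v))
        fun σ τ h => Subtype.ext ?_) ?_
    · have h' : σ⁻¹ * τ ∈ placeStab v := QuotientGroup.leftRel_apply.mp h
      rw [mem_placeStab, map_mul, mul_smul, map_inv, inv_smul_eq_iff] at h'
      exact h'.symm
    · intro q q'
      induction q using QuotientGroup.induction_on with
      | H σ =>
        induction q' using QuotientGroup.induction_on with
        | H τ =>
          intro h
          have h' : galQ F₀ σ • v = galQ F₀ τ • v := congrArg Subtype.val h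
          rw [QuotientGroup.eq, mem_placeStab, map_mul, mul_smul, map_inv, inv_smul_eq_iff, h']
  have := Subgroup.finiteIndex_of_finite_quotient (H := placeStab v)
  exact Subgroup.isOpen_of_isClosed_of_finiteIndex _ (isClosed_placeStab v)

include ht htc in
/-- Every place is defined over a number field. -/
theorem exists_level_place (v : Place ℚbar (laurentBaseChange ℚbar F₀)) :
    ∃ L : IntermediateField ℚ ℚbar, FiniteDimensional ℚ L ∧
      ∀ σ : ℚbar ≃ₐ[ℚ] ℚbar, (∀ a ∈ L, σ a = a) → galQ F₀ σ • v = v := by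
  obtain ⟨L, hL, h⟩ := (krullTopology_mem_nhds_one_iff ℚ ℚbar _).mp
    ((isOpen_placeStab t ht htc v).mem_nhds (one_mem _))
  exact ⟨L, hL, fun σ hσ => h ((IntermediateField.mem_fixingSubgroup_iff L σ).mpr hσ)⟩

include ht htc in
/-- Every divisor is defined over a number field. -/
theorem exists_level_divisor (D : Divisor ℚbar (laurentBaseChange ℚbar F₀)) :
    ∃ L : IntermediateField ℚ ℚbar, FiniteDimensional ℚ L ∧
      ∀ σ : ℚbar ≃ₐ[ℚ] ℚbar, (∀ a ∈ L, σ a = a) → galQ F₀ σ • D = D := by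
  induction D using Finsupp.induction with
  | zero => exact ⟨⊥, inferInstance, fun σ _ => smul_zero _⟩
  | single_add v n D _ _ ih =>
    obtain ⟨L₁, h₁, e₁⟩ := exists_level_place t ht htc v
    obtain ⟨L₂, h₂, e₂⟩ := ih
    exact ⟨L₁ ⊔ L₂, IntermediateField.finiteDimensional_sup L₁ L₂, fun σ hσ => by
      rw [smul_add, SemilinearAut.smul_single, e₁ σ fun a ha => hσ a (le_sup_left (a := L₁) ha),
        e₂ σ fun a ha => hσ a (le_sup_right (a := L₁) ha)]⟩

include ht htc in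
/-- Every class of degree zero is defined over a number field. -/
theorem exists_level_pic0 (z : Pic0 ℚbar (laurentBaseChange ℚbar F₀)) :
    ∃ L : IntermediateField ℚ ℚbar, FiniteDimensional ℚ L ∧
      ∀ σ : ℚbar ≃ₐ[ℚ] ℚbar, (∀ a ∈ L, σ a = a) → galQ F₀ σ • z = z := by
  obtain ⟨D, rfl⟩ := Pic0.mk_surjective z
  obtain ⟨L, hL, h⟩ := exists_level_divisor t ht htc (D : Divisor ℚbar (laurentBaseChange ℚbar F₀))
  refine ⟨L, hL, fun σ hσ => ?_⟩
  rw [SemilinearAut.pic0_smul_mk]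
  exact congrArg Pic0.mk (Subtype.ext (h σ hσ))

end Transcendental

variable {N : ℕ}

/-- `σ` acting on `F̄`. -/
abbrev galF (N : ℕ) : (ℚbar ≃ₐ[ℚ] ℚbar) →* SemilinearAut ℚbar (modularFunctionFieldBar N) :=
  galQ (modularFunctionFieldFull N)

theorem coe_galF_smul (σ : ℚbar ≃ₐ[ℚ] ℚbar) (x : modularFunctionFieldBar N) :
    ((galF N σ • x : modularFunctionFieldBar N) : LaurentSeries ℚbar) =
      coeffMap (σ : ℚbar →+* ℚbar) (x : LaurentSeries ℚbar) := rfl

/-- `j` in `F̄`. -/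
def jBar (N : ℕ) : modularFunctionFieldBar N :=
  ⟨coeffEmb ℚbar jq, coeffEmb_mem_laurentBaseChange ℚbar (by
    simpa [qExpand_one_apply] using jqd_mem_full N (one_dvd N))⟩

theorem galF_smul_jBar (σ : ℚbar ≃ₐ[ℚ] ℚbar) : galF N σ • jBar N = jBar N :=
  Subtype.ext (coeffMap_coeffEmb σ jq)

/-- Every point of `J₀(N)(ℚ̄)` is defined over a number field. -/
theorem exists_level_jZero [NeZero N] (x : JZero N) :
    ∃ L : IntermediateField ℚ ℚbar, FiniteDimensional ℚ L ∧
      ∀ σ : ℚbar ≃ₐ[ℚ] ℚbar, (∀ a ∈ L, σ a = a) → σ • x = x :=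
  exists_level_pic0 (jBar N) galF_smul_jBar (jBar_not_const N) x

end Fermat.Agent.Mono
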