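import Fermat.Agent.Mono.PlaceIn

/-!
# Places of a curve are points and cusps

Every place of the function field of the curve of `Γ ⊇ Γ(W)` over `ℂ` is the place of a point of
`ℍ` or of a cusp, with the expected ramification and widths: the dictionary `PlaceDataOn` holds.
`placeData` is the case of `X₀(N)`.
-/

noncomputable section

namespace Fermat.Agent.X0.CurveField

open AlgebraicCurve CongruenceSubgroup Function
open UpperHalfPlane hiding I
open Fermat.Agent.Mono (IsPtPlaceOn IsCuspPlaceOn PlaceDataOn)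
open scoped MatrixGroups ModularForm Manifold Topology

variable {Γ : Subgroup SL(2, ℤ)} {W : ℕ} {F : IntermediateField ℂ (LaurentSeries ℂ)}
  (D : CurveField Γ W F) [NeZero W]
include D

/-- A place over a finite value of `j` is the place of a point. -/
theorem covered_of_ord_nonneg (v : Place ℂ F) (h : 0 ≤ v.ord D.jEl) :
    ∃ (τ : ℍ) (c : ℕ), 0 < c ∧ IsPtPlaceOn Γ v τ c ∧ ∃ γ : Γ,
      (γ : SL(2, ℤ)) • τ = τ ∧
        IsPrimitiveRoot ((denom (γ : SL(2, ℤ)) (τ : ℂ)) ^ 2) c := by
  have := D.finiteIndex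
  have := D.isFunctionField
  obtain ⟨a, ha | ha⟩ := FF.exists_const (v := v) h
  · exact absurd ha (D.sub_const_ne_zero a)
  obtain ⟨τ, R, hτ, hR, hζ, -, -⟩ := exists_base_point a
  obtain ⟨pl, -, h2, h3⟩ := D.exists_places_point hτ hR hζ
  obtain ⟨o, rfl⟩ := (h2 v).mp ha
  induction o using Quotient.inductionOn with
  | h q =>
    obtain ⟨k, hk0, hkd, hord⟩ := (h3 q).2
    rw [natCard_orbit_zpowers] at hkd
    set d := Function.minimalPeriod (R • ·) q with hd
    set δ := cosetRep q with hδ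
    refine ⟨δ • τ, k, hk0, fun x l A B a b hr hx ha hb => ?_,
      ⟨δ * R ^ d * δ⁻¹, conj_mem_of_smul_eq (pow_minimalPeriod_smul R q)⟩, ?_, ?_⟩
    · rw [← hord x hx]
      exact D.pointVal_ord τ δ hr hx ha hb
    · show (δ * R ^ d * δ⁻¹) • δ • τ = δ • τ
      rw [mul_smul, inv_smul_smul, mul_smul, smul_pow_fixed hR]
    · show IsPrimitiveRoot
        (denom ((δ * R ^ d * δ⁻¹ : SL(2, ℤ)) : GL (Fin 2) ℝ) ((δ • τ : ℍ) : ℂ) ^ 2) k
      have h1 := denom_mul_SL (δ * R ^ d * δ⁻¹) δ τ
      rw [inv_mul_cancel_right, denom_mul_SL δ (R ^ d) τ, smul_pow_fixed hR, denom_pow_fixed hR]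
        at h1
      rw [← mul_left_cancel₀ (denom_ne_zero _ τ) (h1.trans (mul_comm _ _)), ← pow_mul,
        mul_comm, pow_mul]
      exact hζ.pow (one_le_ellOrder τ) (by rw [← hkd, mul_comm])

theorem covered_of_ord_neg (v : Place ℂ F) (h : v.ord D.jEl < 0) :
    ∃ (δ : SL(2, ℤ)) (w : ℕ), 0 < w ∧ IsCuspPlaceOn Γ v δ w ∧
      δ * ModularGroup.T ^ (w : ℤ) * δ⁻¹ ∈ Γ := by
  have := D.finiteIndex
  obtain ⟨pl, -, h2, h3⟩ := D.exists_places_cusp
  obtain ⟨o, rfl⟩ := (h2 v).mp h
  induction o using Quotient.inductionOn with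
  | h q =>
    obtain ⟨k, hk0, hkd, hord⟩ := (h3 q).2
    rw [natCard_orbit_zpowers] at hkd
    set d := Function.minimalPeriod ((ModularGroup.T : SL(2, ℤ)) • ·) q with hd
    refine ⟨cosetRep q, d, Nat.pos_of_ne_zero fun e => ?_, fun x l A B r s hr hx ha hb => ?_, ?_⟩
    · rw [e, mul_zero] at hkd
      exact NeZero.ne W hkd.symm
    · refine mul_left_cancel₀ (Nat.cast_ne_zero.mpr hk0.ne' : (k : ℚ) ≠ 0) ?_
      rw [← mul_assoc, ← Nat.cast_mul, hkd]
      have h1 : (((k : ℤ) * (pl ⟦q⟧).ord x : ℤ) : ℚ) = (W : ℚ) * (r - s) := by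
        rw [← hord x hx]
        exact D.cuspVal_ord _ hr hx ha hb
      push_cast at h1
      exact h1
    · rw [zpow_natCast]
      exact conj_mem_of_smul_eq (pow_minimalPeriod_smul _ q)

/-- The dictionary between places and the points and cusps of the curve of `Γ`. -/
theorem placeData : PlaceDataOn Γ F where
  exists_pt := D.exists_ptPlace
  exists_cusp := D.exists_cuspPlace
  covered v := by
    rcases le_or_gt 0 (v.ord D.jEl) with h | h
    · exact Or.inl (D.covered_of_ord_nonneg v h)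
    · exact Or.inr (D.covered_of_ord_neg v h)

end Fermat.Agent.X0.CurveField

namespace Fermat.Agent.Mono

open AlgebraicCurve CongruenceSubgroup UpperHalfPlane
open scoped MatrixGroups

variable {N : ℕ} [NeZero N]

/-- A place of `X₀(N)` over a finite value of `j` is the place of a point. -/
theorem covered_of_ord_nonneg (v : Place ℂ (FC N)) (h : 0 ≤ v.ord (X0.jC N)) :
    ∃ (τ : ℍ) (c : ℕ), 0 < c ∧ IsPtPlace N v τ c ∧ ∃ γ : Gamma0 N,
      (γ : SL(2, ℤ)) • τ = τ ∧
        IsPrimitiveRoot ((denom (γ : SL(2, ℤ)) (τ : ℂ)) ^ 2) c :=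
  (X0.curveField N).covered_of_ord_nonneg v h

variable (N) in
/-- The dictionary between places of `ℂ(j, j_N)` and the points and cusps of `X₀(N)`. -/
theorem placeData : PlaceData N :=
  (X0.curveField N).placeData

end Fermat.Agent.Mono
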