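import Fermat.Agent.Mono.Main
import Fermat.Agent.Mono.PlaceData

/-!
# The torsion of `J₀(N)`

The results of `Fermat.Agent.Mono.Main` with the place dictionary filled in: finiteness of
`J₀(N)(ℚ̄)[m]` and the projections `jProj`, `jProjPow` from `Hom_cl(Γ₀(N), ℤ)` onto the torsion.
-/

noncomputable section

namespace Fermat.Agent.Mono

open AlgebraicCurve ModularCurve CongruenceSubgroup

variable (N : ℕ) [NeZero N] (m : ℕ) [NeZero m]

/-- The integral model `Hom_cl(Γ₀(N), ℤ) → J₀(N)[m]`. -/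
abbrev jProj : Grp.clHoms ℤ (Gamma0 N) ℤ →+ JZero N :=
  projHom (placeData N) m

/-- `J₀(N)(ℚ̄)[m]` is finite. -/
theorem finite_torsion_JZero :
    Finite (Pic0.torsion (AlgebraicClosure ℚ) (modularFunctionFieldBar N) m) :=
  finite_jZero_torsion (placeData N)

variable (p : ℕ) [NeZero p]

/-- The `p`-power levels of the integral model. -/
abbrev jProjPow (n : ℕ) : Grp.clHoms ℤ (Gamma0 N) ℤ →+ JZero N :=
  haveI : NeZero (p ^ n) := ⟨pow_ne_zero n (NeZero.ne p)⟩
  jProj N (p ^ n)

/-- The `p`-power projection covers exactly the `pⁿ`-torsion. -/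
theorem mem_range_jProjPow (n : ℕ) (x : JZero N) :
    p ^ n • x = 0 ↔ x ∈ (jProjPow N p n).range :=
  haveI : NeZero (p ^ n) := ⟨pow_ne_zero n (NeZero.ne p)⟩
  (mem_range_projHom (placeData N) x).symm

/-- The kernel of the `p`-power projection is `pⁿ` times the lattice. -/
theorem jProjPow_eq_zero_iff (n : ℕ) (v : Grp.clHoms ℤ (Gamma0 N) ℤ) :
    jProjPow N p n v = 0 ↔ ∃ w, v = p ^ n • w :=
  haveI : NeZero (p ^ n) := ⟨pow_ne_zero n (NeZero.ne p)⟩
  projHom_eq_zero_iff (placeData N) v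

/-- The projections of consecutive levels are compatible. -/
theorem nsmul_jProjPow_succ (n : ℕ) (v : Grp.clHoms ℤ (Gamma0 N) ℤ) :
    p • jProjPow N p (n + 1) v = jProjPow N p n v := by
  have : NeZero (p ^ n) := ⟨pow_ne_zero n (NeZero.ne p)⟩
  have h := nsmul_projHom (m := p ^ n) (placeData N) (d := p) v
  have key : ∀ (M M' : ℕ) (h1 : NeZero M) (h2 : NeZero M'), M = M' →
      @jProj N _ M h1 v = @jProj N _ M' h2 v := by
    intro M M' h1 h2 e
    subst e
    rfl
  rw [← h]
  exact congrArg (p • ·) (key _ _ _ _ (pow_succ' p n))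

end Fermat.Agent.Mono
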