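import Fermat.Agent.Mono.Orders
import Fermat.Agent.X0.Points

/-!
# Definitions for the monodromy description of torsion

For a field `F` of ratios of forms on `Γ`: functions as ratios of forms (`IsRepOn`), monodromy
characters (`IsMonodromyOn`), forms with character (`IsCharForm`), and the dictionary `PlaceDataOn`
between the places of `F` and the points and cusps of the curve of `Γ`.  They serve to identify the
`m`-torsion of the Jacobian with `Hom_cl(Γ, ℤ/m)`.  `IsRep`, `IsMonodromy` and `PlaceData` are the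
case `Γ = Γ₀(N)`, `F = ℂ(j, j_N)`.
-/

noncomputable section

namespace Fermat.Agent.Mono

open AlgebraicCurve ModularCurve CongruenceSubgroup UpperHalfPlane
open scoped MatrixGroups ModularForm Manifold

section General

variable (Γ : Subgroup SL(2, ℤ)) {F : IntermediateField ℂ (LaurentSeries ℂ)}

/-- `x` is the ratio `A / B` of two forms of weight `k` on `Γ`. -/
structure IsRepOn (x : LaurentSeries ℂ) (k : ℤ) (A B : ℍ → ℂ) : Prop where
  num : MF.IsFormFn Γ k A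
  den : MF.IsFormFn Γ k B
  den_ne : B ≠ 0
  eq : x * MF.lq B = MF.lq A

/-- `φ` is the monodromy character of an `m`-th root of a function with divisor `m • D`:
`h ^ m = A · B ^ (m-1)`, so `g = h / B` has `g ^ m = x` and `g (γ τ) = ζ_m ^ φ(γ) · g τ`. -/
def IsMonodromyOn (m : ℕ) [NeZero m] (D : Divisor ℂ F) (φ : Additive Γ →+ ZMod m) : Prop :=
  ∃ (k : ℤ) (A B h : ℍ → ℂ) (x : F), IsRepOn Γ (x : LaurentSeries ℂ) k A B ∧ x ≠ 0 ∧
    (∀ v, (m : ℤ) * D v = v.ord x) ∧ MDiff h ∧ h ^ m = A * B ^ (m - 1) ∧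
    ∀ γ : Γ, h ∣[k] (γ : SL(2, ℤ)) = ZMod.stdAddChar (φ (Additive.ofMul γ)) • h

/-- A holomorphic form with finite order character `φ`, bounded at all cusps. -/
structure IsCharForm (m : ℕ) [NeZero m] (φ : Additive Γ →+ ZMod m) (k : ℤ) (h : ℍ → ℂ) :
    Prop where
  mdiff : MDiff h
  ne_zero : h ≠ 0
  slash_eq : ∀ γ : Γ, h ∣[k] (γ : SL(2, ℤ)) = ZMod.stdAddChar (φ (Additive.ofMul γ)) • h
  bdd : ∀ δ : SL(2, ℤ), IsBoundedAtImInfty (h ∣[k] δ)

/-- `v` is the place of the point `τ`, of ramification `c`. -/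
def IsPtPlaceOn (v : Place ℂ F) (τ : ℍ) (c : ℕ) : Prop :=
  ∀ (x : F) (k : ℤ) (A B : ℍ → ℂ) (a b : ℕ), IsRepOn Γ (x : LaurentSeries ℂ) k A B → x ≠ 0 →
    HasPtOrd A τ a → HasPtOrd B τ b → (c : ℤ) * v.ord x = (a : ℤ) - b

/-- `v` is the place of the cusp `δ ∞`, of width `w`. -/
def IsCuspPlaceOn (v : Place ℂ F) (δ : SL(2, ℤ)) (w : ℕ) : Prop :=
  ∀ (x : F) (k : ℤ) (A B : ℍ → ℂ) (r s : ℚ), IsRepOn Γ (x : LaurentSeries ℂ) k A B → x ≠ 0 →
    HasExpOrd (A ∣[k] δ) r → HasExpOrd (B ∣[k] δ) s → (v.ord x : ℚ) = (w : ℚ) * (r - s)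

/-- The dictionary between the places of `F` and the points and cusps of the curve of `Γ`. -/
structure PlaceDataOn (F : IntermediateField ℂ (LaurentSeries ℂ)) : Prop where
  exists_pt : ∀ τ : ℍ, ∃ (v : Place ℂ F) (c : ℕ), 0 < c ∧ IsPtPlaceOn Γ v τ c
  exists_cusp : ∀ δ : SL(2, ℤ), ∃ (v : Place ℂ F) (w : ℕ), 0 < w ∧ IsCuspPlaceOn Γ v δ w
  covered : ∀ v : Place ℂ F,
    (∃ (τ : ℍ) (c : ℕ), 0 < c ∧ IsPtPlaceOn Γ v τ c ∧ ∃ γ : Γ,
      (γ : SL(2, ℤ)) • τ = τ ∧ IsPrimitiveRoot ((denom (γ : SL(2, ℤ)) (τ : ℂ)) ^ 2) c) ∨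
    (∃ (δ : SL(2, ℤ)) (w : ℕ), 0 < w ∧ IsCuspPlaceOn Γ v δ w ∧
      δ * ModularGroup.T ^ (w : ℤ) * δ⁻¹ ∈ Γ)

end General

theorem pow_ne_zero_fun {f : ℍ → ℂ} (hf : f ≠ 0) (n : ℕ) : f ^ n ≠ 0 := by
  obtain ⟨τ, hτ⟩ := Function.ne_iff.mp hf
  exact fun h => pow_ne_zero n hτ (by simpa using congrFun h τ)

section General

variable {Γ : Subgroup SL(2, ℤ)} {W : ℕ} {F : IntermediateField ℂ (LaurentSeries ℂ)}

theorem IsRepOn.num_ne {x : F} {k : ℤ} {A B : ℍ → ℂ}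
    (h : IsRepOn Γ (x : LaurentSeries ℂ) k A B) (hT : ModularGroup.T ∈ Γ) (hx : x ≠ 0) :
    A ≠ 0 := by
  intro hA
  have he := h.eq
  rw [hA, MF.lq_zero, mul_eq_zero, MF.lq_eq_zero_iff (h.den.isQFn hT)] at he
  exact he.elim (fun e => hx (Subtype.ext e)) h.den_ne

theorem IsRepOn.mul {x y : F} {k l : ℤ} {A B P Q : ℍ → ℂ}
    (h : IsRepOn Γ (x : LaurentSeries ℂ) k A B) (hT : ModularGroup.T ∈ Γ)
    (h' : IsRepOn Γ (y : LaurentSeries ℂ) l P Q) :
    IsRepOn Γ ((x * y : F) : LaurentSeries ℂ) (k + l) (A * P) (B * Q) where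
  num := h.num.mul h'.num
  den := h.den.mul h'.den
  den_ne e := ((UpperHalfPlane.mul_eq_zero_iff h.den.mdiff h'.den.mdiff).mp e).elim h.den_ne
    h'.den_ne
  eq := by
    rw [MF.lq_mul (h.num.isQFn hT) (h'.num.isQFn hT), MF.lq_mul (h.den.isQFn hT) (h'.den.isQFn hT),
      ← h.eq, ← h'.eq, IntermediateField.coe_mul]
    ring

theorem IsRepOn.pow {x : F} {k : ℤ} {A B : ℍ → ℂ}
    (h : IsRepOn Γ (x : LaurentSeries ℂ) k A B) (hT : ModularGroup.T ∈ Γ) (n : ℕ) :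
    IsRepOn Γ ((x ^ n : F) : LaurentSeries ℂ) ((n : ℤ) * k) (A ^ n) (B ^ n) where
  num := h.num.pow n
  den := h.den.pow n
  den_ne := pow_ne_zero_fun h.den_ne n
  eq := by
    rw [MF.lq_pow (h.num.isQFn hT), MF.lq_pow (h.den.isQFn hT), ← h.eq, IntermediateField.coe_pow,
      mul_pow]

end General

end Fermat.Agent.Mono

namespace Fermat.Agent.X0.RatioField

open UpperHalfPlane CongruenceSubgroup
open scoped MatrixGroups ModularForm

variable {Γ : Subgroup SL(2, ℤ)} {W : ℕ} {F : IntermediateField ℂ (LaurentSeries ℂ)}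
  (D : RatioField Γ W F)
include D

/-- Every element is a ratio of two forms of equal weight. -/
theorem exists_isRep (x : F) :
    ∃ (k : ℤ) (A B : ℍ → ℂ), Mono.IsRepOn Γ (x : LaurentSeries ℂ) k A B := by
  obtain ⟨k, A, B, hA, hB, hB0, h⟩ := D.exists_rep x
  exact ⟨k, A, B, hA, hB, hB0, h⟩

theorem exists_hasExpOrd_slash [NeZero W] {k : ℤ} {A : ℍ → ℂ} (hA : MF.IsFormFn Γ k A)
    (hA0 : A ≠ 0) (δ : SL(2, ℤ)) : ∃ r : ℚ, Mono.HasExpOrd (A ∣[k] δ) r := by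
  have hw := slash_mem_wide D.gamma_le hA δ
  obtain ⟨a, ha⟩ := Mono.exists_hasExpOrd (Nat.pos_of_ne_zero (NeZero.ne W)) hw.periodic hw.mdiff
    hw.bdd (Mono.slash_ne_zero hA0 k δ)
  exact ⟨_, ha⟩

end Fermat.Agent.X0.RatioField

namespace Fermat.Agent.Mono

open AlgebraicCurve ModularCurve CongruenceSubgroup UpperHalfPlane
open scoped MatrixGroups ModularForm Manifold

/-! ### Level `Γ₀(N)` -/

variable (N : ℕ)

/-- `x ∈ ℂ(j, j_N)` is the ratio `A / B` of two forms of weight `k`. -/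
abbrev IsRep (x : FC N) (k : ℤ) (A B : ℍ → ℂ) : Prop :=
  IsRepOn (Gamma0 N) (x : LaurentSeries ℂ) k A B

/-- Monodromy characters at level `Γ₀(N)`. -/
abbrev IsMonodromy (m : ℕ) [NeZero m] (D : Divisor ℂ (FC N))
    (φ : Additive (Gamma0 N) →+ ZMod m) : Prop :=
  IsMonodromyOn (Gamma0 N) m D φ

/-- `v` is the place of the point `τ` of `X₀(N)`, of ramification `c`. -/
abbrev IsPtPlace (v : Place ℂ (FC N)) (τ : ℍ) (c : ℕ) : Prop := IsPtPlaceOn (Gamma0 N) v τ c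

/-- The dictionary between places of `ℂ(j, j_N)` and the points and cusps of `X₀(N)`. -/
abbrev PlaceData : Prop := PlaceDataOn (Gamma0 N) (FC N)

variable {N}

/-- Every function on `X₀(N)` is a ratio of two forms of equal weight. -/
theorem exists_isRep [NeZero N] (x : FC N) : ∃ (k : ℤ) (A B : ℍ → ℂ), IsRep N x k A B :=
  (X0.curveField N).exists_isRep x

theorem IsRep.num_ne {x : FC N} {k : ℤ} {A B : ℍ → ℂ} (h : IsRep N x k A B) (hx : x ≠ 0) :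
    A ≠ 0 :=
  IsRepOn.num_ne h (MF.T_mem_Gamma0 N) hx

theorem IsRep.mul {x y : FC N} {k l : ℤ} {A B P Q : ℍ → ℂ} (h : IsRep N x k A B)
    (h' : IsRep N y l P Q) : IsRep N (x * y) (k + l) (A * P) (B * Q) :=
  IsRepOn.mul h (MF.T_mem_Gamma0 N) h'

theorem exists_hasExpOrd_slash [NeZero N] {k : ℤ} {A : ℍ → ℂ}
    (hA : MF.IsFormFn (Gamma0 N) k A) (hA0 : A ≠ 0) (δ : SL(2, ℤ)) :
    ∃ r : ℚ, HasExpOrd (A ∣[k] δ) r :=
  (X0.curveField N).exists_hasExpOrd_slash hA hA0 δ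

end Fermat.Agent.Mono
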