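import Fermat.Agent.FF.Basic
import Fermat.Agent.Grp.HomCl

/-!
# Torsion of a Jacobian as reductions of a lattice of characters

Reduction `Hom_cl(Γ, ℤ) → Hom_cl(Γ, ℤ/m)` is surjective, so an identification of the `m`-torsion
with `Hom_cl(Γ, ℤ/m)` gives a projection of the lattice onto the torsion, with kernel `m` times
the lattice.  Also: torsion under a homomorphism of class groups.
-/

noncomputable section

namespace Fermat.Agent.Mono

open AlgebraicCurve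
open scoped MatrixGroups

section Reduction

variable (Γ : Subgroup SL(2, ℤ)) (m : ℕ)

/-- Reduction modulo `m`. -/
def redCl : Grp.clHoms ℤ Γ ℤ →+ Grp.clHoms ℤ Γ (ZMod m) :=
  AddMonoidHom.mk' (fun φ => ⟨(Int.castAddHom (ZMod m)).comp φ.1, φ.2.comp _⟩) fun _ _ =>
    Subtype.ext (AddMonoidHom.ext fun _ => Int.cast_add _ _)

theorem redCl_surjective [Γ.FiniteIndex] (hneg : (-1 : SL(2, ℤ)) ∈ Γ) :
    Function.Surjective (redCl Γ m) := by
  intro ψ
  obtain ⟨γ, e, he, -, hb⟩ := Grp.clBasis_exists Γ hneg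
  choose c hc using fun i => ZMod.intCast_surjective (ψ.1 (Additive.ofMul (γ i)))
  refine ⟨∑ i, c i • (⟨e i, he i⟩ : Grp.clHoms ℤ Γ ℤ),
    Subtype.ext (AddMonoidHom.ext fun g => ?_)⟩
  rw [hb (ZMod m) ψ.1 ψ.2 g]
  show Int.cast ((((∑ i, c i • (⟨e i, he i⟩ : Grp.clHoms ℤ Γ ℤ)) :
    Grp.clHoms ℤ Γ ℤ) : Additive Γ →+ ℤ) g) = _
  simp only [AddSubmonoidClass.coe_finsetSum, SetLike.val_smul, AddMonoidHom.finsetSum_apply,
    AddMonoidHom.smul_apply, smul_eq_mul, Int.cast_sum, Int.cast_mul, hc, zsmul_eq_mul]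
  exact Finset.sum_congr rfl fun i _ => mul_comm _ _

theorem redCl_eq_zero_iff (φ : Grp.clHoms ℤ Γ ℤ) :
    redCl Γ m φ = 0 ↔ ∃ ψ, φ = m • ψ := by
  constructor
  · intro h
    have hdvd : ∀ g, (m : ℤ) ∣ φ.1 g := fun g =>
      (ZMod.intCast_zmod_eq_zero_iff_dvd _ m).mp (DFunLike.congr_fun (congrArg Subtype.val h) g)
    let ψ : Additive Γ →+ ℤ := AddMonoidHom.mk' (fun g => φ.1 g / (m : ℤ)) fun a b => by
      rw [map_add, Int.add_ediv_of_dvd_left (hdvd a)]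
    refine ⟨⟨ψ, fun γ hγ => ?_⟩, Subtype.ext (AddMonoidHom.ext fun g => ?_)⟩
    · show φ.1 (Additive.ofMul γ) / (m : ℤ) = 0
      rw [φ.2 γ hγ, Int.zero_ediv]
    · show φ.1 g = m • (φ.1 g / (m : ℤ))
      rw [nsmul_eq_mul, Int.mul_ediv_cancel' (hdvd g)]
  · rintro ⟨ψ, rfl⟩
    refine Subtype.ext (AddMonoidHom.ext fun g => ?_)
    show ((m • ψ.1 g : ℤ) : ZMod m) = 0
    simp

end Reduction

variable {K F : Type*} [Field K] [Field F] [Algebra K F]

section Projection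

variable {Γ : Subgroup SL(2, ℤ)} {m : ℕ} (e : Pic0.torsion K F m ≃+ Grp.clHoms ℤ Γ (ZMod m))

/-- The projection of the lattice onto the `m`-torsion. -/
def projOfEquiv : Grp.clHoms ℤ Γ ℤ →+ Pic0 K F :=
  ((AddSubgroup.subtype _).comp e.symm.toAddMonoidHom).comp (redCl Γ m)

theorem mem_range_projOfEquiv [Γ.FiniteIndex] (hneg : (-1 : SL(2, ℤ)) ∈ Γ) (x : Pic0 K F) :
    x ∈ (projOfEquiv e).range ↔ m • x = 0 := by
  constructor
  · rintro ⟨φ, rfl⟩
    rw [← natCast_zsmul]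
    exact Pic0.mem_torsion.mp (e.symm (redCl Γ m φ)).2
  · intro hx
    have hx' : x ∈ Pic0.torsion K F m := Pic0.mem_torsion.mpr (by rw [natCast_zsmul]; exact hx)
    obtain ⟨φ, hφ⟩ := redCl_surjective Γ m hneg (e ⟨x, hx'⟩)
    refine ⟨φ, ?_⟩
    show ((e.symm (redCl Γ m φ)) : Pic0 K F) = x
    rw [hφ, AddEquiv.symm_apply_apply]

theorem projOfEquiv_eq_zero_iff (φ : Grp.clHoms ℤ Γ ℤ) :
    projOfEquiv e φ = 0 ↔ ∃ ψ, φ = m • ψ := by
  rw [← redCl_eq_zero_iff]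
  show ((e.symm (redCl Γ m φ)) : Pic0 K F) = 0 ↔ _
  rw [ZeroMemClass.coe_eq_zero, map_eq_zero_iff _ e.symm.injective]

end Projection

variable {K' F' : Type*} [Field K'] [Field F'] [Algebra K' F'] {m : ℕ}
  (f : Pic0 K F →+ Pic0 K' F')

theorem map_mem_torsion {x : Pic0 K F} (hx : x ∈ Pic0.torsion K F m) :
    f x ∈ Pic0.torsion K' F' m := by
  rw [Pic0.mem_torsion] at hx ⊢
  rw [← map_zsmul, hx, map_zero]

variable (m) in
/-- A homomorphism of class groups on torsion. -/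
def torsionMap : Pic0.torsion K F m →+ Pic0.torsion K' F' m :=
  (f.comp (AddSubgroup.subtype _)).codRestrict _ fun x => map_mem_torsion f x.2

theorem torsionMap_bijective (hinj : Function.Injective f)
    (hsurj : ∀ z ∈ Pic0.torsion K' F' m, ∃ x ∈ Pic0.torsion K F m, f x = z) :
    Function.Bijective (torsionMap m f) := by
  refine ⟨fun x y h => Subtype.ext (hinj (congrArg Subtype.val h)), ?_⟩
  rintro ⟨z, hz⟩
  obtain ⟨x, hx, e⟩ := hsurj z hz
  exact ⟨⟨x, hx⟩, Subtype.ext e⟩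

end Fermat.Agent.Mono
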