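import Fermat.Agent.Mono.Char

/-!
# Poincaré series with a character of finite order

For a group `Γ ∋ -1`, a character `φ` of `Γ` with `φ (-1) = 0` and every large `l` the series
`∑ ζ^(-φ γ) (4i / v_γ)^(2l)`, `v_γ(τ) = (aτ+b) + 2i(cτ+d)`, is a non-zero form of weight `2l` with
character `φ`, bounded at every cusp. It makes the monodromy map on torsion surjective.
-/

noncomputable section

namespace Fermat.Agent.Mono

open CongruenceSubgroup Filter Topology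
open UpperHalfPlane hiding I
open Complex (I)
open scoped MatrixGroups ModularForm Manifold

/-- The linear form `(aτ+b) + 2i(cτ+d)`. -/
def vv (M : SL(2, ℤ)) (z : ℂ) : ℂ :=
  ((M 0 0 : ℂ) * z + (M 0 1 : ℂ)) + 2 * I * ((M 1 0 : ℂ) * z + (M 1 1 : ℂ))

/-- The summand of weight `2l`. -/
def pterm (l : ℕ) (M : SL(2, ℤ)) (z : ℂ) : ℂ := (4 * I / vv M z) ^ (2 * l)

theorem det_cast (M : SL(2, ℤ)) : (M 0 0 : ℝ) * M 1 1 - M 0 1 * M 1 0 = 1 := by
  exact_mod_cast Grp.det_eq M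

theorem norm_sq_vv (M : SL(2, ℤ)) (z : ℂ) :
    ‖vv M z‖ ^ 2 = ‖(M 0 0 : ℂ) * z + (M 0 1 : ℂ)‖ ^ 2 +
      4 * ‖(M 1 0 : ℂ) * z + (M 1 1 : ℂ)‖ ^ 2 + 4 * z.im := by
  simp only [Complex.sq_norm, Complex.normSq_apply, vv, Complex.add_re, Complex.add_im,
    Complex.mul_re, Complex.mul_im, Complex.intCast_re, Complex.intCast_im, Complex.I_re,
    Complex.I_im, Complex.re_ofNat, Complex.im_ofNat]
  linear_combination (4 * z.im) * det_cast M

theorem row_ne_zero (M : SL(2, ℤ)) (i : Fin 2) :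
    (M : Matrix (Fin 2) (Fin 2) ℤ) i ≠ 0 := by
  intro h
  have h0 : M i 0 = 0 := congrFun h 0
  have h1 : M i 1 = 0 := congrFun h 1
  have := Grp.det_eq M
  fin_cases i <;> simp_all

/-- The majorant of a summand on a vertical strip. -/
def maj (B : ℝ) (l : ℕ) (M : SL(2, ℤ)) : ℝ :=
  (16 / (B ^ 2 * (‖(M : Matrix (Fin 2) (Fin 2) ℤ) 0‖ * ‖(M : Matrix (Fin 2) (Fin 2) ℤ) 1‖))) ^ l

theorem maj_nonneg (B : ℝ) (l : ℕ) (M : SL(2, ℤ)) : 0 ≤ maj B l M := by
  unfold maj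
  positivity

theorem rows_injective : Function.Injective fun M : SL(2, ℤ) =>
    (((M : Matrix (Fin 2) (Fin 2) ℤ) 0, (M : Matrix (Fin 2) (Fin 2) ℤ) 1)) := by
  intro M M' h
  simp only [Prod.mk.injEq] at h
  refine Subtype.ext (funext fun i => ?_)
  fin_cases i
  exacts [h.1, h.2]

/-- The majorant of the Poincaré series converges for `l ≥ 3`. -/
theorem summable_maj (B : ℝ) {l : ℕ} (hl : 3 ≤ l) : Summable (maj B l) := by
  have h := summable_one_div_norm_rpow_nat hl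
  have hp := (Summable.mul_of_nonneg h h (fun x => by positivity) (fun x => by positivity)).mul_left
    ((16 / B ^ 2) ^ l)
  refine (hp.comp_injective rows_injective).congr fun M => ?_
  simp only [maj, Function.comp_apply, ← mul_pow]
  congr 1
  field_simp
where
  summable_one_div_norm_rpow_nat {l : ℕ} (hl : 3 ≤ l) :
      Summable fun x : Fin 2 → ℤ => (‖x‖⁻¹) ^ l := by
    refine (EisensteinSeries.summable_one_div_norm_rpow (k := (l : ℝ))
      (by exact_mod_cast lt_of_lt_of_le (by norm_num : 2 < 3) hl)).congr fun x => ?_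
    rw [Real.rpow_neg (norm_nonneg _), Real.rpow_natCast, inv_pow]

theorem norm_pterm_le {A B : ℝ} (hB : 0 < B) {τ : ℍ} (hτ : τ ∈ verticalStrip A B) (l : ℕ)
    (M : SL(2, ℤ)) :
    ‖pterm l M τ‖ ≤ maj (EisensteinSeries.r ⟨⟨A, B⟩, hB⟩) l M := by
  set r := EisensteinSeries.r ⟨⟨A, B⟩, hB⟩ with hr
  have hr0 : 0 < r := EisensteinSeries.r_pos _
  have hrle := EisensteinSeries.r_lower_bound_on_verticalStrip τ hB hτ
  set n0 := ‖(M : Matrix (Fin 2) (Fin 2) ℤ) 0‖ with hn0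
  set n1 := ‖(M : Matrix (Fin 2) (Fin 2) ℤ) 1‖ with hn1
  set p := ‖(M 0 0 : ℂ) * τ + (M 0 1 : ℂ)‖ with hp
  set q := ‖(M 1 0 : ℂ) * τ + (M 1 1 : ℂ)‖ with hq
  have h0 : r * n0 ≤ p :=
    (mul_le_mul_of_nonneg_right hrle (norm_nonneg _)).trans
      (EisensteinSeries.r_mul_max_le τ (row_ne_zero M 0))
  have h1 : r * n1 ≤ q :=
    (mul_le_mul_of_nonneg_right hrle (norm_nonneg _)).trans
      (EisensteinSeries.r_mul_max_le τ (row_ne_zero M 1))
  have h0' : 0 < r * n0 := mul_pos hr0 (norm_pos_iff.mpr (row_ne_zero M 0))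
  have h1' : 0 < r * n1 := mul_pos hr0 (norm_pos_iff.mpr (row_ne_zero M 1))
  have hv : r ^ 2 * (n0 * n1) ≤ ‖vv M τ‖ ^ 2 := by
    rw [norm_sq_vv, ← hp, ← hq]
    nlinarith [mul_le_mul h0 h1 h1'.le (h0'.le.trans h0), sq_nonneg (p - q), sq_nonneg q,
      τ.im_pos, coe_im τ]
  have hpos : 0 < r ^ 2 * (n0 * n1) := by nlinarith [mul_pos h0' h1']
  rw [pterm, norm_pow, norm_div, norm_mul, Complex.norm_I, Complex.norm_ofNat, mul_one,
    pow_mul, div_pow, maj, ← hn0, ← hn1]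
  norm_num
  exact pow_le_pow_left₀ (by positivity) (div_le_div_of_nonneg_left (by norm_num) hpos hv) l

theorem vv_ne_zero (M : SL(2, ℤ)) (τ : ℍ) : vv M τ ≠ 0 := by
  intro h
  have := norm_sq_vv M τ
  rw [h, norm_zero] at this
  nlinarith [τ.im_pos, coe_im τ, sq_nonneg ‖(M 0 0 : ℂ) * (τ : ℂ) + (M 0 1 : ℂ)‖,
    sq_nonneg ‖(M 1 0 : ℂ) * (τ : ℂ) + (M 1 1 : ℂ)‖]

theorem vv_smul (M δ : SL(2, ℤ)) (τ : ℍ) :
    vv M ((δ • τ : ℍ) : ℂ) * denom δ (τ : ℂ) = vv (M * δ) τ := by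
  have hd : (δ 1 0 : ℂ) * (τ : ℂ) + (δ 1 1 : ℂ) ≠ 0 := by
    simpa [ModularGroup.denom_apply] using denom_ne_zero (δ : GL (Fin 2) ℝ) τ
  rw [ModularGroup.denom_apply, UpperHalfPlane.coe_specialLinearGroup_apply]
  simp only [vv, Matrix.SpecialLinearGroup.coe_mul, Matrix.mul_apply, Fin.sum_univ_two,
    algebraMap_int_eq, eq_intCast]
  push_cast
  linear_combination ((M 0 0 : ℂ) + 2 * I * (M 1 0 : ℂ)) * div_mul_cancel₀
    ((δ 0 0 : ℂ) * (τ : ℂ) + (δ 0 1 : ℂ)) hd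

theorem pterm_smul (l : ℕ) (M δ : SL(2, ℤ)) (τ : ℍ) :
    pterm l M ((δ • τ : ℍ) : ℂ) * denom δ (τ : ℂ) ^ (-((2 * l : ℕ) : ℤ)) = pterm l (M * δ) τ := by
  rw [zpow_neg, zpow_natCast, pterm, pterm, ← vv_smul, ← div_eq_mul_inv, ← div_pow, div_div]

section

variable (Γ : Subgroup SL(2, ℤ)) (m : ℕ) [NeZero m] (φ : Additive Γ →+ ZMod m)

/-- The coefficient of a summand. -/
def pcoef (γ : Γ) : ℂ := ZMod.stdAddChar (-φ (Additive.ofMul γ))

/-- The Poincaré series. -/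
def poincare (l : ℕ) (τ : ℍ) : ℂ := ∑' γ : Γ, pcoef Γ m φ γ * pterm l (γ : SL(2, ℤ)) τ

theorem norm_pcoef (γ : Γ) : ‖pcoef Γ m φ γ‖ = 1 := by
  rw [pcoef]
  exact AddChar.norm_apply _ _

theorem norm_summand_le {A B : ℝ} (hB : 0 < B) {τ : ℍ} (hτ : τ ∈ verticalStrip A B) (l : ℕ)
    (γ : Γ) : ‖pcoef Γ m φ γ * pterm l (γ : SL(2, ℤ)) τ‖ ≤
      maj (EisensteinSeries.r ⟨⟨A, B⟩, hB⟩) l γ := by
  rw [norm_mul, norm_pcoef, one_mul]
  exact norm_pterm_le hB hτ l _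

theorem summable_maj_sub (B : ℝ) {l : ℕ} (hl : 3 ≤ l) :
    Summable fun γ : Γ => maj B l (γ : SL(2, ℤ)) :=
  (summable_maj B hl).comp_injective Subtype.coe_injective

/-- The Poincaré series is holomorphic. -/
theorem mdiff_poincare {l : ℕ} (hl : 3 ≤ l) : MDiff (poincare Γ m φ l) := by
  rw [UpperHalfPlane.mdifferentiable_iff]
  intro w hw
  have hB : 0 < w.im / 2 := half_pos hw
  set U : Set ℂ := {z | |z.re| < |w.re| + 1 ∧ w.im / 2 < z.im} with hU
  have hUo : IsOpen U :=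
    (isOpen_lt (f := fun z : ℂ => |z.re|) (Complex.continuous_re.abs) continuous_const).inter
      (isOpen_lt continuous_const Complex.continuous_im)
  have hwU : w ∈ U := ⟨lt_add_one _, half_lt_self hw⟩
  have hd : DifferentiableOn ℂ
      (fun z : ℂ => ∑' γ : Γ, pcoef Γ m φ γ * pterm l (γ : SL(2, ℤ)) z) U := by
    refine Complex.differentiableOn_tsum_of_summable_norm
      (summable_maj_sub Γ (EisensteinSeries.r ⟨⟨|w.re| + 1, w.im / 2⟩, hB⟩) hl) (fun γ z hz => ?_)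
      hUo fun γ z hz => ?_
    · have hne := vv_ne_zero (γ : SL(2, ℤ)) ⟨z, hB.trans hz.2⟩
      refine DifferentiableAt.differentiableWithinAt ?_
      unfold pterm vv at *
      fun_prop (disch := simpa using hne)
    · exact norm_summand_le Γ m φ hB (τ := ⟨z, hB.trans hz.2⟩) ⟨hz.1.le, hz.2.le⟩ l γ
  refine (DifferentiableAt.congr_of_eventuallyEq (hd.differentiableAt (hUo.mem_nhds hwU))
    ?_).differentiableWithinAt
  filter_upwards [(isOpen_lt continuous_const Complex.continuous_im).mem_nhds hw] with z hz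
  simp [poincare, ofComplex_apply_of_im_pos hz]

theorem slash_poincare (l : ℕ) (δ : SL(2, ℤ)) (τ : ℍ) :
    (poincare Γ m φ l ∣[((2 * l : ℕ) : ℤ)] δ) τ =
      ∑' γ : Γ, pcoef Γ m φ γ * pterm l ((γ : SL(2, ℤ)) * δ) τ := by
  rw [ModularForm.SL_slash_apply, poincare, ← tsum_mul_right]
  refine tsum_congr fun γ => ?_
  rw [← pterm_smul, mul_assoc]

theorem slash_poincare_mem (l : ℕ) (δ : Γ) :
    poincare Γ m φ l ∣[((2 * l : ℕ) : ℤ)] (δ : SL(2, ℤ)) =
      ZMod.stdAddChar (φ (Additive.ofMul δ)) • poincare Γ m φ l := by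
  funext τ
  rw [slash_poincare, Pi.smul_apply, smul_eq_mul, poincare, ← tsum_mul_left,
    ← (Equiv.mulRight δ).tsum_eq fun γ : Γ =>
      ZMod.stdAddChar (φ (Additive.ofMul δ)) * (pcoef Γ m φ γ * pterm l (γ : SL(2, ℤ)) τ)]
  refine tsum_congr fun γ => ?_
  rw [Equiv.coe_mulRight, ← mul_assoc, pcoef, pcoef, ofMul_mul, map_add φ,
    ← AddChar.map_add_eq_mul, Subgroup.coe_mul]
  congr 2
  abel

theorem bdd_poincare {l : ℕ} (hl : 3 ≤ l) (δ : SL(2, ℤ)) :
    IsBoundedAtImInfty (poincare Γ m φ l ∣[((2 * l : ℕ) : ℤ)] δ) := by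
  set r := EisensteinSeries.r ⟨⟨1, 1⟩, one_pos⟩ with hr
  rw [isBoundedAtImInfty_iff]
  refine ⟨∑' M, maj r l M, 1, fun τ hτ => ?_⟩
  set n := ⌊τ.re⌋ with hn
  set τ' : ℍ := ((-n : ℤ) : ℝ) +ᵥ τ with hτ'
  have hmem : τ' ∈ verticalStrip 1 1 := by
    refine ⟨?_, ?_⟩
    · rw [hτ', vadd_re, abs_le]
      push_cast
      constructor <;> linarith [Int.floor_le τ.re, Int.lt_floor_add_one τ.re]
    · rw [hτ', vadd_im]
      exact hτ
  have heq : (poincare Γ m φ l ∣[((2 * l : ℕ) : ℤ)] δ) τ =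
      (poincare Γ m φ l ∣[((2 * l : ℕ) : ℤ)] (δ * ModularGroup.T ^ n)) τ' := by
    rw [SlashAction.slash_mul, slash_apply_T_zpow, hτ', vadd_vadd]
    simp
  rw [heq, slash_poincare]
  have hinj : Function.Injective fun γ : Γ =>
      (γ : SL(2, ℤ)) * (δ * ModularGroup.T ^ n) :=
    (mul_left_injective _).comp Subtype.coe_injective
  refine (tsum_of_norm_bounded ((summable_maj r hl).comp_injective hinj).hasSum fun γ => ?_).trans
    (tsum_comp_le_tsum_of_inj (summable_maj r hl) (maj_nonneg r l) hinj)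
  rw [norm_mul, norm_pcoef, one_mul]
  exact norm_pterm_le one_pos hmem l _

/-- The special point `2i`. -/
def tauTwo : ℍ := ⟨2 * I, by simp⟩

theorem norm_div_vv_lt {M : SL(2, ℤ)} (h1 : M ≠ 1) (h2 : M ≠ -1) :
    ‖4 * I / vv M (tauTwo : ℂ)‖ < 1 := by
  rw [norm_div, div_lt_one (norm_pos_iff.mpr (vv_ne_zero M tauTwo))]
  refine lt_of_pow_lt_pow_left₀ 2 (norm_nonneg _) ?_
  rw [norm_sq_vv]
  simp only [tauTwo, Complex.sq_norm, Complex.normSq_apply, Complex.mul_re, Complex.mul_im,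
    Complex.add_re, Complex.add_im, Complex.intCast_re, Complex.intCast_im, Complex.I_re,
    Complex.I_im, Complex.re_ofNat, Complex.im_ofNat]
  ring_nf
  have key : (8 : ℤ) < M 0 1 ^ 2 + 16 * M 1 0 ^ 2 + 4 * M 0 0 ^ 2 + 4 * M 1 1 ^ 2 := by
    by_contra hle
    rw [not_lt] at hle
    have hdet := Grp.det_eq M
    have hc : M 1 0 = 0 := by
      by_contra hc
      nlinarith [Int.one_le_abs hc, sq_abs (M 1 0), sq_nonneg (M 0 1), sq_nonneg (M 0 0),
        sq_nonneg (M 1 1)]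
    rw [hc, mul_zero, sub_zero] at hdet
    rcases Int.mul_eq_one_iff_eq_one_or_neg_one.mp hdet with ⟨ha, hd⟩ | ⟨ha, hd⟩
    · have hb : M 0 1 = 0 := by nlinarith
      refine h1 (Subtype.ext ?_)
      ext i j
      fin_cases i <;> fin_cases j <;> simp [ha, hb, hc, hd]
    · have hb : M 0 1 = 0 := by nlinarith
      refine h2 (Subtype.ext ?_)
      ext i j
      fin_cases i <;> fin_cases j <;> simp [ha, hb, hc, hd]
  have key' : (8 : ℝ) < (M 0 1 : ℝ) ^ 2 + 16 * (M 1 0 : ℝ) ^ 2 + 4 * (M 0 0 : ℝ) ^ 2 +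
      4 * (M 1 1 : ℝ) ^ 2 := by exact_mod_cast key
  nlinarith [key']

variable {Γ m φ}

/-- The Poincaré series is non-zero in large weight. -/
theorem eventually_poincare_ne_zero (hneg : (-1 : SL(2, ℤ)) ∈ Γ)
    (hφ : ∀ γ : Γ, (γ : SL(2, ℤ)) = -1 → φ (Additive.ofMul γ) = 0) :
    ∀ᶠ l in atTop, poincare Γ m φ l ≠ 0 := by
  classical
  set g : Γ → ℂ := fun γ =>
    if (γ : SL(2, ℤ)) = 1 ∨ (γ : SL(2, ℤ)) = -1 then 1 else 0 with hg
  have hn1 := hneg
  have hv1 : vv 1 (tauTwo : ℂ) = 4 * I := by simp [vv, tauTwo]; ring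
  have hvn : vv (-1) (tauTwo : ℂ) = -(4 * I) := by simp [vv, tauTwo]; ring
  have hlim : ∀ γ : Γ, Tendsto
      (fun l => pcoef Γ m φ γ * pterm l (γ : SL(2, ℤ)) (tauTwo : ℂ)) atTop (𝓝 (g γ)) := by
    intro γ
    have hI : (4 * I : ℂ) ≠ 0 := by simp
    by_cases h : (γ : SL(2, ℤ)) = 1 ∨ (γ : SL(2, ℤ)) = -1
    · have e : ∀ l, pcoef Γ m φ γ * pterm l (γ : SL(2, ℤ)) (tauTwo : ℂ) = g γ := by
        intro l
        rw [hg, pcoef]
        rcases h with h | h
        · obtain rfl : γ = 1 := Subtype.ext h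
          simp [pterm, hv1]
        · simp [pterm, h, hvn, hφ γ h]
      exact (tendsto_congr e).mpr tendsto_const_nhds
    · rw [hg]
      simp only [if_neg h, pterm]
      rw [not_or] at h
      rw [← mul_zero (pcoef Γ m φ γ)]
      exact ((tendsto_pow_atTop_nhds_zero_of_norm_lt_one (norm_div_vv_lt h.1 h.2)).comp
        (tendsto_id.const_mul_atTop' two_pos)).const_mul _
  have hbound : ∀ᶠ l in atTop, ∀ γ : Γ,
      ‖pcoef Γ m φ γ * pterm l (γ : SL(2, ℤ)) (tauTwo : ℂ)‖ ≤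
        maj (EisensteinSeries.r ⟨⟨0, 2⟩, two_pos⟩) 3 γ := by
    filter_upwards [eventually_ge_atTop 3] with l hl γ
    refine le_trans ?_ (norm_summand_le Γ m φ two_pos (τ := tauTwo) ⟨by simp [tauTwo],
      by simp [tauTwo]⟩ 3 γ)
    simp only [norm_mul, pterm, norm_pow]
    refine mul_le_mul_of_nonneg_left (pow_le_pow_of_le_one (norm_nonneg _) ?_ (by omega))
      (norm_nonneg _)
    by_cases h : (γ : SL(2, ℤ)) = 1 ∨ (γ : SL(2, ℤ)) = -1
    · rcases h with h | h <;> simp [h, hv1, hvn]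
    · rw [not_or] at h
      exact (norm_div_vv_lt h.1 h.2).le
  have htend := tendsto_tsum_of_dominated_convergence
    (summable_maj_sub Γ (EisensteinSeries.r ⟨⟨0, 2⟩, two_pos⟩) le_rfl) hlim hbound
  have hsum : ∑' γ, g γ = 2 := by
    rw [tsum_eq_sum (s := {(1 : Γ), ⟨-1, hn1⟩}) fun γ hγ => ?_, Finset.sum_pair]
    · simp [hg]; norm_num
    · intro e
      have e' : (1 : SL(2, ℤ)) 0 0 = (-1 : SL(2, ℤ)) 0 0 :=
        congrArg (fun M : SL(2, ℤ) => M 0 0) (congrArg Subtype.val e)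
      simp at e'
    · simp only [Finset.mem_insert, Finset.mem_singleton, not_or] at hγ
      rw [hg]
      simp only
      rw [if_neg]
      rintro (h | h)
      exacts [hγ.1 (Subtype.ext h), hγ.2 (Subtype.ext h)]
  rw [hsum] at htend
  filter_upwards [htend.eventually_ne two_ne_zero] with l hl h0
  exact hl (congrFun h0 tauTwo)

/-- Forms with a given character exist in every large even weight. -/
theorem eventually_isCharForm (hneg : (-1 : SL(2, ℤ)) ∈ Γ)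
    (hφ : ∀ γ : Γ, (γ : SL(2, ℤ)) = -1 → φ (Additive.ofMul γ) = 0) :
    ∀ᶠ l : ℕ in atTop, ∃ h, IsCharForm Γ m φ ((2 * l : ℕ) : ℤ) h := by
  filter_upwards [eventually_poincare_ne_zero hneg hφ, eventually_ge_atTop 3] with l h0 hl
  exact ⟨poincare Γ m φ l, mdiff_poincare Γ m φ hl, h0, slash_poincare_mem Γ m φ l,
    bdd_poincare Γ m φ hl⟩

/-- Powers of a function bounded at infinity are bounded at infinity. -/
theorem isBoundedAtImInfty_pow {f : ℍ → ℂ} (hf : IsBoundedAtImInfty f) (n : ℕ) :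
    IsBoundedAtImInfty (f ^ n) := by
  induction n with
  | zero => exact Filter.const_boundedAtFilter _ (1 : ℂ)
  | succ n ih => rw [pow_succ]; exact ih.mul hf

/-- The `m`-th power of a form with character is a form. -/
theorem IsCharForm.pow_isFormFn {k : ℤ} {h : ℍ → ℂ} (hh : IsCharForm Γ m φ k h) :
    MF.IsFormFn Γ ((m : ℤ) * k) (h ^ m) where
  slash_eq γ hγ := by
    rw [pow_slash_SL2, hh.slash_eq ⟨γ, hγ⟩, smul_pow, ← AddChar.map_nsmul_eq_pow, nsmul_eq_mul,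
      ZMod.natCast_self, zero_mul, AddChar.map_zero_eq_one, one_smul]
  mdiff := hh.mdiff.pow m
  bdd γ := by
    rw [pow_slash_SL2]
    exact isBoundedAtImInfty_pow (hh.bdd γ) m

/-- A form with trivial character is a form. -/
theorem IsCharForm.isFormFn {k : ℤ} {h : ℍ → ℂ}
    (hh : IsCharForm Γ m (0 : Additive Γ →+ ZMod m) k h) :
    MF.IsFormFn Γ k h where
  slash_eq γ hγ := by simpa using hh.slash_eq ⟨γ, hγ⟩
  mdiff := hh.mdiff
  bdd := hh.bdd

end

end Fermat.Agent.Mono
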