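import Fermat.Agent.FF.Degree
import Fermat.Agent.Mono.Poincare

/-!
# Torsion of the Jacobian over `ℂ` by monodromy

The monodromy character gives an isomorphism of the `m`-torsion of the Jacobian of the curve of
`Γ ⊇ Γ(W)`, for instance of `J₀(N)(ℂ)[m]`, with `Hom_cl(Γ, ℤ/m)`.
Surjectivity uses Poincaré series `h` with character and `B` without: the divisor of the function
`(h / B) ^ m` is `m` times a divisor of degree zero.
-/

noncomputable section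

namespace Fermat.Agent.Mono

open AlgebraicCurve ModularCurve CongruenceSubgroup
open UpperHalfPlane hiding I
open scoped MatrixGroups ModularForm Manifold Real

variable {Γ : Subgroup SL(2, ℤ)} {W : ℕ} {F : IntermediateField ℂ (LaurentSeries ℂ)} [NeZero W]
  [FF.IsFunctionField ℂ F] {m : ℕ} [NeZero m]

theorem Pic0_mk_eq_zero_iff {K F : Type*} [Field K] [Field F] [Algebra K F]
    {D : Divisor.degZero (K := K) (F := F)} :
    Pic0.mk D = 0 ↔ Divisor.IsPrincipal (D : Divisor K F) := by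
  rw [Pic0.mk, QuotientAddGroup.eq_zero_iff]
  rfl

omit [NeZero W] [FF.IsFunctionField ℂ ↥F] [NeZero m] in
theorem mk_mem_torsion_iff {D : Divisor.degZero (K := ℂ) (F := F)} :
    Pic0.mk D ∈ Pic0.torsion ℂ F m ↔
      ∃ x : F, x ≠ 0 ∧ ∀ v, (m : ℤ) * (D : Divisor ℂ F) v = v.ord x := by
  rw [Pic0.mem_torsion, show (m : ℤ) • Pic0.mk D = Pic0.mk ((m : ℤ) • D) from rfl,
    Pic0_mk_eq_zero_iff]
  simp [Divisor.IsPrincipal]

omit [NeZero W] [FF.IsFunctionField ℂ ↥F] in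
/-- A torsion divisor class has a monodromy character. -/
theorem exists_isMonodromyOn (D₀ : X0.CurveField Γ W F) (hP : PlaceDataOn Γ F)
    (D : Divisor.degZero (K := ℂ) (F := F))
    (hD : Pic0.mk D ∈ Pic0.torsion ℂ F m) :
    ∃ φ : Additive Γ →+ ZMod m, IsMonodromyOn Γ m (D : Divisor ℂ F) φ := by
  obtain ⟨x, hx, h⟩ := mk_mem_torsion_iff.mp hD
  exact exists_isMonodromyOn_of_divisor D₀.toRatioField hP hx h

omit [NeZero W] in
theorem IsMonodromyOn.eq_of_mk_eq {D D' : Divisor.degZero (K := ℂ) (F := F)}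
    {φ φ' : Additive Γ →+ ZMod m} (h : IsMonodromyOn Γ m (D : Divisor ℂ F) φ)
    (hR : X0.RatioField Γ W F) (h' : IsMonodromyOn Γ m (D' : Divisor ℂ F) φ')
    (he : Pic0.mk D = Pic0.mk D') : φ = φ' := by
  have h0 : Pic0.mk (D - D') = 0 := by
    rw [show Pic0.mk (D - D') = Pic0.mk D - Pic0.mk D' from rfl, he, sub_self]
  obtain ⟨y, hy, hyD⟩ := Pic0_mk_eq_zero_iff.mp h0
  have h1 := (isMonodromyOn_zero_of_principal (m := m) hR hy hyD).add hR h'
  rw [zero_add, AddSubgroup.coe_sub, sub_add_cancel] at h1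
  exact h.unique hR h1

omit [FF.IsFunctionField ℂ ↥F] in
/-- A torsion class has a monodromy character, killing elliptic and parabolic elements. -/
theorem exists_mono (D₀ : X0.CurveField Γ W F) (hP : PlaceDataOn Γ F) (z : Pic0.torsion ℂ F m) :
    ∃ (φ : Grp.clHoms ℤ Γ (ZMod m)) (D : Divisor.degZero (K := ℂ) (F := F)),
      Pic0.mk D = (z : Pic0 ℂ F) ∧
        IsMonodromyOn Γ m (D : Divisor ℂ F) (φ : Additive Γ →+ ZMod m) := by
  obtain ⟨D, hD⟩ := Pic0.mk_surjective (z : Pic0 ℂ F)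
  obtain ⟨φ, hφ⟩ := exists_isMonodromyOn D₀ hP D (hD ▸ z.2)
  exact ⟨⟨φ, hφ.isClHom D₀.toRatioField D₀.neg_one_mem hP⟩, D, hD, hφ⟩

/-- The monodromy of a torsion class. -/
def monoFun (D₀ : X0.CurveField Γ W F) (hP : PlaceDataOn Γ F) (z : Pic0.torsion ℂ F m) :
    Grp.clHoms ℤ Γ (ZMod m) :=
  (exists_mono D₀ hP z).choose

/-- The monodromy of a class may be computed on any representing divisor. -/
theorem monoFun_eq (D₀ : X0.CurveField Γ W F) (hP : PlaceDataOn Γ F) (z : Pic0.torsion ℂ F m)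
    {D : Divisor.degZero (K := ℂ) (F := F)} (hD : Pic0.mk D = (z : Pic0 ℂ F))
    {φ : Additive Γ →+ ZMod m} (h : IsMonodromyOn Γ m (D : Divisor ℂ F) φ) :
    (monoFun D₀ hP z : Additive Γ →+ ZMod m) = φ := by
  obtain ⟨D', hD', h'⟩ := (exists_mono D₀ hP z).choose_spec
  exact h'.eq_of_mk_eq D₀.toRatioField h (hD'.trans hD.symm)

/-- The monodromy homomorphism. -/
def monoHom (D₀ : X0.CurveField Γ W F) (hP : PlaceDataOn Γ F) :
    Pic0.torsion ℂ F m →+ Grp.clHoms ℤ Γ (ZMod m) :=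
  AddMonoidHom.mk' (monoFun D₀ hP) fun z z' => by
    obtain ⟨D, hD, h⟩ := (exists_mono D₀ hP z).choose_spec
    obtain ⟨D', hD', h'⟩ := (exists_mono D₀ hP z').choose_spec
    refine Subtype.ext (monoFun_eq D₀ hP (z + z') (D := D + D') ?_ ?_)
    · rw [Pic0.mk_add, hD, hD', AddSubgroup.coe_add]
    · exact h.add D₀.toRatioField h'

omit [NeZero W] [FF.IsFunctionField ℂ ↥F] in
/-- A divisor with trivial monodromy is principal. -/
theorem isPrincipal_of_isMonodromyOn_zero (D₀ : X0.CurveField Γ W F) {D : Divisor ℂ F}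
    (h : IsMonodromyOn Γ m D 0) :
    Divisor.IsPrincipal D := by
  obtain ⟨k, A, B, r, x, hr, hx, hD, hd, hp, hc⟩ := h
  have hm : 1 ≤ m := Nat.one_le_iff_ne_zero.mpr (NeZero.ne m)
  have hform : MF.IsFormFn Γ k r := by
    refine ⟨fun γ hγ => by simpa using hc ⟨γ, hγ⟩, hd, fun δ => ?_⟩
    refine isBoundedAtImInfty_of_pow (NeZero.ne m) ?_
    rw [← pow_slash_SL2, hp]
    exact ((hr.num.mul (hr.den.pow (m - 1))).cast (by rw [Nat.cast_sub hm]; ring)).bdd δ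
  have hB : MF.lq B ≠ 0 := fun e => hr.den_ne ((MF.lq_eq_zero_iff (D₀.isQFn hr.den)).mp e)
  have hy : MF.lq r / MF.lq B ∈ F :=
    D₀.mem_of_ratio _ ⟨k, r, B, hform, hr.den, hr.den_ne, div_mul_cancel₀ _ hB⟩
  set y : F := ⟨_, hy⟩ with hy'
  have hyx : y ^ m = x := by
    refine Subtype.ext (mul_right_cancel₀ (pow_ne_zero m hB) ?_)
    rw [IntermediateField.coe_pow, hy', ← mul_pow, div_mul_cancel₀ _ hB,
      ← MF.lq_pow (D₀.isQFn hform), hp, MF.lq_mul (D₀.isQFn hr.num) (D₀.isQFn (hr.den.pow _)),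
      MF.lq_pow (D₀.isQFn hr.den), ← hr.eq, mul_assoc, ← pow_succ', Nat.sub_add_cancel hm]
  have hy0 : y ≠ 0 := by
    rintro e
    rw [e, zero_pow (NeZero.ne m)] at hyx
    exact hx hyx.symm
  refine ⟨y, hy0, fun v => mul_left_cancel₀ (Int.natCast_ne_zero.mpr (NeZero.ne m)) ?_⟩
  rw [hD, ← hyx, ← zpow_natCast, v.ord_zpow]

/-- A torsion class with trivial monodromy vanishes. -/
theorem monoHom_injective (D₀ : X0.CurveField Γ W F) (hP : PlaceDataOn Γ F) :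
    Function.Injective (monoHom (m := m) D₀ hP) := by
  refine (injective_iff_map_eq_zero _).mpr fun z hz => ?_
  obtain ⟨D, hD, h⟩ := (exists_mono D₀ hP z).choose_spec
  have h0 : ((exists_mono D₀ hP z).choose : Additive Γ →+ ZMod m) = 0 :=
    congrArg Subtype.val hz
  rw [h0] at h
  exact Subtype.ext (by
    rw [← hD, Pic0_mk_eq_zero_iff.mpr (isPrincipal_of_isMonodromyOn_zero D₀ h)]; rfl)

theorem abs_tr_le_two_of_fixed {γ : SL(2, ℤ)} {τ : ℍ} (h : γ • τ = τ) :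
    |Grp.tr γ| ≤ 2 := by
  have e := congrArg (fun z : ℍ => (z : ℂ)) h
  simp only [UpperHalfPlane.coe_specialLinearGroup_apply, algebraMap_int_eq, eq_intCast,
    Complex.ofReal_intCast] at e
  have hd : (γ 1 0 : ℂ) * (τ : ℂ) + (γ 1 1 : ℂ) ≠ 0 := by
    simpa [ModularGroup.denom_apply] using denom_ne_zero (γ : GL (Fin 2) ℝ) τ
  rw [div_eq_iff hd] at e
  have e1 := congrArg Complex.re e
  have e2 := congrArg Complex.im e
  simp only [Complex.add_re, Complex.add_im, Complex.mul_re, Complex.mul_im, Complex.intCast_re,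
    Complex.intCast_im, coe_re, coe_im, zero_mul, sub_zero, add_zero] at e1 e2
  have hdet := det_cast γ
  have ha : (γ 0 0 : ℝ) = 2 * γ 1 0 * τ.re + γ 1 1 :=
    mul_right_cancel₀ τ.im_ne_zero (by linear_combination e2)
  have hb : (γ 0 1 : ℝ) = -(γ 1 0 : ℝ) * τ.re ^ 2 - γ 1 0 * τ.im ^ 2 := by
    rw [ha] at e1
    linear_combination e1
  have h4 : ((γ 0 0 : ℝ) + γ 1 1) ^ 2 ≤ 4 := by
    have : ((γ 0 0 : ℝ) + γ 1 1) ^ 2 = 4 - 4 * (γ 1 0 : ℝ) ^ 2 * τ.im ^ 2 := by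
      rw [hb, ha] at hdet
      rw [ha]
      linear_combination 4 * hdet
    nlinarith [sq_nonneg ((γ 1 0 : ℝ) * τ.im)]
  have h4' : (γ 0 0 + γ 1 1) ^ 2 ≤ 4 := by exact_mod_cast h4
  rw [Grp.tr_eq, abs_le]
  constructor <;> nlinarith

omit [NeZero W] [FF.IsFunctionField ℂ ↥F] in
/-- The orders of `h ^ m / B ^ m` are divisible by `m`. -/
theorem dvd_ord_of_isCharForm (hP : PlaceDataOn Γ F) {φ : Additive Γ →+ ZMod m}
    (hφ : Grp.IsClHom Γ φ) {k : ℤ} {h B : ℍ → ℂ} (hh : IsCharForm Γ m φ k h)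
    (hB : MF.IsFormFn Γ k B) (hB0 : B ≠ 0) {x : F} (hx : x ≠ 0)
    (hr : IsRepOn Γ (x : LaurentSeries ℂ) ((m : ℤ) * k) (h ^ m) (B ^ m)) (v : Place ℂ F) :
    (m : ℤ) ∣ v.ord x := by
  rcases hP.covered v with ⟨τ, c, hc, hv, γ, hfix, hζ⟩ | ⟨δ, w, hw, hv, hmem⟩
  · obtain ⟨a, ha⟩ := exists_hasPtOrd hh.mdiff hh.ne_zero τ
    obtain ⟨b, hb⟩ := exists_hasPtOrd hB.mdiff hB0 τ
    have hord := hv x _ _ _ _ _ hr hx (ha.pow hh.mdiff m) (hb.pow hB.mdiff m)
    push_cast at hord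
    have f1 := ha.fixed hh.mdiff (hh.slash_eq γ) hfix
    rw [hφ γ (abs_tr_le_two_of_fixed hfix), AddChar.map_zero_eq_one, one_mul] at f1
    have f2 := hb.fixed hB.mdiff (χ := 1) (k := k) (by rw [one_smul]; exact hB.slash_eq _ γ.2) hfix
    rw [one_mul] at f2
    have hJ0 : denom (γ : SL(2, ℤ)) (τ : ℂ) ≠ 0 := denom_ne_zero _ τ
    obtain ⟨e, he⟩ : (c : ℤ) ∣ (a : ℤ) - b := by
      rw [← hζ.zpow_eq_one_iff_dvd, ← zpow_natCast, ← zpow_mul,
        show ((2 : ℕ) : ℤ) * ((a : ℤ) - b) = (k + 2 * a) - (k + 2 * b) by push_cast; ring,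
        zpow_sub₀ hJ0, f1, f2, div_one]
    refine ⟨e, mul_left_cancel₀ (Int.natCast_ne_zero.mpr hc.ne') ?_⟩
    linear_combination hord + (m : ℤ) * he
  · set γ : Γ := ⟨_, hmem⟩ with hγ
    have hconj : δ * ModularGroup.T ^ (w : ℤ) = (γ : SL(2, ℤ)) * δ := by rw [hγ]; group
    have htr : |Grp.tr (γ : SL(2, ℤ))| ≤ 2 := by
      rw [hγ, Grp.tr_conj, Grp.tr_T_zpow]; norm_num
    have hper : ∀ f : ℍ → ℂ, f ∣[k] (γ : SL(2, ℤ)) = f →
        Function.Periodic ((f ∣[k] δ) ∘ ofComplex) (((w : ℕ) : ℝ) : ℂ) := fun f hf =>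
      X0.T_zpow_apply_periodic (k := k) w (by
        rw [← SlashAction.slash_mul, hconj, SlashAction.slash_mul, hf])
    obtain ⟨a, ha⟩ := exists_hasExpOrd hw (hper h (by
      rw [hh.slash_eq, hφ γ htr, AddChar.map_zero_eq_one, one_smul]))
      (mdiff_slash hh.mdiff k δ) (hh.bdd δ) (slash_ne_zero hh.ne_zero k δ)
    obtain ⟨b, hb⟩ := exists_hasExpOrd hw (hper B (hB.slash_eq _ γ.2))
      (mdiff_slash hB.mdiff k δ) (hB.bdd δ) (slash_ne_zero hB0 k δ)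
    have e1 := ha.pow m
    have e2 := hb.pow m
    rw [← pow_slash_SL2] at e1 e2
    have hord := hv x _ _ _ _ _ hr hx e1 e2
    refine ⟨(a : ℤ) - b, ?_⟩
    have hw0 : (w : ℚ) ≠ 0 := by exact_mod_cast hw.ne'
    have : (v.ord x : ℚ) = (((m : ℤ) * ((a : ℤ) - b) : ℤ) : ℚ) := by
      rw [hord]; push_cast; field_simp
    exact_mod_cast this

/-- Every cuspidal character is the monodromy of a torsion class. -/
theorem monoHom_surjective (D₀ : X0.CurveField Γ W F) (hP : PlaceDataOn Γ F) :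
    Function.Surjective (monoHom (m := m) D₀ hP) := by
  rintro ⟨φ, hφ⟩
  have hneg : ∀ γ : Γ, (γ : SL(2, ℤ)) = -1 → φ (Additive.ofMul γ) = 0 := fun γ hγ =>
    hφ γ (by rw [hγ, Grp.tr_neg_one]; norm_num)
  obtain ⟨l, ⟨h, hh⟩, B, hB'⟩ := ((eventually_isCharForm D₀.neg_one_mem hneg).and
    (eventually_isCharForm (Γ := Γ) (m := m) (φ := 0) D₀.neg_one_mem
      fun _ _ => rfl)).exists
  have hm : 1 ≤ m := Nat.one_le_iff_ne_zero.mpr (NeZero.ne m)
  set k : ℤ := ((2 * l : ℕ) : ℤ) with hk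
  have hB : MF.IsFormFn Γ k B := hB'.isFormFn
  have hA := hh.pow_isFormFn
  have hBm : MF.IsFormFn Γ ((m : ℤ) * k) (B ^ m) := hB.pow m
  have hB0 : B ^ m ≠ 0 := pow_ne_zero_fun hB'.ne_zero m
  have hlB : MF.lq (B ^ m) ≠ 0 := fun e => hB0 ((MF.lq_eq_zero_iff (D₀.isQFn hBm)).mp e)
  have hlA : MF.lq (h ^ m) ≠ 0 := fun e =>
    pow_ne_zero_fun hh.ne_zero m ((MF.lq_eq_zero_iff (D₀.isQFn hA)).mp e)
  set x : F := ⟨MF.lq (h ^ m) / MF.lq (B ^ m),
    D₀.mem_of_ratio _ ⟨_, _, _, hA, hBm, hB0, div_mul_cancel₀ _ hlB⟩⟩ with hxdef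
  have hx : x ≠ 0 := fun e => div_ne_zero hlA hlB (congrArg Subtype.val e)
  have hr : IsRepOn Γ (x : LaurentSeries ℂ) ((m : ℤ) * k) (h ^ m) (B ^ m) :=
    ⟨hA, hBm, hB0, div_mul_cancel₀ _ hlB⟩
  have hdvd := dvd_ord_of_isCharForm hP hφ hh hB hB'.ne_zero hx hr
  set D : Divisor ℂ F :=
    (FF.divOf x).mapRange (fun z => z / (m : ℤ)) (Int.zero_ediv _) with hDdef
  have hD : ∀ v, (m : ℤ) * D v = v.ord x := fun v => by
    rw [hDdef, Finsupp.mapRange_apply, FF.divOf_apply, Int.mul_ediv_cancel' (hdvd v)]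
  have hsmul : (m : ℤ) • D = FF.divOf x := Finsupp.ext fun v => by
    rw [Finsupp.smul_apply, smul_eq_mul, hD, FF.divOf_apply]
  have hdeg : D ∈ Divisor.degZero (K := ℂ) (F := F) := by
    have := FF.degree_divOf (K := ℂ) x
    rw [← hsmul, map_zsmul, smul_eq_mul, mul_eq_zero] at this
    exact this.resolve_left (Int.natCast_ne_zero.mpr (NeZero.ne m))
  have htor : Pic0.mk ⟨D, hdeg⟩ ∈ Pic0.torsion ℂ F m := mk_mem_torsion_iff.mpr ⟨x, hx, hD⟩
  refine ⟨⟨_, htor⟩, Subtype.ext (monoFun_eq D₀ hP _ (D := ⟨D, hdeg⟩) rfl ?_)⟩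
  refine ⟨(m : ℤ) * k, h ^ m, B ^ m, h * B ^ (m - 1), x, hr, hx, hD,
    hh.mdiff.mul (hB.pow (m - 1)).mdiff, ?_, fun γ => ?_⟩
  · rw [mul_pow, ← pow_mul, ← pow_mul, mul_comm (m - 1)]
  · rw [show (m : ℤ) * k = k + ((m - 1 : ℕ) : ℤ) * k by rw [Nat.cast_sub hm]; ring,
      ModularForm.mul_slash_SL2, hh.slash_eq, pow_slash_SL2, hB.slash_eq _ γ.2, smul_mul_assoc]

/-- The `m`-torsion of the Jacobian over `ℂ` is `Hom_cl(Γ, ℤ/m)`. -/
def torsionEquivC (D₀ : X0.CurveField Γ W F) (hP : PlaceDataOn Γ F) (m : ℕ) [NeZero m] :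
    Pic0.torsion ℂ F m ≃+ Grp.clHoms ℤ Γ (ZMod m) :=
  AddEquiv.ofBijective (monoHom D₀ hP) ⟨monoHom_injective D₀ hP, monoHom_surjective D₀ hP⟩

/-- The `m`-torsion has `m ^ r` elements, `r` the rank of the cuspidal characters. -/
theorem natCard_torsionC (D₀ : X0.CurveField Γ W F) (hP : PlaceDataOn Γ F) :
    Nat.card (Pic0.torsion ℂ F m) = m ^ Grp.clRank Γ := by
  have := D₀.finiteIndex
  rw [Nat.card_congr (torsionEquivC D₀ hP m).toEquiv, Grp.natCard_clHoms_zmod_eq Γ D₀.neg_one_mem]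

/-- The `m`-torsion is finite. -/
theorem finite_torsionC (D₀ : X0.CurveField Γ W F) (hP : PlaceDataOn Γ F) :
    Finite (Pic0.torsion ℂ F m) :=
  Nat.finite_of_card_ne_zero (by rw [natCard_torsionC D₀ hP]; exact pow_ne_zero _ (NeZero.ne m))

end Fermat.Agent.Mono
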