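import Fermat.Prelude.Def_GaloisRep_ComplexConjugation
import Fermat.Prelude.Def_ModularCurve_ArithmeticGalois
import Fermat.Prelude.Def_ModularCurve_PeriodHomPair
import Fermat.Agent.FF.Modular
import Fermat.Agent.Mono.BaseChange
import Fermat.Agent.Mono.Defs
import Fermat.Agent.Mono.Lattice
import Fermat.Agent.Mono.Monodromy

/-!
# Torsion of `J₀(N)` as cuspidal characters

Transports the monodromy isomorphism from `ℂ` to `ℚ̄`: `J₀(N)(ℚ̄)[m]` is isomorphic to
`Hom_cl(Γ₀(N), ℤ/m)`, compatibly with `J[dm] → J[m]`, and is the image of the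
integral lattice `Hom_cl(Γ₀(N), ℤ)` under `projHom`. This is how the torsion Galois representations
get a Hecke module.
-/

noncomputable section

namespace Fermat.Agent.Mono

open AlgebraicCurve ModularCurve CongruenceSubgroup
open UpperHalfPlane hiding I
open scoped MatrixGroups ModularForm Manifold Real

local notation "ℚbar" => AlgebraicClosure ℚ

variable {N : ℕ} [NeZero N] {m : ℕ} [NeZero m]

omit [NeZero m] in
theorem baseChange_mem_torsion {x : JZero N}
    (hx : x ∈ Pic0.torsion ℚbar (modularFunctionFieldBar N) m) :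
    baseChange N x ∈ Pic0.torsion ℂ (FC N) m :=
  map_mem_torsion (baseChange N) hx

theorem torsionBC_bijective (hP : PlaceData N) :
    Function.Bijective (torsionMap m (baseChange N)) :=
  torsionMap_bijective _ (baseChange_injective N) fun z hz =>
    have := finite_torsionC (m := m) (X0.curveField N) hP
    baseChange_torsion_surjective N z hz

/-- `J₀(N)(ℚ̄)[m] ≅ Hom_cl(Γ₀(N), ℤ/m)`. -/
def torsionEquiv (hP : PlaceData N) (m : ℕ) [NeZero m] :
    Pic0.torsion ℚbar (modularFunctionFieldBar N) m ≃+ Grp.clHoms ℤ (Gamma0 N) (ZMod m) :=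
  (AddEquiv.ofBijective (torsionMap m (baseChange N)) (torsionBC_bijective hP)).trans
    (torsionEquivC (X0.curveField N) hP m)

/-- `J₀(N)(ℚ̄)[m]` has `m ^ clRank` elements. -/
theorem natCard_jZero_torsion (hP : PlaceData N) :
    Nat.card (Pic0.torsion ℚbar (modularFunctionFieldBar N) m) = m ^ Grp.clRank (Gamma0 N) := by
  rw [Nat.card_congr (torsionEquiv hP m).toEquiv, Grp.natCard_clHoms_zmod]

/-- `J₀(N)(ℚ̄)[m]` is finite. -/
theorem finite_jZero_torsion (hP : PlaceData N) :
    Finite (Pic0.torsion ℚbar (modularFunctionFieldBar N) m) :=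
  Nat.finite_of_card_ne_zero (by
    rw [natCard_jZero_torsion hP]; exact pow_ne_zero _ (NeZero.ne m))

/-- The monodromy of a torsion point is computed on any representing divisor. -/
theorem torsionEquiv_eq (hP : PlaceData N) (x : Pic0.torsion ℚbar (modularFunctionFieldBar N) m)
    (D : Divisor.degZero (K := ℂ) (F := FC N)) (hD : Pic0.mk D = baseChange N (x : JZero N))
    {φ : Additive (Gamma0 N) →+ ZMod m} (h : IsMonodromy N m (D : Divisor ℂ (FC N)) φ) :
    (torsionEquiv hP m x : Additive (Gamma0 N) →+ ZMod m) = φ :=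
  monoFun_eq (X0.curveField N) hP _ hD h

/-! ### Change of `m` -/

section Levels

variable {d : ℕ} [NeZero d]

theorem stdAddChar_pow_castHom (a : ZMod (d * m)) :
    (ZMod.stdAddChar a : ℂ) ^ d = ZMod.stdAddChar (ZMod.castHom (dvd_mul_left m d) (ZMod m) a) := by
  obtain ⟨j, rfl⟩ := ZMod.intCast_surjective a
  rw [map_intCast (ZMod.castHom (dvd_mul_left m d) (ZMod m)), ZMod.stdAddChar_coe,
      ZMod.stdAddChar_coe, ← Complex.exp_nat_mul]
  congr 1
  have hd : (d : ℂ) ≠ 0 := Nat.cast_ne_zero.mpr (NeZero.ne d)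
  have hm : (m : ℂ) ≠ 0 := Nat.cast_ne_zero.mpr (NeZero.ne m)
  push_cast
  field_simp

omit [NeZero N] in
theorem IsMonodromyOn.nsmul_level {D : Divisor ℂ (FC N)} {φ : Additive (Gamma0 N) →+ ZMod (d * m)}
    (h : IsMonodromy N (d * m) D φ) :
    IsMonodromy N m (d • D)
      ((ZMod.castHom (dvd_mul_left m d) (ZMod m)).toAddMonoidHom.comp φ) := by
  obtain ⟨k, A, B, r, x, hr, hx, hD, hd, hp, hc⟩ := h
  have hd1 : 1 ≤ d := Nat.one_le_iff_ne_zero.mpr (NeZero.ne d)
  have hm1 : 1 ≤ m := Nat.one_le_iff_ne_zero.mpr (NeZero.ne m)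
  have hB : B ^ (d - 1) ≠ 0 := pow_ne_zero_fun hr.den_ne _
  refine ⟨(d : ℤ) * k, A * B ^ (d - 1), B ^ d, r ^ d, x, ⟨?_, hr.den.pow d,
    pow_ne_zero_fun hr.den_ne d, ?_⟩, hx, fun v => ?_, hd.pow d, ?_, fun γ => ?_⟩
  · exact (hr.num.mul (hr.den.pow (d - 1))).cast (by rw [Nat.cast_sub hd1]; ring)
  · rw [MF.lq_pow hr.den.isQFn0, MF.lq_mul hr.num.isQFn0 (hr.den.pow _).isQFn0,
      MF.lq_pow hr.den.isQFn0, ← hr.eq, mul_assoc, ← pow_succ', Nat.sub_add_cancel hd1]
  · rw [← hD v, Finsupp.smul_apply, nsmul_eq_mul]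
    push_cast
    ring
  · rw [← pow_mul, hp, mul_assoc, ← pow_mul, ← pow_add]
    congr 2
    obtain ⟨e, rfl⟩ := Nat.exists_eq_add_of_le hd1
    obtain ⟨f, rfl⟩ := Nat.exists_eq_add_of_le hm1
    simp only [Nat.add_sub_cancel_left]
    rw [show (1 + e) * (1 + f) = 1 + (e + (1 + e) * f) by ring, Nat.add_sub_cancel_left]
  · rw [pow_slash_SL2, hc, smul_pow, stdAddChar_pow_castHom]
    rfl

omit [NeZero N] [NeZero m] [NeZero d] in
theorem nsmul_mem_torsion {x : JZero N}
    (hx : x ∈ Pic0.torsion ℚbar (modularFunctionFieldBar N) (d * m)) :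
    d • x ∈ Pic0.torsion ℚbar (modularFunctionFieldBar N) m := by
  rw [Pic0.mem_torsion] at hx ⊢
  rw [← natCast_zsmul x d, ← mul_smul, ← hx]
  congr 1
  push_cast
  ring

/-- A torsion point over `ℚ̄` has, over `ℂ`, a divisor with a monodromy character. -/
theorem exists_rep_isMonodromy (hP : PlaceData N)
    (x : Pic0.torsion ℚbar (modularFunctionFieldBar N) m) :
    ∃ (D : Divisor.degZero (K := ℂ) (F := FC N)), Pic0.mk D = baseChange N (x : JZero N) ∧
      IsMonodromy N m (D : Divisor ℂ (FC N))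
        (torsionEquiv hP m x : Additive (Gamma0 N) →+ ZMod m) :=
  (exists_mono (X0.curveField N) hP
    ⟨baseChange N (x : JZero N), baseChange_mem_torsion x.2⟩).choose_spec

/-- `J[dm] → J[m]`, multiplication by `d`, is reduction mod `m`. -/
theorem torsionEquiv_mul (hP : PlaceData N)
    (x : Pic0.torsion ℚbar (modularFunctionFieldBar N) (d * m)) :
    (torsionEquiv hP m ⟨d • (x : JZero N), nsmul_mem_torsion x.2⟩ :
        Additive (Gamma0 N) →+ ZMod m) =
      (ZMod.castHom (dvd_mul_left m d) (ZMod m)).toAddMonoidHom.comp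
        (torsionEquiv hP (d * m) x : Additive (Gamma0 N) →+ ZMod (d * m)) := by
  obtain ⟨D, hD, h⟩ := exists_rep_isMonodromy hP x
  refine torsionEquiv_eq hP _ (d • D) ?_ (by simpa using h.nsmul_level)
  show Pic0.mk (d • D) = baseChange N (d • (x : JZero N))
  rw [map_nsmul, ← hD]
  rfl

end Levels

/-! ### The integral model -/

variable (N m) in
/-- Reduction mod `m`. -/
abbrev redClHom : Grp.clHoms ℤ (Gamma0 N) ℤ →+ Grp.clHoms ℤ (Gamma0 N) (ZMod m) :=
  redCl (Gamma0 N) m

/-- `Hom_cl(Γ₀(N), ℤ) → J₀(N)(ℚ̄)`, onto the `m`-torsion with kernel `m · Hom_cl(Γ₀(N), ℤ)`. -/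
def projHom (hP : PlaceData N) (m : ℕ) [NeZero m] : Grp.clHoms ℤ (Gamma0 N) ℤ →+ JZero N :=
  projOfEquiv (torsionEquiv hP m)

/-- The projection covers exactly the `m`-torsion. -/
theorem mem_range_projHom (hP : PlaceData N) (x : JZero N) :
    x ∈ (projHom hP m).range ↔ m • x = 0 :=
  mem_range_projOfEquiv (torsionEquiv hP m) (Grp.neg_one_mem_Gamma0 N) x

theorem projHom_eq_zero_iff (hP : PlaceData N) (φ : Grp.clHoms ℤ (Gamma0 N) ℤ) :
    projHom hP m φ = 0 ↔ ∃ ψ, φ = m • ψ :=
  projOfEquiv_eq_zero_iff (torsionEquiv hP m) φ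

theorem nsmul_projHom (hP : PlaceData N) {d : ℕ} [NeZero d] (φ : Grp.clHoms ℤ (Gamma0 N) ℤ) :
    d • projHom hP (d * m) φ = projHom hP m φ := by
  have key : (⟨d • (((torsionEquiv hP (d * m)).symm (redClHom N (d * m) φ)) : JZero N),
      nsmul_mem_torsion ((torsionEquiv hP (d * m)).symm (redClHom N (d * m) φ)).2⟩ :
        Pic0.torsion ℚbar (modularFunctionFieldBar N) m) =
      (torsionEquiv hP m).symm (redClHom N m φ) := by
    apply (torsionEquiv hP m).injective
    rw [AddEquiv.apply_symm_apply]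
    refine Subtype.ext ?_
    rw [torsionEquiv_mul, AddEquiv.apply_symm_apply]
    refine AddMonoidHom.ext fun g => ?_
    exact map_intCast (ZMod.castHom (dvd_mul_left m d) (ZMod m)) _
  exact congrArg Subtype.val key

end Fermat.Agent.Mono
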