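import Mathlib

/-!
# Roots of holomorphic functions on the upper half plane

A holomorphic function on `ℍ` all of whose orders are divisible by `m` is an `m`-th power, and the
root is unique up to a root of unity. This produces the forms whose multipliers are monodromy
characters.
-/

noncomputable section

open UpperHalfPlane hiding I I_re I_im
open Complex Metric Set Filter
open scoped Topology Manifold

namespace Fermat.Agent.Mono

/-- The exhausting balls of the upper half plane. -/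
def hBall (n : ℕ) : Set ℂ := ball (((n : ℝ) + 2 : ℝ) * Complex.I) ((n : ℝ) + 2 - 1 / ((n : ℝ) + 2))

/-- The balls increase. -/
theorem hBall_mono {n n' : ℕ} (h : n ≤ n') : hBall n ⊆ hBall n' := by
  refine Metric.ball_subset_ball' ?_
  rw [dist_eq_norm, ← sub_mul, norm_mul, Complex.norm_I, mul_one, ← Complex.ofReal_sub,
    Complex.norm_real, Real.norm_eq_abs]
  have h1 : (n : ℝ) ≤ n' := by exact_mod_cast h
  have h2 : 1 / ((n' : ℝ) + 2) ≤ 1 / ((n : ℝ) + 2) :=
    one_div_le_one_div_of_le (by positivity) (by linarith)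
  rw [abs_of_nonpos (by linarith)]
  linarith

theorem closedBall_subset (n : ℕ) :
    closedBall ((((n : ℝ) + 2 : ℝ) : ℂ) * Complex.I) ((n : ℝ) + 2 - 1 / ((n : ℝ) + 2))
      ⊆ {z : ℂ | 0 < z.im} := by
  intro z hz
  rw [mem_closedBall, dist_eq_norm] at hz
  have h1 := (abs_le.mp ((Complex.abs_im_le_norm _).trans hz)).1
  have h2 : 0 < 1 / ((n : ℝ) + 2) := by positivity
  simp at h1 ⊢
  exact lt_of_lt_of_le (by positivity) h1

theorem hBall_subset (n : ℕ) : hBall n ⊆ {z : ℂ | 0 < z.im} :=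
  ball_subset_closedBall.trans (closedBall_subset n)

/-- The balls exhaust the upper half plane. -/
theorem exists_mem_hBall {z : ℂ} (hz : 0 < z.im) : ∃ n, z ∈ hBall n := by
  obtain ⟨n, hn⟩ := exists_nat_gt ((z.re ^ 2 + z.im ^ 2 + 2) / (2 * z.im))
  refine ⟨n, ?_⟩
  set r : ℝ := (n : ℝ) + 2 with hr
  have hr0 : (2 : ℝ) ≤ r := by have : (0 : ℝ) ≤ n := n.cast_nonneg; linarith
  rw [hBall, mem_ball, dist_eq_norm, ← hr, Complex.norm_eq_sqrt_sq_add_sq, Real.sqrt_lt' (by
    rw [sub_pos, div_lt_iff₀ (by linarith)]; nlinarith)]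
  simp only [sub_re, mul_re, ofReal_re, I_re, mul_zero, ofReal_im, I_im, mul_one, sub_zero,
    sub_im, mul_im, add_zero]
  have h1 : (z.re ^ 2 + z.im ^ 2 + 2) < 2 * z.im * r := by
    rw [div_lt_iff₀ (by positivity)] at hn
    nlinarith
  have h2 : (r - 1 / r) ^ 2 = r ^ 2 - 2 + (1 / r) ^ 2 := by
    field_simp
    ring
  nlinarith [sq_nonneg (1 / r)]

/-- Splitting off the zero at `a`. -/
theorem exists_eq_pow_mul {f : ℂ → ℂ} {U : Set ℂ} (hf : AnalyticOnNhd ℂ f U) {a : ℂ} (ha : a ∈ U)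
    {n : ℕ} (hn : analyticOrderAt f a = n) :
    ∃ g : ℂ → ℂ, AnalyticOnNhd ℂ g U ∧ g a ≠ 0 ∧ (∀ z, f z = (z - a) ^ n * g z) ∧
      ∀ z ∈ U, z ≠ a → analyticOrderAt g z = analyticOrderAt f z := by
  classical
  obtain ⟨g₀, hg₀, hne, heq⟩ := ((hf a ha).analyticOrderAt_eq_natCast).mp hn
  refine ⟨Function.update (fun z => f z / (z - a) ^ n) a (g₀ a), fun z hz => ?_, by simpa, ?_, ?_⟩
  · rcases eq_or_ne z a with rfl | hza
    · refine hg₀.congr ?_
      filter_upwards [heq] with w hw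
      rcases eq_or_ne w z with rfl | hwz
      · simp
      · rw [Function.update_of_ne hwz, hw, smul_eq_mul,
          mul_div_cancel_left₀ _ (pow_ne_zero _ (sub_ne_zero.mpr hwz))]
    · have h1 : AnalyticAt ℂ (fun z => f z / (z - a) ^ n) z :=
        (hf z hz).div ((analyticAt_id.sub analyticAt_const).pow n)
          (pow_ne_zero _ (sub_ne_zero.mpr hza))
      refine h1.congr ?_
      filter_upwards [eventually_ne_nhds hza] with w hw
      rw [Function.update_of_ne hw]
  · intro z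
    rcases eq_or_ne z a with rfl | hza
    · rw [Function.update_self]
      simpa [smul_eq_mul] using heq.self_of_nhds
    · rw [Function.update_of_ne hza, mul_div_cancel₀ _ (pow_ne_zero _ (sub_ne_zero.mpr hza))]
  · intro z hz hza
    have h1 : AnalyticAt ℂ (fun w => ((w - a) ^ n)⁻¹) z :=
      ((analyticAt_id.sub analyticAt_const).pow n).inv (pow_ne_zero _ (sub_ne_zero.mpr hza))
    rw [analyticOrderAt_congr (g := (fun w => ((w - a) ^ n)⁻¹) * f) ?_,
      analyticOrderAt_mul h1 (hf z hz), h1.analyticOrderAt_eq_zero.mpr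
        (inv_ne_zero (pow_ne_zero _ (sub_ne_zero.mpr hza))), zero_add]
    filter_upwards [eventually_ne_nhds hza] with w hw
    rw [Function.update_of_ne hw, Pi.mul_apply, div_eq_inv_mul]

/-- An `m`-th root on a ball. -/
theorem exists_root_ball {c : ℂ} {r : ℝ} {m : ℕ} (hm : m ≠ 0) (Z : Finset ℂ) :
    ∀ {f : ℂ → ℂ}, AnalyticOnNhd ℂ f (ball c r) → (∀ z ∈ ball c r, f z = 0 → z ∈ Z) →
      (∀ z ∈ ball c r, ∃ k : ℕ, analyticOrderAt f z = ((m * k : ℕ) : ℕ∞)) →
      ∃ h : ℂ → ℂ, AnalyticOnNhd ℂ h (ball c r) ∧ ∀ z ∈ ball c r, h z ^ m = f z := by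
  classical
  induction Z using Finset.induction_on with
  | empty =>
    intro f hf hZ _
    rcases le_or_gt r 0 with hr | hr
    · exact ⟨0, by simp [ball_eq_empty.mpr hr, AnalyticOnNhd], by simp [ball_eq_empty.mpr hr]⟩
    have hne : ∀ z ∈ ball c r, f z ≠ 0 := fun z hz h => by simpa using hZ z hz h
    have hd : DifferentiableOn ℂ (fun z => deriv f z / f z) (ball c r) :=
      (hf.deriv.differentiableOn).div hf.differentiableOn hne
    obtain ⟨F, hF⟩ := hd.isExactOn_ball
    have hder : ∀ z ∈ ball c r, HasDerivAt (fun w => f w * exp (-F w)) 0 z := fun z hz => by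
      have h1 := ((hf z hz).differentiableAt.hasDerivAt).mul (hF z hz).neg.cexp
      refine h1.congr_deriv ?_
      field_simp [hne z hz]
      ring
    have hconst : ∀ z ∈ ball c r, f z * exp (-F z) = f c * exp (-F c) := fun z hz =>
      (convex_ball c r).is_const_of_fderivWithin_eq_zero
        (fun w hw => (hder w hw).differentiableAt.differentiableWithinAt)
        (fun w hw => by
          rw [fderivWithin_of_isOpen isOpen_ball hw]
          ext
          simp [(hder w hw).deriv])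
        hz (mem_ball_self hr)
    refine ⟨fun z => (f c * exp (-F c)) ^ (1 / m : ℂ) * exp (F z / m), ?_, fun z hz => ?_⟩
    · refine DifferentiableOn.analyticOnNhd (fun z hz => ?_) isOpen_ball
      exact (((hF z hz).differentiableAt.div_const _).cexp.const_mul _).differentiableWithinAt
    · rw [mul_pow, one_div, cpow_nat_inv_pow _ hm, ← exp_nat_mul,
        mul_div_cancel₀ _ (Nat.cast_ne_zero.mpr hm), ← hconst z hz, mul_assoc, ← Complex.exp_add,
        neg_add_cancel, Complex.exp_zero, mul_one]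
  | insert a Z ha ih =>
    intro f hf hZ hord
    by_cases hab : a ∈ ball c r
    · obtain ⟨k, hk⟩ := hord a hab
      obtain ⟨g, hg, hga, hfg, hgord⟩ := exists_eq_pow_mul hf hab hk
      obtain ⟨h, hh, hpow⟩ := ih hg (fun z hz hgz => by
          rcases eq_or_ne z a with rfl | hza
          · exact absurd hgz hga
          · exact (Finset.mem_insert.mp (hZ z hz (by rw [hfg, hgz, mul_zero]))).resolve_left hza)
        (fun z hz => by
          rcases eq_or_ne z a with rfl | hza
          · exact ⟨0, by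
              rw [mul_zero, Nat.cast_zero]; exact (hg z hz).analyticOrderAt_eq_zero.mpr hga⟩
          · rw [hgord z hz hza]; exact hord z hz)
      refine ⟨fun z => (z - a) ^ k * h z, fun z hz =>
        ((analyticAt_id.sub analyticAt_const).pow k).mul (hh z hz), fun z hz => ?_⟩
      rw [mul_pow, hpow z hz, ← pow_mul, mul_comm k m, hfg z]
    · exact ih hf (fun z hz h => (Finset.mem_insert.mp (hZ z hz h)).resolve_left
        fun e => hab (e ▸ hz)) hord

/-- Two roots agreeing at one point where they do not vanish agree. -/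
theorem eqOn_of_pow_eq {s : Set ℂ} (hs : IsPreconnected s) (hso : IsOpen s) {h h' : ℂ → ℂ}
    (hh : AnalyticOnNhd ℂ h s) (hh' : AnalyticOnNhd ℂ h' s) {m : ℕ} (hm : m ≠ 0)
    (hpow : ∀ z ∈ s, h z ^ m = h' z ^ m) {p : ℂ} (hp : p ∈ s) (hne : h' p ≠ 0)
    (heq : h p = h' p) : EqOn h h' s := by
  refine hh.eqOn_of_preconnected_of_eventuallyEq hh' hs hp ?_
  have hcont : ContinuousAt (fun z => h z / h' z) p :=
    (hh p hp).continuousAt.div (hh' p hp).continuousAt hne
  have hT : {ζ : ℂ | ζ ^ m = 1 ∧ ζ ≠ 1}.Finite :=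
    (Polynomial.nthRootsFinset m (1 : ℂ)).finite_toSet.subset fun ζ hζ =>
      (Polynomial.mem_nthRootsFinset (Nat.pos_of_ne_zero hm) 1).mpr hζ.1
  have hev : ∀ᶠ z in 𝓝 p, h z / h' z ∈ {ζ : ℂ | ζ ^ m = 1 ∧ ζ ≠ 1}ᶜ :=
    hcont.eventually (hT.isClosed.isOpen_compl.mem_nhds (by simp [heq, div_self hne]))
  filter_upwards [hev, (hh' p hp).continuousAt.eventually_ne hne, hso.mem_nhds hp]
    with z hz hz' hzs
  have h1 : (h z / h' z) ^ m = 1 := by
    rw [div_pow, hpow z hzs, div_self (pow_ne_zero _ hz')]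
  by_contra hne'
  exact hz ⟨h1, fun e => hne' ((div_eq_one_iff_eq hz').mp e)⟩

/-- Uniqueness of roots up to a root of unity. -/
theorem exists_eq_smul_of_pow_eq {h h' : ℍ → ℂ} (hh : MDiff h) (hh' : MDiff h') {m : ℕ}
    (hm : m ≠ 0) (hpow : h ^ m = h' ^ m) (hne : h' ≠ 0) :
    ∃ ζ : ℂ, ζ ^ m = 1 ∧ h = ζ • h' := by
  obtain ⟨τ, hτ⟩ : ∃ τ, h' τ ≠ 0 := Function.ne_iff.mp hne
  have hζ : (h τ / h' τ) ^ m = 1 := by
    have := congrFun hpow τ
    simp only [Pi.pow_apply] at this
    rw [div_pow, this, div_self (pow_ne_zero _ hτ)]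
  refine ⟨h τ / h' τ, hζ, ?_⟩
  have hU : IsOpen {z : ℂ | 0 < z.im} := isOpen_lt continuous_const Complex.continuous_im
  have a1 : AnalyticOnNhd ℂ (h ∘ ofComplex) {z : ℂ | 0 < z.im} :=
    (UpperHalfPlane.mdifferentiable_iff.mp hh).analyticOnNhd hU
  have a2 : AnalyticOnNhd ℂ (fun z => (h τ / h' τ) * (h' ∘ ofComplex) z) {z : ℂ | 0 < z.im} :=
    ((UpperHalfPlane.mdifferentiable_iff.mp hh').const_mul _).analyticOnNhd hU
  have key := eqOn_of_pow_eq (convex_halfSpace_im_gt 0).isPreconnected hU a1 a2 hm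
    (fun z hz => by
      simp only [Function.comp_apply, mul_pow, hζ, one_mul]
      exact congrFun hpow (ofComplex z))
    (p := (τ : ℂ)) τ.im_pos (by
      simp only [Function.comp_apply, ofComplex_apply]
      rw [div_mul_cancel₀ _ hτ]
      intro h0
      have := congrFun hpow τ
      simp only [Pi.pow_apply, h0, zero_pow hm] at this
      exact hτ ((pow_eq_zero_iff hm).mp this.symm))
    (by simp [div_mul_cancel₀ _ hτ])
  funext σ
  have := key σ.im_pos
  simpa using this

/-- A function with finite orders on the upper half plane has finitely many zeros on each ball. -/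
theorem exists_finset_zeros_hBall {f : ℂ → ℂ} (hf : AnalyticOnNhd ℂ f {z : ℂ | 0 < z.im})
    {m : ℕ} (hord : ∀ z : ℂ, 0 < z.im → ∃ k : ℕ, analyticOrderAt f z = ((m * k : ℕ) : ℕ∞))
    (n : ℕ) : ∃ Z : Finset ℂ, ∀ z ∈ hBall n, f z = 0 → z ∈ Z := by
  set K := closedBall ((((n : ℝ) + 2 : ℝ) : ℂ) * Complex.I) ((n : ℝ) + 2 - 1 / ((n : ℝ) + 2))
  have hK : IsCompact K := isCompact_closedBall _ _
  have hKU := closedBall_subset n
  have hloc : ∀ a ∈ K, ∀ᶠ z in 𝓝[≠] a, f z ≠ 0 := fun a ha => by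
    obtain ⟨k, hk⟩ := hord a (hKU ha)
    exact ((hf a (hKU ha)).eventually_eq_zero_or_eventually_ne_zero).resolve_left fun h0 => by
      rw [analyticOrderAt_eq_top.mpr h0] at hk
      exact ENat.natCast_ne_top _ hk.symm
  have hS : {z | z ∈ K ∧ f z = 0}.Finite := by
    by_contra hinf
    obtain ⟨a, ha, hacc⟩ :=
      Set.Infinite.exists_accPt_of_subset_isCompact (s := {z | z ∈ K ∧ f z = 0}) hinf hK
        (fun z (hz : z ∈ {z | z ∈ K ∧ f z = 0}) => hz.1)
    obtain ⟨z, ⟨hz1, hz2⟩, hz3⟩ :=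
      ((accPt_iff_frequently_nhdsNE.mp hacc).and_eventually (hloc a ha)).exists
    exact hz3 hz2
  exact ⟨hS.toFinset, fun z hz h0 => hS.mem_toFinset.mpr ⟨ball_subset_closedBall hz, h0⟩⟩

/-- A holomorphic function on `ℍ` all whose orders are multiples of `m` is an `m`-th power. -/
theorem exists_root {C : ℍ → ℂ} (hC : MDiff C) (hC0 : C ≠ 0) {m : ℕ} (hm : m ≠ 0)
    (hord : ∀ τ : ℍ, ∃ k : ℕ, analyticOrderAt (C ∘ ofComplex) (τ : ℂ) = ((m * k : ℕ) : ℕ∞)) :
    ∃ h : ℍ → ℂ, MDiff h ∧ h ^ m = C := by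
  classical
  set f := C ∘ ofComplex with hfdef
  have hU : IsOpen {z : ℂ | 0 < z.im} := isOpen_lt continuous_const Complex.continuous_im
  have hf : AnalyticOnNhd ℂ f {z : ℂ | 0 < z.im} :=
    (UpperHalfPlane.mdifferentiable_iff.mp hC).analyticOnNhd hU
  have hordU : ∀ z : ℂ, 0 < z.im → ∃ k : ℕ, analyticOrderAt f z = ((m * k : ℕ) : ℕ∞) :=
    fun z hz => hord ⟨z, hz⟩
  have hfin := exists_finset_zeros_hBall hf hordU
  choose Z hZ using hfin
  have hloc : ∀ n, ∃ h : ℂ → ℂ, AnalyticOnNhd ℂ h (hBall n) ∧ ∀ z ∈ hBall n, h z ^ m = f z :=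
    fun n => exists_root_ball hm (Z n) (fun z hz => hf z (hBall_subset n hz)) (hZ n)
      fun z hz => hordU z (hBall_subset n hz)
  choose h hh hpow using hloc
  obtain ⟨p, hp, hp0⟩ : ∃ p ∈ hBall 0, f p ≠ 0 := by
    by_contra hne
    simp only [not_exists, not_and, not_not] at hne
    have hne' : (hBall 0).Nonempty := ⟨_, mem_ball_self (by norm_num)⟩
    obtain ⟨q, hq⟩ := hne'
    have hev : f =ᶠ[𝓝 q] 0 :=
      Filter.eventually_of_mem (isOpen_ball.mem_nhds hq) fun z hz => hne z hz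
    refine hC0 (funext fun τ => ?_)
    have := hf.eqOn_zero_of_preconnected_of_eventuallyEq_zero
      (convex_halfSpace_im_gt 0).isPreconnected (hBall_subset 0 hq) hev τ.im_pos
    simpa [hfdef] using this
  set r₀ := h 0 p with hr₀
  have hr₀' : r₀ ≠ 0 := fun e => hp0 (by rw [← hpow 0 p hp, ← hr₀, e, zero_pow hm])
  have hhp : ∀ n, h n p ≠ 0 := fun n e =>
    hp0 (by rw [← hpow n p (hBall_mono (Nat.zero_le n) hp), e, zero_pow hm])
  set H : ℕ → ℂ → ℂ := fun n z => r₀ / h n p * h n z with hH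
  have hHan : ∀ n, AnalyticOnNhd ℂ (H n) (hBall n) := fun n z hz =>
    analyticAt_const.mul (hh n z hz)
  have hHpow : ∀ n, ∀ z ∈ hBall n, H n z ^ m = f z := fun n z hz => by
    simp only [hH, mul_pow, div_pow, hr₀]
    rw [hpow 0 p hp, hpow n p (hBall_mono (Nat.zero_le n) hp), div_self hp0, one_mul, hpow n z hz]
  have hHp : ∀ n, H n p = r₀ := fun n => div_mul_cancel₀ _ (hhp n)
  have hagree : ∀ n n', n ≤ n' → EqOn (H n) (H n') (hBall n) := fun n n' hnn =>
    eqOn_of_pow_eq (convex_ball _ _).isPreconnected isOpen_ball (hHan n)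
      (fun z hz => hHan n' z (hBall_mono hnn hz)) hm
      (fun z hz => by rw [hHpow n z hz, hHpow n' z (hBall_mono hnn hz)])
      (hBall_mono (Nat.zero_le n) hp) (by rw [hHp]; exact hr₀') (by rw [hHp, hHp])
  set g : ℂ → ℂ := fun z => if hz : ∃ n, z ∈ hBall n then H (Nat.find hz) z else 0 with hg
  have hgeq : ∀ n, ∀ z ∈ hBall n, g z = H n z := fun n z hz => by
    have hex : ∃ n, z ∈ hBall n := ⟨n, hz⟩
    simp only [hg, dif_pos hex]
    exact hagree _ n (Nat.find_min' hex hz) (Nat.find_spec hex)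
  refine ⟨fun τ => g τ, ?_, ?_⟩
  · refine UpperHalfPlane.mdifferentiable_iff.mpr fun z hz => ?_
    obtain ⟨n, hn⟩ := exists_mem_hBall hz
    refine ((hHan n z hn).differentiableAt.congr_of_eventuallyEq ?_).differentiableWithinAt
    filter_upwards [isOpen_ball.mem_nhds hn] with w hw
    simp only [Function.comp_apply]
    rw [ofComplex_apply_of_im_pos (hBall_subset n hw)]
    exact hgeq n w hw
  · funext τ
    obtain ⟨n, hn⟩ := exists_mem_hBall τ.im_pos
    simp only [Pi.pow_apply]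
    rw [hgeq n _ hn, hHpow n _ hn, hfdef, Function.comp_apply, ofComplex_apply]

end Fermat.Agent.Mono
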