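import Fermat.Agent.Grp.Interface
import Fermat.Agent.Mono.Defs
import Fermat.Agent.Mono.PlaceExtend
import Fermat.Agent.Mono.Root
import Fermat.Agent.X0.Counts

/-!
# The monodromy character of a torsion divisor class

If `m • D` is the divisor of a function `x = A / B` on the curve of `Γ ⊇ Γ(W)`, the `m`-th root of
the form `A B^(m-1)` transforms under `Γ` by a character with values in `ZMod m`. It depends only
on the class of `D`, is additive, and kills elliptic and parabolic elements.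
-/

noncomputable section

namespace Fermat.Agent.Mono

open AlgebraicCurve ModularCurve CongruenceSubgroup
open UpperHalfPlane hiding I
open scoped MatrixGroups ModularForm Manifold Real

variable {Γ : Subgroup SL(2, ℤ)} {W : ℕ} {F : IntermediateField ℂ (LaurentSeries ℂ)}
  {m : ℕ} [NeZero m]

/-- Every `m`-th root of unity is a value of the standard character. -/
theorem exists_stdAddChar_eq {ζ : ℂ} (hζ : ζ ^ m = 1) : ∃ a : ZMod m, ZMod.stdAddChar a = ζ := by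
  obtain ⟨i, -, rfl⟩ := (Complex.isPrimitiveRoot_exp m (NeZero.ne m)).eq_pow_of_pow_eq_one hζ
  refine ⟨(i : ℤ), ?_⟩
  rw [ZMod.stdAddChar_coe, ← Complex.exp_nat_mul]
  congr 1
  push_cast
  ring

/-- A function is bounded at infinity as soon as one of its powers is. -/
theorem isBoundedAtImInfty_of_pow {f : ℍ → ℂ} {n : ℕ} (hn : n ≠ 0)
    (h : IsBoundedAtImInfty (f ^ n)) : IsBoundedAtImInfty f := by
  rw [isBoundedAtImInfty_iff] at h ⊢
  obtain ⟨M, A, hA⟩ := h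
  refine ⟨max M 1, A, fun τ hτ => ?_⟩
  by_contra hgt
  rw [not_le, max_lt_iff] at hgt
  have := hA τ hτ
  rw [Pi.pow_apply, norm_pow] at this
  have h1 : ‖f τ‖ ≤ ‖f τ‖ ^ n := le_self_pow₀ hgt.2.le hn
  linarith [hgt.1]

theorem smul_left_injective_fun {h : ℍ → ℂ} (hh : h ≠ 0) : Function.Injective fun c : ℂ => c • h :=
  fun _ _ e => smul_left_injective ℂ hh e

theorem smul_mul_smul_fun (a b : ℂ) (f g : ℍ → ℂ) : (a • f) * (b • g) = (a * b) • (f * g) := by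
  funext τ
  simp only [Pi.mul_apply, Pi.smul_apply, smul_eq_mul]
  ring

omit [NeZero m] in
/-- The form `A · B ^ (m-1)` is non-zero. -/
theorem radicand_ne_zero (hT : ModularGroup.T ∈ Γ) {x : F} {k : ℤ} {A B : ℍ → ℂ}
    (h : IsRepOn Γ (x : LaurentSeries ℂ) k A B) (hx : x ≠ 0) :
    A * B ^ (m - 1) ≠ 0 := fun e =>
  ((UpperHalfPlane.mul_eq_zero_iff h.num.mdiff (h.den.pow (m - 1)).mdiff).mp e).elim
    (h.num_ne hT hx) (pow_ne_zero_fun h.den_ne _)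

/-- An `m`-th root of `A · B ^ (m-1)` is non-zero. -/
theorem root_ne_zero (hT : ModularGroup.T ∈ Γ) {x : F} {k : ℤ} {A B h : ℍ → ℂ}
    (hr : IsRepOn Γ (x : LaurentSeries ℂ) k A B) (hx : x ≠ 0)
    (hh : h ^ m = A * B ^ (m - 1)) : h ≠ 0 := by
  rintro rfl
  exact radicand_ne_zero hT hr hx (by rw [← hh, zero_pow (NeZero.ne m)])

/-- A function whose divisor is a multiple of `m` has an `m`-th root with a character. -/
theorem exists_rootChar (hR : X0.RatioField Γ W F) (hP : PlaceDataOn Γ F) {D : Divisor ℂ F} {x : F}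
    (hx : x ≠ 0) (hD : ∀ v, (m : ℤ) * D v = v.ord x) :
    ∃ (φ : Additive Γ →+ ZMod m) (k : ℤ) (A B h : ℍ → ℂ),
      IsRepOn Γ (x : LaurentSeries ℂ) k A B ∧ MDiff h ∧ h ^ m = A * B ^ (m - 1) ∧
      ∀ γ : Γ, h ∣[k] (γ : SL(2, ℤ)) = ZMod.stdAddChar (φ (Additive.ofMul γ)) • h := by
  obtain ⟨k, A, B, hr⟩ := hR.exists_isRep x
  have hm : 1 ≤ m := Nat.one_le_iff_ne_zero.mpr (NeZero.ne m)
  have hC : MF.IsFormFn Γ ((m : ℤ) * k) (A * B ^ (m - 1)) :=
    (hr.num.mul (hr.den.pow (m - 1))).cast (by rw [Nat.cast_sub hm]; ring)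
  obtain ⟨h, hh, hpow⟩ := exists_root hC.mdiff (radicand_ne_zero hR.T_mem hr hx) (NeZero.ne m)
    fun τ => by
    obtain ⟨v, c, hc, hv⟩ := hP.exists_pt τ
    obtain ⟨a, ha⟩ := exists_hasPtOrd hr.num.mdiff (hr.num_ne hR.T_mem hx) τ
    obtain ⟨b, hb⟩ := exists_hasPtOrd hr.den.mdiff hr.den_ne τ
    have h1 := hv x k A B a b hr hx ha hb
    rw [← hD] at h1
    have hC' : HasPtOrd (A * B ^ (m - 1)) τ (a + (m - 1) * b) :=
      ha.mul hr.num.mdiff (hr.den.pow _).mdiff (hb.pow hr.den.mdiff (m - 1))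
    refine ⟨((c : ℤ) * D v + b).toNat, ?_⟩
    have h2 : ((a + (m - 1) * b : ℕ) : ℤ) = (m : ℤ) * ((c : ℤ) * D v + b) := by
      push_cast [Nat.cast_sub hm]
      linear_combination -h1
    have h3 : 0 ≤ (c : ℤ) * D v + b := by
      refine nonneg_of_mul_nonneg_right (a := (m : ℤ)) ?_ (by exact_mod_cast hm)
      rw [← h2]
      positivity
    refine hC'.trans ?_
    have h4 : a + (m - 1) * b = m * ((c : ℤ) * D v + b).toNat := by
      zify
      rw [Int.toNat_of_nonneg h3]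
      exact_mod_cast h2
    rw [h4]
  have hh0 := root_ne_zero hR.T_mem hr hx hpow
  have hchar : ∀ γ : Γ, ∃ a : ZMod m, h ∣[k] (γ : SL(2, ℤ)) = ZMod.stdAddChar a • h := by
    intro γ
    have h1 : (h ∣[k] (γ : SL(2, ℤ))) ^ m = h ^ m := by
      rw [← pow_slash_SL2, hpow, hC.slash_eq _ γ.2]
    obtain ⟨ζ, hζ, heq⟩ := exists_eq_smul_of_pow_eq (mdiff_slash hh k _) hh (NeZero.ne m) h1 hh0
    obtain ⟨a, ha⟩ := exists_stdAddChar_eq hζ
    exact ⟨a, by rw [ha, heq]⟩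
  choose a ha using hchar
  refine ⟨AddMonoidHom.mk' (fun g => a (Additive.toMul g)) fun g g' => ?_,
      k, A, B, h, hr, hh, hpow, ha⟩
  refine ZMod.injective_stdAddChar (smul_left_injective_fun hh0 ?_)
  show ZMod.stdAddChar (a (Additive.toMul g * Additive.toMul g')) • h = _
  rw [← ha, Subgroup.coe_mul, SlashAction.slash_mul, ha, ModularForm.SL_smul_slash, ha, smul_smul,
    ← AddChar.map_add_eq_mul]

/-- A torsion divisor has a monodromy character. -/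
theorem exists_isMonodromyOn_of_divisor (hR : X0.RatioField Γ W F) (hP : PlaceDataOn Γ F)
    {D : Divisor ℂ F} {x : F} (hx : x ≠ 0) (hD : ∀ v, (m : ℤ) * D v = v.ord x) :
    ∃ φ : Additive Γ →+ ZMod m, IsMonodromyOn Γ m D φ :=
  let ⟨φ, k, A, B, h, hr, hh, hpow, hc⟩ := exists_rootChar hR hP hx hD
  ⟨φ, k, A, B, h, x, hr, hx, hD, hh, hpow, hc⟩

/-- Monodromy characters are additive in the divisor. -/
theorem IsMonodromyOn.add {D D' : Divisor ℂ F} {φ φ' : Additive Γ →+ ZMod m}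
    (h : IsMonodromyOn Γ m D φ) (hR : X0.RatioField Γ W F) (h' : IsMonodromyOn Γ m D' φ') :
    IsMonodromyOn Γ m (D + D') (φ + φ') := by
  obtain ⟨k, A, B, r, x, hr, hx, hD, hd, hp, hc⟩ := h
  obtain ⟨l, P, Q, s, y, hs, hy, hD', hd', hp', hc'⟩ := h'
  refine ⟨k + l, A * P, B * Q, r * s, x * y, hr.mul hR.T_mem hs, mul_ne_zero hx hy, fun v => ?_,
    hd.mul hd', ?_, fun γ => ?_⟩
  · rw [Finsupp.add_apply, mul_add, hD, hD', v.ord_mul hx hy]
  · rw [mul_pow, hp, hp', mul_pow]; ring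
  · rw [ModularForm.mul_slash_SL2, hc, hc', AddMonoidHom.add_apply, AddChar.map_add_eq_mul,
      smul_mul_smul_fun]

/-- A principal divisor has trivial monodromy. -/
theorem isMonodromyOn_zero_of_principal (hR : X0.RatioField Γ W F) {D : Divisor ℂ F} {y : F}
    (hy : y ≠ 0) (hD : ∀ v, D v = v.ord y) : IsMonodromyOn Γ m D 0 := by
  obtain ⟨k, A, B, hr⟩ := hR.exists_isRep y
  have hm : 1 ≤ m := Nat.one_le_iff_ne_zero.mpr (NeZero.ne m)
  have hh : MF.IsFormFn Γ ((m : ℤ) * k) (A * B ^ (m - 1)) :=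
    (hr.num.mul (hr.den.pow (m - 1))).cast (by rw [Nat.cast_sub hm]; ring)
  refine ⟨(m : ℤ) * k, A ^ m, B ^ m, A * B ^ (m - 1), y ^ m, hr.pow hR.T_mem m, pow_ne_zero m hy,
    fun v => ?_, hh.mdiff, ?_, fun γ => ?_⟩
  · rw [hD, ← zpow_natCast, v.ord_zpow]
  · rw [mul_pow, ← pow_mul, ← pow_mul, mul_comm (m - 1)]
  · simp [hh.slash_eq _ γ.2]

variable [FF.IsFunctionField ℂ F]

/-- A divisor has at most one monodromy character. -/
theorem IsMonodromyOn.unique {D : Divisor ℂ F} {φ φ' : Additive Γ →+ ZMod m}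
    (h : IsMonodromyOn Γ m D φ) (hR : X0.RatioField Γ W F) (h' : IsMonodromyOn Γ m D φ') :
    φ = φ' := by
  obtain ⟨k, A, B, r, x, hr, hx, hD, hd, hp, hc⟩ := h
  obtain ⟨l, P, Q, s, y, hs, hy, hD', hd', hp', hc'⟩ := h'
  obtain ⟨c, hcc⟩ := mem_range_of_ord_eq_zero (K := ℂ) (f := y / x) fun v => by
    rw [ord_div v hy hx, ← hD, ← hD', sub_self]
  have hyx : (y : LaurentSeries ℂ) = HahnSeries.C c * (x : LaurentSeries ℂ) := by
    rw [eq_div_iff hx] at hcc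
    rw [← hcc, IntermediateField.coe_mul, ← MF.algebraMap_eq_C]
    rfl
  have hkey : P * B = c • (A * Q) := by
    rw [← MF.lq_inj ((hR.isQFn hs.num).mul (hR.isQFn hr.den))
        (((hR.isQFn hr.num).mul (hR.isQFn hs.den)).smul c),
      MF.lq_smul ((hR.isQFn hr.num).mul (hR.isQFn hs.den)),
      MF.lq_mul (hR.isQFn hs.num) (hR.isQFn hr.den),
      MF.lq_mul (hR.isQFn hr.num) (hR.isQFn hs.den), ← hr.eq, ← hs.eq, hyx]
    ring
  have hc0 : c ≠ 0 := by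
    rintro rfl
    exact div_ne_zero hy hx (by rw [← hcc, map_zero])
  set ρ : ℂ := c ^ (1 / m : ℂ) with hρ
  have hρm : ρ ^ m = c := by rw [hρ, one_div, Complex.cpow_nat_inv_pow _ (NeZero.ne m)]
  have hρ0 : ρ ≠ 0 := fun e => hc0 (by rw [← hρm, e, zero_pow (NeZero.ne m)])
  have hr0 := root_ne_zero hR.T_mem hr hx hp
  have hpow : (s * B) ^ m = (ρ • (r * Q)) ^ m := by
    funext τ
    have e1 := congrFun hp τ
    have e2 := congrFun hp' τ
    have e3 := congrFun hkey τ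
    simp only [Pi.pow_apply, Pi.mul_apply, Pi.smul_apply, smul_eq_mul, mul_pow] at e1 e2 e3 ⊢
    rw [e1, e2, hρm]
    have hb : ∀ z : ℂ, z ^ m = z ^ (m - 1) * z := fun z => by
      rw [← pow_succ, Nat.sub_add_cancel (Nat.one_le_iff_ne_zero.mpr (NeZero.ne m))]
    rw [hb (B τ), hb (Q τ)]
    linear_combination (Q τ ^ (m - 1) * B τ ^ (m - 1)) * e3
  have hne : ρ • (r * Q) ≠ 0 := smul_ne_zero hρ0 fun e =>
    ((UpperHalfPlane.mul_eq_zero_iff hd hs.den.mdiff).mp e).elim hr0 hs.den_ne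
  obtain ⟨ζ, hζ, heq⟩ := exists_eq_smul_of_pow_eq (hd'.mul hr.den.mdiff)
    ((hd.mul hs.den.mdiff).const_smul ρ) (NeZero.ne m) hpow hne
  refine AddMonoidHom.ext fun g => ZMod.injective_stdAddChar ?_
  have h1 : (s * B) ∣[l + k] ((Additive.toMul g : Γ) : SL(2, ℤ)) =
      ZMod.stdAddChar (φ' g) • (s * B) := by
    rw [ModularForm.mul_slash_SL2, hc', hr.den.slash_eq _ (Additive.toMul g).2, smul_mul_assoc]
    rfl
  have h2 : (s * B) ∣[l + k] ((Additive.toMul g : Γ) : SL(2, ℤ)) =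
      ZMod.stdAddChar (φ g) • (s * B) := by
    rw [heq, ModularForm.SL_smul_slash, ModularForm.SL_smul_slash, add_comm l k,
      ModularForm.mul_slash_SL2, hc, hs.den.slash_eq _ (Additive.toMul g).2, smul_mul_assoc,
      smul_comm (ZMod.stdAddChar (φ g)) ζ, smul_comm (ZMod.stdAddChar (φ g)) ρ]
    rfl
  have hsB : s * B ≠ 0 := fun e =>
    ((UpperHalfPlane.mul_eq_zero_iff hd' hr.den.mdiff).mp e).elim
      (root_ne_zero hR.T_mem hs hy hp') hr.den_ne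
  exact smul_left_injective_fun hsB (h2.symm.trans h1)

/-- `-1` acts in weight `k` by `(-1) ^ k`. -/
theorem neg_one_slash (f : ℍ → ℂ) (k : ℤ) : f ∣[k] (-1 : SL(2, ℤ)) = ((-1 : ℂ) ^ k) • f := by
  funext τ
  rw [ModularForm.SL_slash_apply, ModularGroup.SL_neg_smul, one_smul, Pi.smul_apply, smul_eq_mul,
    ModularGroup.denom_apply, zpow_neg, ← inv_zpow]
  simp [mul_comm]

/-- The standard elliptic elements fix a point. -/
theorem exists_fixed_point {e : SL(2, ℤ)}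
    (he : e = ModularGroup.S ∨ e = ModularGroup.S * ModularGroup.T ∨
      e = (ModularGroup.S * ModularGroup.T) ^ 2) : ∃ τ : ℍ, e • τ = τ := by
  rcases he with rfl | rfl | rfl
  · exact ⟨UpperHalfPlane.I, X0.S_smul_I⟩
  · exact ⟨X0.rhoPt, X0.ST_smul_rhoPt⟩
  · exact ⟨X0.rhoPt, by rw [sq, mul_smul, X0.ST_smul_rhoPt, X0.ST_smul_rhoPt]⟩

omit [FF.IsFunctionField ℂ ↥F] in
/-- A monodromy character is trivial on an element fixing a point of `ℍ`. -/
theorem stdAddChar_eq_one_of_fixed (hR : X0.RatioField Γ W F) (hP : PlaceDataOn Γ F)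
    {D : Divisor ℂ F}
    {φ : Additive Γ →+ ZMod m} {k : ℤ} {A B r : ℍ → ℂ} {x : F}
    (hr : IsRepOn Γ (x : LaurentSeries ℂ) k A B) (hx : x ≠ 0)
    (hD : ∀ v, (m : ℤ) * D v = v.ord x) (hd : MDiff r)
    (hp : r ^ m = A * B ^ (m - 1))
    (hc : ∀ γ : Γ, r ∣[k] (γ : SL(2, ℤ)) = ZMod.stdAddChar (φ (Additive.ofMul γ)) • r)
    (hr0 : r ≠ 0) {γ : Γ} {τ : ℍ} (hfix : (γ : SL(2, ℤ)) • τ = τ) :
    ZMod.stdAddChar (φ (Additive.ofMul γ)) = 1 := by
  have hm : 1 ≤ m := Nat.one_le_iff_ne_zero.mpr (NeZero.ne m)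
  have hm0 : (m : ℤ) ≠ 0 := by exact_mod_cast NeZero.ne m
  obtain ⟨v, c, hc0, hv⟩ := hP.exists_pt τ
  obtain ⟨u, hu0, hu⟩ := exists_ord_eq_one v
  obtain ⟨l, P, Q, hs⟩ := hR.exists_isRep u
  obtain ⟨a₁, ha₁⟩ := exists_hasPtOrd hs.num.mdiff (hs.num_ne hR.T_mem hu0) τ
  obtain ⟨b₁, hb₁⟩ := exists_hasPtOrd hs.den.mdiff hs.den_ne τ
  have hu' := hv u l P Q a₁ b₁ hs hu0 ha₁ hb₁
  rw [hu, mul_one] at hu'
  obtain ⟨a, ha⟩ := exists_hasPtOrd hr.num.mdiff (hr.num_ne hR.T_mem hx) τ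
  obtain ⟨b, hb⟩ := exists_hasPtOrd hr.den.mdiff hr.den_ne τ
  have hxv := hv x k A B a b hr hx ha hb
  rw [← hD] at hxv
  obtain ⟨a', ha'⟩ := exists_hasPtOrd hd hr0 τ
  have hm' : HasPtOrd (r ^ m) τ (a + (m - 1) * b) := by
    rw [hp]; exact ha.mul hr.num.mdiff (hr.den.pow _).mdiff (hb.pow hr.den.mdiff _)
  have hmeq : ((m * a' : ℕ) : ℤ) = ((a + (m - 1) * b : ℕ) : ℤ) :=
    congrArg _ ((ha'.pow hd m).unique hm')
  push_cast [Nat.cast_sub hm] at hmeq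
  set J := denom (γ : SL(2, ℤ)) (τ : ℂ) with hJ
  have hJ0 : J ≠ 0 := denom_ne_zero _ τ
  have f1 := ha₁.fixed hs.num.mdiff (χ := 1) (k := l)
    (by rw [one_smul]; exact hs.num.slash_eq _ γ.2) hfix
  have f2 := hb₁.fixed hs.den.mdiff (χ := 1) (k := l)
    (by rw [one_smul]; exact hs.den.slash_eq _ γ.2) hfix
  have f3 := ha'.fixed hd (hc γ) hfix
  have f4 := hb.fixed hr.den.mdiff (χ := 1) (k := k)
    (by rw [one_smul]; exact hr.den.slash_eq _ γ.2) hfix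
  rw [one_mul] at f1 f2 f4
  rw [← hJ] at f1 f2 f3 f4
  have hcJ : J ^ (2 * (c : ℤ)) = 1 := by
    rw [show 2 * (c : ℤ) = (l + 2 * a₁) - (l + 2 * b₁)
        by linarith, zpow_sub₀ hJ0, f1, f2, div_one]
  have ha'eq : (a' : ℤ) - b = (c : ℤ) * D v :=
    mul_left_cancel₀ hm0 (by linear_combination hmeq - hxv)
  have hJa : J ^ (k + 2 * (a' : ℤ)) = 1 := by
    rw [show k + 2 * (a' : ℤ) = (k + 2 * b) + 2 * (c : ℤ) * D v by linear_combination 2 * ha'eq,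
      zpow_add₀ hJ0, f4, zpow_mul, hcJ, one_zpow, one_mul]
  rw [hJa, mul_one] at f3
  exact f3

omit [FF.IsFunctionField ℂ ↥F] in
/-- A monodromy character is trivial on parabolic elements. -/
theorem stdAddChar_eq_one_of_parabolic [NeZero W] (hR : X0.RatioField Γ W F)
    (hP : PlaceDataOn Γ F) {D : Divisor ℂ F}
    {φ : Additive Γ →+ ZMod m} {k : ℤ} {A B r : ℍ → ℂ} {x : F}
    (hr : IsRepOn Γ (x : LaurentSeries ℂ) k A B) (hx : x ≠ 0)
    (hD : ∀ v, (m : ℤ) * D v = v.ord x) (hd : MDiff r)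
    (hp : r ^ m = A * B ^ (m - 1))
    (hc : ∀ γ : Γ, r ∣[k] (γ : SL(2, ℤ)) = ZMod.stdAddChar (φ (Additive.ofMul γ)) • r)
    (hr0 : r ≠ 0) {γ' : Γ} {g : SL(2, ℤ)} {n : ℤ}
    (hγ' : (γ' : SL(2, ℤ)) = g * ModularGroup.T ^ n * g⁻¹) :
    ZMod.stdAddChar (φ (Additive.ofMul γ')) = 1 := by
  have hm : 1 ≤ m := Nat.one_le_iff_ne_zero.mpr (NeZero.ne m)
  set χ := ZMod.stdAddChar (φ (Additive.ofMul γ')) with hχdef
  have hconj : g * ModularGroup.T ^ n = (γ' : SL(2, ℤ)) * g := by rw [hγ']; group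
  have htrans : ∀ (f : ℍ → ℂ) (l : ℤ) (ψ : ℂ), f ∣[l] (γ' : SL(2, ℤ)) = ψ • f →
      ∀ τ : ℍ, (f ∣[l] g) ((n : ℝ) +ᵥ τ) = ψ * (f ∣[l] g) τ := by
    intro f l ψ hf τ
    rw [← slash_apply_T_zpow (f ∣[l] g) l n, ← SlashAction.slash_mul, hconj,
      SlashAction.slash_mul, hf, ModularForm.SL_smul_slash]
    rfl
  obtain ⟨v, w, hw, hv⟩ := hP.exists_cusp g
  obtain ⟨u, hu0, hu⟩ := exists_ord_eq_one v
  obtain ⟨l, P, Q, hs⟩ := hR.exists_isRep u
  obtain ⟨r₁, hr₁⟩ := hR.exists_hasExpOrd_slash hs.num (hs.num_ne hR.T_mem hu0) g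
  obtain ⟨s₁, hs₁⟩ := hR.exists_hasExpOrd_slash hs.den hs.den_ne g
  have hu' := hv u l P Q r₁ s₁ hs hu0 hr₁ hs₁
  rw [hu] at hu'
  have e1 := hr₁.translate (htrans P l 1 (by rw [one_smul]; exact hs.num.slash_eq _ γ'.2))
  have e2 := hs₁.translate (htrans Q l 1 (by rw [one_smul]; exact hs.den.slash_eq _ γ'.2))
  obtain ⟨rA, hrA⟩ := hR.exists_hasExpOrd_slash hr.num (hr.num_ne hR.T_mem hx) g
  obtain ⟨sB, hsB⟩ := hR.exists_hasExpOrd_slash hr.den hr.den_ne g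
  have hxv := hv x k A B rA sB hr hx hrA hsB
  rw [← hD] at hxv
  have hrm : HasExpOrd ((r ∣[k] g) ^ m) (rA + ((m - 1 : ℕ) : ℚ) * sB) := by
    have e := hrA.mul (hsB.pow (m - 1))
    rwa [← pow_slash_SL2, hp,
      show (m : ℤ) * k = k + ((m - 1 : ℕ) : ℤ) * k by rw [Nat.cast_sub hm]; ring,
      ModularForm.mul_slash_SL2, pow_slash_SL2]
  have hper : Function.Periodic ((r ∣[k] g) ∘ ofComplex) (((m * W : ℕ) : ℝ) : ℂ) := by
    refine X0.T_zpow_apply_periodic (k := k) (m * W) ?_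
    rw [← SlashAction.slash_mul,
      show g * ModularGroup.T ^ ((m * W : ℕ) : ℤ) =
          (g * ModularGroup.T ^ (W : ℤ) * g⁻¹) ^ m * g by
        rw [conj_pow, ← zpow_natCast (ModularGroup.T ^ (W : ℤ)), ← zpow_mul, mul_comm m W]
        push_cast
        group,
      SlashAction.slash_mul]
    have hmem := X0.conj_T_zpow_mem hR.gamma_le g
    have hpw := hc ((⟨_, hmem⟩ : Γ) ^ m)
    rw [ofMul_pow, map_nsmul, nsmul_eq_mul, ZMod.natCast_self, zero_mul,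
      AddChar.map_zero_eq_one, one_smul] at hpw
    rw [show (g * ModularGroup.T ^ (W : ℤ) * g⁻¹) ^ m =
      (((⟨_, hmem⟩ : Γ) ^ m : Γ) : SL(2, ℤ)) from rfl, hpw]
  obtain ⟨b, hb⟩ := exists_hasExpOrd (Nat.mul_pos hm (Nat.pos_of_ne_zero (NeZero.ne W))) hper
    (mdiff_slash hd k g) (by
      refine isBoundedAtImInfty_of_pow (NeZero.ne m) ?_
      rw [← pow_slash_SL2, hp]
      exact ((hr.num.mul (hr.den.pow (m - 1))).cast
        (by rw [Nat.cast_sub hm]; ring)).bdd g)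
    (slash_ne_zero hr0 k g)
  have hb2 := hrm.unique (hb.pow m)
  have e3 := hb.translate (htrans r k χ (hc γ'))
  have e4 := hsB.translate (htrans B k 1 (by rw [one_smul]; exact hr.den.slash_eq _ γ'.2))
  set β : ℚ := (b : ℚ) / (m * W : ℕ) with hβ
  obtain ⟨a₁, ha₁⟩ := Complex.exp_eq_one_iff.mp e1.symm
  obtain ⟨a₂, ha₂⟩ := Complex.exp_eq_one_iff.mp e2.symm
  obtain ⟨a₄, ha₄⟩ := Complex.exp_eq_one_iff.mp e4.symm
  have hpi : (2 * (π : ℂ) * Complex.I) ≠ 0 := by simp [Real.pi_ne_zero]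
  have q1 : (r₁ : ℂ) * n = a₁ := mul_left_cancel₀ hpi (by linear_combination ha₁)
  have q2 : (s₁ : ℂ) * n = a₂ := mul_left_cancel₀ hpi (by linear_combination ha₂)
  have q4 : (sB : ℂ) * n = a₄ := mul_left_cancel₀ hpi (by linear_combination ha₄)
  have hu'' : (1 : ℂ) = (w : ℂ) * ((r₁ : ℂ) - s₁) := by
      exact_mod_cast congrArg (fun q : ℚ => (q : ℂ)) hu'
  have hxv' : (m : ℂ) * (D v : ℂ) = (w : ℂ) * ((rA : ℂ) - sB) := by
    exact_mod_cast congrArg (fun q : ℚ => (q : ℂ)) hxv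
  have hb2' : (rA : ℂ) + ((m : ℂ) - 1) * (sB : ℂ) = (m : ℂ) * (β : ℂ) := by
    have := congrArg (fun q : ℚ => (q : ℂ)) hb2
    push_cast [Nat.cast_sub hm] at this
    exact this
  rw [e3, Complex.exp_eq_one_iff]
  refine ⟨a₄ + D v * (a₁ - a₂), ?_⟩
  have hw0 : (w : ℂ) ≠ 0 := by exact_mod_cast hw.ne'
  have hmC : (m : ℂ) ≠ 0 := by exact_mod_cast NeZero.ne m
  have key : (β : ℂ) * n = a₄ + (D v : ℂ) * (a₁ - a₂) := by
    rw [← q4, ← q1, ← q2]
    refine mul_left_cancel₀ (mul_ne_zero hmC hw0) ?_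
    linear_combination (-(w : ℂ) * n) * hb2' + (-(n : ℂ)) * hxv' + ((n : ℂ) * m *
        (D v : ℂ)) * hu''
  push_cast
  linear_combination (2 * (π : ℂ) * Complex.I) * key

omit [FF.IsFunctionField ℂ ↥F] in
/-- A monodromy character kills elliptic and parabolic elements. -/
theorem IsMonodromyOn.isClHom [NeZero W] {D : Divisor ℂ F} {φ : Additive Γ →+ ZMod m}
    (h : IsMonodromyOn Γ m D φ) (hR : X0.RatioField Γ W F) (hneg1 : (-1 : SL(2, ℤ)) ∈ Γ)
    (hP : PlaceDataOn Γ F) :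
    Grp.IsClHom Γ φ := by
  obtain ⟨k, A, B, r, x, hr, hx, hD, hd, hp, hc⟩ := h
  have hr0 := root_ne_zero hR.T_mem hr hx hp
  have hm : 1 ≤ m := Nat.one_le_iff_ne_zero.mpr (NeZero.ne m)
  have hneg : ∀ g : Γ, (g : SL(2, ℤ)) = -1 → φ (Additive.ofMul g) = 0 := by
    intro g hg
    refine ZMod.injective_stdAddChar (smul_left_injective_fun hr0 ?_)
    have hB := hr.den.slash_eq _ g.2
    rw [hg, neg_one_slash] at hB
    have : ((-1 : ℂ) ^ k) = 1 :=
      smul_left_injective_fun hr.den_ne (hB.trans (one_smul ℂ B).symm)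
    show ZMod.stdAddChar (φ (Additive.ofMul g)) • r = ZMod.stdAddChar (0 : ZMod m) • r
    rw [← hc, hg, neg_one_slash, this, AddChar.map_zero_eq_one]
  intro γ hγ
  obtain ⟨g, e, hge, he⟩ := Grp.exists_conj_of_abs_tr_le_two (γ : SL(2, ℤ)) hγ
  obtain ⟨γ', hγ', hval⟩ : ∃ γ' : Γ,
      (γ' : SL(2, ℤ)) = g * e * g⁻¹ ∧ φ (Additive.ofMul γ) = φ (Additive.ofMul γ') := by
    rcases hge with hge | hge
    · exact ⟨γ, hge, rfl⟩
    · refine ⟨⟨-1, hneg1⟩ * γ, ?_, ?_⟩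
      · show (-1 : SL(2, ℤ)) * (γ : SL(2, ℤ)) = _
        rw [hge, neg_one_mul, neg_neg]
      · rw [ofMul_mul, map_add, hneg ⟨-1, hneg1⟩ rfl, zero_add]
  rw [hval]
  refine ZMod.injective_stdAddChar ?_
  rw [AddChar.map_zero_eq_one]
  rcases he with ⟨n, rfl⟩ | he
  · exact stdAddChar_eq_one_of_parabolic hR hP hr hx hD hd hp hc hr0 hγ'
  · -- elliptic
    obtain ⟨τ₀, hτ₀⟩ := exists_fixed_point he
    exact stdAddChar_eq_one_of_fixed hR hP hr hx hD hd hp hc hr0 (τ := g • τ₀)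
      (by rw [hγ', mul_smul, mul_smul, inv_smul_smul, hτ₀])

end Fermat.Agent.Mono
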