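import Mathlib

/-!
# Orders of holomorphic functions on the upper half plane

Orders at points of `ℍ` and exponential orders at `i∞`, their additivity, and the constraints
automorphy puts on them at fixed points and under translations. Used to compute divisors of ratios
of forms and the values of monodromy characters.
-/

noncomputable section

open UpperHalfPlane hiding I
open Complex Filter Function
open scoped Topology Manifold MatrixGroups ModularForm Real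

namespace Fermat.Agent.Mono

/-! ### Orders at points -/

/-- `f` has order exactly `a` at `τ`. -/
def HasPtOrd (f : ℍ → ℂ) (τ : ℍ) (a : ℕ) : Prop :=
  analyticOrderAt (f ∘ ofComplex) (τ : ℂ) = (a : ℕ∞)

theorem analyticAt_coe {f : ℍ → ℂ} (hf : MDiff f) (τ : ℍ) : AnalyticAt ℂ (f ∘ ofComplex) (τ : ℂ) :=
  ((UpperHalfPlane.mdifferentiable_iff.mp hf).analyticOnNhd
    (isOpen_lt continuous_const Complex.continuous_im)) _ τ.im_pos

theorem exists_hasPtOrd {f : ℍ → ℂ} (hf : MDiff f) (hf0 : f ≠ 0) (τ : ℍ) :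
    ∃ a, HasPtOrd f τ a := by
  have hne : analyticOrderAt (f ∘ ofComplex) (τ : ℂ) ≠ ⊤ := by
    intro h
    rw [analyticOrderAt_eq_top] at h
    refine hf0 (funext fun σ => ?_)
    have := ((UpperHalfPlane.mdifferentiable_iff.mp hf).analyticOnNhd
      (isOpen_lt continuous_const
          Complex.continuous_im)).eqOn_zero_of_preconnected_of_eventuallyEq_zero
      (convex_halfSpace_im_gt 0).isPreconnected τ.im_pos h σ.im_pos
    simpa using this
  obtain ⟨a, ha⟩ := ENat.ne_top_iff_exists.mp hne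
  exact ⟨a, ha.symm⟩

theorem HasPtOrd.unique {f : ℍ → ℂ} {τ : ℍ} {a b : ℕ} (h : HasPtOrd f τ a) (h' : HasPtOrd f τ b) :
    a = b := by
  have := h.symm.trans h'
  exact_mod_cast this

theorem HasPtOrd.mul {f g : ℍ → ℂ} (hf : MDiff f) (hg : MDiff g) {τ : ℍ} {a b : ℕ}
    (h : HasPtOrd f τ a) (h' : HasPtOrd g τ b) : HasPtOrd (f * g) τ (a + b) := by
  show analyticOrderAt ((f ∘ ofComplex) * (g ∘ ofComplex)) (τ : ℂ) = _
  rw [analyticOrderAt_mul (analyticAt_coe hf τ) (analyticAt_coe hg τ), h, h']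
  push_cast
  rfl

theorem HasPtOrd.pow {f : ℍ → ℂ} (hf : MDiff f) {τ : ℍ} {a : ℕ} (h : HasPtOrd f τ a) (n : ℕ) :
    HasPtOrd (f ^ n) τ (n * a) := by
  show analyticOrderAt ((f ∘ ofComplex) ^ n) (τ : ℂ) = _
  rw [analyticOrderAt_pow (analyticAt_coe hf τ), h, nsmul_eq_mul]
  push_cast
  rfl

/-- Automorphy at a fixed point: `χ · j(γ,τ)^(k + 2a) = 1`. -/
theorem HasPtOrd.fixed {f : ℍ → ℂ} {k : ℤ} {γ : SL(2, ℤ)} {τ : ℍ} {χ : ℂ} {a : ℕ}
    (hf : MDiff f) (hχ : f ∣[k] γ = χ • f) (hfix : γ • τ = τ) (ha : HasPtOrd f τ a) :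
    χ * (denom γ (τ : ℂ)) ^ (k + 2 * a) = 1 := by
  obtain ⟨g, hg, hg0, heq⟩ := ((analyticAt_coe hf τ).analyticOrderAt_eq_natCast).mp ha
  set j : ℂ → ℂ := fun z => (γ 1 0 : ℤ) * z + (γ 1 1 : ℤ) with hj
  set p : ℂ → ℂ := fun z => ((γ 0 0 : ℤ) * z + (γ 0 1 : ℤ)) / j z with hp
  have hden : ∀ z : ℍ, denom γ (z : ℂ) = j z := fun z => by rw [ModularGroup.denom_apply]
  have hj0 : ∀ z : ℍ, j z ≠ 0 := fun z => hden z ▸ denom_ne_zero _ z
  have hsmul : ∀ z : ℍ, ((γ • z : ℍ) : ℂ) = p z := fun z => by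
    rw [UpperHalfPlane.coe_specialLinearGroup_apply]
    simp [hp, hj]
  have hpτ : p τ = τ := by rw [← hsmul, hfix]
  have hdet : (γ 0 0 : ℂ) * (γ 1 1 : ℤ) - (γ 0 1 : ℤ) * (γ 1 0 : ℤ) = 1 := by
    have := Matrix.SpecialLinearGroup.det_coe γ
    rw [Matrix.det_fin_two] at this
    exact_mod_cast this
  have hdiff : ∀ z : ℂ, j z ≠ 0 → p z - τ = (z - τ) / (j z * j τ) := by
    intro z hz
    conv_lhs => rw [← hpτ]
    simp only [hp]
    rw [div_sub_div _ _ hz (hj0 τ), div_eq_div_iff (mul_ne_zero hz (hj0 τ))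
      (mul_ne_zero hz (hj0 τ))]
    simp only [hj]
    linear_combination ((z - τ) * (((γ 1 0 : ℤ) : ℂ) * z + (γ 1 1 : ℤ)) *
      (((γ 1 0 : ℤ) : ℂ) * τ + (γ 1 1 : ℤ))) * hdet
  have hjc : ContinuousAt j (τ : ℂ) := by fun_prop
  have hpc : ContinuousAt p (τ : ℂ) := by
    refine ContinuousAt.div ?_ hjc (hj0 τ)
    fun_prop
  have hev : ∀ᶠ z in 𝓝[≠] (τ : ℂ),
      g (p z) = χ * j z ^ k * (j z * j τ) ^ a * g z := by
    have h1 : ∀ᶠ z in 𝓝 (τ : ℂ), (f ∘ ofComplex) z = (z - τ) ^ a • g z := heq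
    have h2 : ∀ᶠ z in 𝓝 (τ : ℂ), (f ∘ ofComplex) (p z) = (p z - τ) ^ a • g (p z) := by
      have := hpc.eventually (p := fun w => (f ∘ ofComplex) w = (w - (τ : ℂ)) ^ a • g w)
        (by rw [hpτ]; exact h1)
      exact this
    have h3 : ∀ᶠ z in 𝓝 (τ : ℂ), 0 < z.im :=
      (isOpen_lt continuous_const Complex.continuous_im).mem_nhds τ.im_pos
    rw [eventually_nhdsWithin_iff]
    filter_upwards [h1, h2, h3] with z hz1 hz2 hz3 hzne
    have hzne' : z - (τ : ℂ) ≠ 0 := sub_ne_zero.mpr hzne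
    have hzj : j z ≠ 0 := hj0 ⟨z, hz3⟩
    have hauto : (f ∘ ofComplex) (p z) = χ * j z ^ k * (f ∘ ofComplex) z := by
      have h := congrFun hχ ⟨z, hz3⟩
      rw [ModularForm.SL_slash_apply, Pi.smul_apply, smul_eq_mul, hden] at h
      simp only [comp_apply, ofComplex_apply_of_im_pos hz3]
      have him : 0 < (p z).im := by
        rw [← hsmul ⟨z, hz3⟩]
        exact (γ • (⟨z, hz3⟩ : ℍ)).im_pos
      rw [ofComplex_apply_of_im_pos him,
        show (⟨p z, him⟩ : ℍ) = γ • ⟨z, hz3⟩ from UpperHalfPlane.ext (hsmul ⟨z, hz3⟩).symm]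
      calc f (γ • ⟨z, hz3⟩) = f (γ • ⟨z, hz3⟩) * j z ^ (-k) * j z ^ k := by
            rw [mul_assoc, ← zpow_add₀ hzj, neg_add_cancel, zpow_zero, mul_one]
        _ = _ := by rw [h]; ring
    rw [hz1, hz2, hdiff z hzj, smul_eq_mul, smul_eq_mul, div_pow] at hauto
    have hA : (z - (τ : ℂ)) ^ a ≠ 0 := pow_ne_zero _ hzne'
    have hB : (j z * j τ) ^ a ≠ 0 := pow_ne_zero _ (mul_ne_zero hzj (hj0 τ))
    field_simp at hauto
    linear_combination hauto
  have hlim1 : Tendsto (fun z => g (p z)) (𝓝[≠] (τ : ℂ)) (𝓝 (g τ)) := by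
    have := (ContinuousAt.comp (g := g) (by rw [hpτ]; exact hg.continuousAt) hpc).tendsto
    rw [comp_apply, hpτ] at this
    exact this.mono_left nhdsWithin_le_nhds
  have hlim2 : Tendsto (fun z => χ * j z ^ k * (j z * j τ) ^ a * g z) (𝓝[≠] (τ : ℂ))
      (𝓝 (χ * j τ ^ k * (j τ * j τ) ^ a * g τ)) :=
    ((((continuousAt_const.mul (hjc.zpow₀ k (Or.inl (hj0 τ)))).mul
      ((hjc.mul continuousAt_const).pow a)).mul hg.continuousAt).tendsto).mono_left
      nhdsWithin_le_nhds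
  have key := tendsto_nhds_unique hlim1 (hlim2.congr' (hev.mono fun z hz => hz.symm))
  have key' : χ * j τ ^ k * (j τ * j τ) ^ a = 1 :=
    mul_right_cancel₀ hg0 (by rw [one_mul]; exact key.symm)
  rw [hden, zpow_add₀ (hj0 τ), ← key', mul_assoc]
  congr 2
  rw [show (2 * (a : ℤ)) = ((2 * a : ℕ) : ℤ) by push_cast; ring, zpow_natCast, pow_mul, sq]

/-! ### Exponential orders at `i∞` -/

/-- `exp (2πi r τ)`. -/
def expRate (r : ℚ) (τ : ℍ) : ℂ := Complex.exp (2 * π * I * (r : ℂ) * τ)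

/-- `f` behaves like `c · exp (2πi r τ)`, `c ≠ 0`, at `i∞`. -/
def HasExpOrd (f : ℍ → ℂ) (r : ℚ) : Prop :=
  ∃ L : ℂ, L ≠ 0 ∧ Tendsto (fun τ => f τ / expRate r τ) atImInfty (𝓝 L)

theorem expRate_add (r s : ℚ) (τ : ℍ) : expRate (r + s) τ = expRate r τ * expRate s τ := by
  rw [expRate, expRate, expRate, ← Complex.exp_add]
  push_cast
  ring_nf

theorem expRate_ne_zero (r : ℚ) (τ : ℍ) : expRate r τ ≠ 0 := Complex.exp_ne_zero _

theorem HasExpOrd.mul {f g : ℍ → ℂ} {r s : ℚ} (hf : HasExpOrd f r) (hg : HasExpOrd g s) :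
    HasExpOrd (f * g) (r + s) := by
  obtain ⟨L, hL, h⟩ := hf
  obtain ⟨M, hM, h'⟩ := hg
  refine ⟨L * M, mul_ne_zero hL hM, (h.mul h').congr fun τ => ?_⟩
  rw [expRate_add, Pi.mul_apply, div_mul_div_comm]

theorem HasExpOrd.one : HasExpOrd 1 0 :=
  ⟨1, one_ne_zero, by simp [expRate]⟩

theorem HasExpOrd.pow {f : ℍ → ℂ} {r : ℚ} (hf : HasExpOrd f r) (n : ℕ) :
    HasExpOrd (f ^ n) (n * r) := by
  induction n with
  | zero => simpa using HasExpOrd.one
  | succ n ih =>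
    rw [pow_succ, show ((n + 1 : ℕ) : ℚ) * r = (n : ℚ) * r + r by push_cast; ring]
    exact ih.mul hf

theorem tendsto_expRate_zero {r : ℚ} (hr : 0 < r) : Tendsto (expRate r) atImInfty (𝓝 0) := by
  have h : expRate r = fun τ : ℍ => Periodic.qParam ((r : ℝ)⁻¹) τ := by
    funext τ
    rw [expRate, Periodic.qParam]
    congr 1
    push_cast
    rw [div_inv_eq_mul]
    ring
  rw [h]
  exact qParam_tendsto_atImInfty (inv_pos.mpr (by exact_mod_cast hr))

theorem HasExpOrd.unique {f : ℍ → ℂ} {r s : ℚ} (h : HasExpOrd f r) (h' : HasExpOrd f s) :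
    r = s := by
  suffices key : ∀ {r s : ℚ}, HasExpOrd f r → HasExpOrd f s → ¬ r < s from
    le_antisymm (not_lt.mp (key h' h)) (not_lt.mp (key h h'))
  rintro r s ⟨L, hL, h⟩ ⟨M, -, h'⟩ hlt
  have h0 := h'.mul (tendsto_expRate_zero (sub_pos.mpr hlt))
  rw [mul_zero] at h0
  refine hL (tendsto_nhds_unique h (h0.congr fun τ => ?_))
  rw [show s = r + (s - r) by ring, expRate_add, show r + (s - r) - r = s - r by ring]
  field_simp [expRate_ne_zero]

/-- A periodic holomorphic non-zero function bounded at `i∞` has an order there. -/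
theorem hasExpOrd_of_analyticOrderAt {f : ℍ → ℂ} {M : ℕ} (hM : 0 < M)
    (hper : Periodic (f ∘ ofComplex) ((M : ℝ) : ℂ)) (hmd : MDiff f) (hbd : IsBoundedAtImInfty f)
    {a : ℕ} (ha : analyticOrderAt (cuspFunction (M : ℝ) f) 0 = (a : ℕ∞)) :
    HasExpOrd f ((a : ℚ) / M) := by
  have hMr : (0 : ℝ) < M := by exact_mod_cast hM
  set F := cuspFunction (M : ℝ) f with hF
  have hFan := analyticAt_cuspFunction_zero hMr hper hmd hbd
  obtain ⟨G, hG, hG0, heq⟩ := (hFan.analyticOrderAt_eq_natCast).mp ha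
  refine ⟨G 0, hG0, ?_⟩
  have ht := qParam_tendsto_atImInfty hMr
  refine ((hG.continuousAt.tendsto.comp ht).congr' ?_)
  filter_upwards [ht.eventually heq] with τ hτ
  have hf : f τ = (Periodic.qParam M τ) ^ a * G (Periodic.qParam M τ) := by
    rw [← eq_cuspFunction τ hMr.ne' hper, hτ, sub_zero, smul_eq_mul]
  have hq : expRate ((a : ℚ) / M) τ = (Periodic.qParam M τ) ^ a := by
    rw [expRate, Periodic.qParam, ← Complex.exp_nat_mul]
    congr 1
    push_cast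
    ring
  simp only [comp_apply]
  rw [hf, hq, mul_div_cancel_left₀ _ (pow_ne_zero _ (Periodic.qParam_ne_zero _))]

theorem exists_hasExpOrd {f : ℍ → ℂ} {M : ℕ} (hM : 0 < M)
    (hper : Periodic (f ∘ ofComplex) ((M : ℝ) : ℂ)) (hmd : MDiff f) (hbd : IsBoundedAtImInfty f)
    (hf0 : f ≠ 0) : ∃ a : ℕ, HasExpOrd f ((a : ℚ) / M) := by
  have hMr : (0 : ℝ) < M := by exact_mod_cast hM
  have hne : analyticOrderAt (cuspFunction (M : ℝ) f) 0 ≠ ⊤ := by
    intro htop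
    refine hf0 ((qExpansion_eq_zero_iff hMr hper hmd hbd).mp ?_)
    rw [analyticOrderAt_eq_top] at htop
    ext n
    rw [qExpansion_coeff, Filter.EventuallyEq.iteratedDeriv_eq n htop]
    simp
  obtain ⟨a, ha⟩ := ENat.ne_top_iff_exists.mp hne
  exact ⟨a, hasExpOrd_of_analyticOrderAt hM hper hmd hbd ha.symm⟩

theorem atImInfty_neBot : (atImInfty : Filter ℍ).NeBot := by
  rw [atImInfty, Filter.comap_neBot_iff]
  intro t ht
  obtain ⟨A, hA⟩ := Filter.mem_atTop_sets.mp ht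
  exact ⟨⟨⟨0, max A 1⟩, lt_max_of_lt_right one_pos⟩, hA _ (le_max_left _ _)⟩

/-- Translation: `f (τ + n) = χ f τ` forces `χ = exp (2πi r n)`. -/
theorem HasExpOrd.translate {f : ℍ → ℂ} {r : ℚ} {n : ℤ} {χ : ℂ} (h : HasExpOrd f r)
    (hχ : ∀ τ : ℍ, f ((n : ℝ) +ᵥ τ) = χ * f τ) :
    χ = Complex.exp (2 * π * I * (r : ℂ) * n) := by
  obtain ⟨L, hL, h⟩ := h
  have htr : Tendsto (fun τ : ℍ => (n : ℝ) +ᵥ τ) atImInfty atImInfty := by
    rw [atImInfty, tendsto_comap_iff]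
    exact tendsto_comap.congr fun τ => (vadd_im _ τ).symm
  have h' := h.comp htr
  have heq : ∀ τ : ℍ, f ((n : ℝ) +ᵥ τ) / expRate r ((n : ℝ) +ᵥ τ)
      = χ / Complex.exp (2 * π * I * (r : ℂ) * n) * (f τ / expRate r τ) := fun τ => by
    rw [hχ, div_mul_div_comm]
    congr 1
    rw [expRate, expRate, ← Complex.exp_add, coe_vadd]
    congr 1
    push_cast
    ring
  have h'' := (h.const_mul (χ / Complex.exp (2 * π * I * (r : ℂ) * n))).congr fun τ => (heq τ).symm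
  have := tendsto_nhds_unique h' h''
  exact (div_eq_one_iff_eq (Complex.exp_ne_zero _)).mp (mul_right_cancel₀ hL
      (by rw [one_mul]; exact this.symm))

/-! ### Slash algebra -/

theorem pow_slash_SL2 (h : ℍ → ℂ) (k : ℤ) (γ : SL(2, ℤ)) (n : ℕ) :
    (h ^ n) ∣[(n : ℤ) * k] γ = (h ∣[k] γ) ^ n := by
  funext τ
  rw [Pi.pow_apply, ModularForm.SL_slash_apply, ModularForm.SL_slash_apply, Pi.pow_apply, mul_pow]
  congr 1
  rw [← zpow_natCast, ← zpow_mul]
  congr 1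
  ring

theorem slash_apply_T_zpow (f : ℍ → ℂ) (k n : ℤ) (τ : ℍ) :
    (f ∣[k] (ModularGroup.T ^ n)) τ = f ((n : ℝ) +ᵥ τ) := by
  have hd : denom ((ModularGroup.T ^ n : SL(2, ℤ)) : GL (Fin 2) ℝ) (τ : ℂ) = 1 := by
    rw [ModularGroup.denom_apply, ModularGroup.coe_T_zpow]
    simp
  rw [ModularForm.SL_slash_apply, hd, one_zpow, mul_one, modular_T_zpow_smul]

theorem mdiff_slash {f : ℍ → ℂ} (hf : MDiff f) (k : ℤ) (γ : SL(2, ℤ)) : MDiff (f ∣[k] γ) := by
  rw [ModularForm.SL_slash]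
  exact hf.slash _ _

theorem slash_ne_zero {f : ℍ → ℂ} (hf : f ≠ 0) (k : ℤ) (γ : SL(2, ℤ)) : f ∣[k] γ ≠ 0 :=
  (SlashAction.slash_eq_zero_iff k γ f).not.mpr hf

end Fermat.Agent.Mono
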