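import Fermat.Agent.Mono.Defs
import Fermat.Agent.X0.CuspCount

/-!
# Places of points and cusps

Each point of `ℍ` and each cusp gives a place of the function field of the curve of `Γ ⊇ Γ(W)`,
whose order function is read off from the orders of numerator and denominator of a ratio of forms.
-/

noncomputable section

namespace Fermat.Agent.Mono

open AlgebraicCurve CongruenceSubgroup Function
open UpperHalfPlane hiding I
open scoped MatrixGroups ModularForm Manifold Topology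

variable {N : ℕ} [NeZero N]

theorem order_ofPowerSeries {p : PowerSeries ℂ} {n : ℕ} (h : p.order = (n : ℕ∞)) :
    (HahnSeries.ofPowerSeries ℤ ℂ p).order = (n : ℤ) := by
  refine X0.laurent_order_eq ?_ fun j hj => ?_
  · rw [HahnSeries.ofPowerSeries_apply_coeff]
    exact (PowerSeries.order_eq_nat.mp h).1
  · rcases lt_or_ge j 0 with h' | h'
    · exact ModularCurve.ofPowerSeries_coeff_of_neg _ h'
    · obtain ⟨i, rfl⟩ := Int.eq_ofNat_of_zero_le h'
      rw [HahnSeries.ofPowerSeries_apply_coeff]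
      exact (PowerSeries.order_eq_nat.mp h).2 i (by exact_mod_cast hj)

omit [NeZero N] in
theorem order_ls_point (τ : ℍ) (F : X0.wideAlgebra N) {a : ℕ} (h : HasPtOrd (F : ℍ → ℂ) τ a) :
    ((X0.pointExpansion N τ).ls F).order = (a : ℤ) :=
  order_ofPowerSeries ((X0.order_pointExp N τ F).trans h)

theorem hasExpOrd_ls_cusp (F : X0.wideAlgebra N) (hF : (F : ℍ → ℂ) ≠ 0) :
    HasExpOrd (F : ℍ → ℂ) ((((X0.cuspExpansion N).ls F).order : ℚ) / N) := by
  have hN : 0 < N := Nat.pos_of_ne_zero (NeZero.ne N)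
  have hne : X0.cuspExp N F ≠ 0 := (map_ne_zero_iff _ (X0.cuspExp_injective N)).mpr
    fun h => hF (congrArg Subtype.val h)
  obtain ⟨n, hn⟩ := ENat.ne_top_iff_exists.mp (PowerSeries.order_eq_top.not.mpr hne)
  have ho : ((X0.cuspExpansion N).ls F).order = (n : ℤ) := order_ofPowerSeries hn.symm
  rw [ho, Int.cast_natCast]
  refine hasExpOrd_of_analyticOrderAt hN F.2.periodic F.2.mdiff F.2.bdd ?_
  rw [hn, ← X0.order_taylorPS (analyticAt_cuspFunction_zero (by exact_mod_cast hN) F.2.periodic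
    F.2.mdiff F.2.bdd)]
  rfl

theorem order_ls_cusp (F : X0.wideAlgebra N) {r : ℚ} (h : HasExpOrd (F : ℍ → ℂ) r)
    (hF : (F : ℍ → ℂ) ≠ 0) : (((X0.cuspExpansion N).ls F).order : ℚ) = N * r := by
  have hN : (N : ℚ) ≠ 0 := by exact_mod_cast NeZero.ne N
  rw [h.unique (hasExpOrd_ls_cusp F hF), mul_div_cancel₀ _ hN]

theorem hasPtOrd_deltaFn (τ : ℍ) : HasPtOrd MF.deltaFn τ 0 := by
  show analyticOrderAt _ _ = ((0 : ℕ) : ℕ∞)
  rw [Nat.cast_zero, (analyticAt_coe MF.isFormFn_delta.mdiff τ).analyticOrderAt_eq_zero]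
  simpa using MF.deltaFn_ne_zero τ

theorem hasPtOrd_num_jC_sub (τ : ℍ) :
    HasPtOrd (MF.E4fn ^ 3 - X0.jFun τ • MF.deltaFn) τ (X0.ellOrder τ) := by
  have hd : MDiff (fun z => X0.jFun z - X0.jFun τ) := X0.mdiff_jFun.sub mdifferentiable_const
  obtain ⟨a, ha⟩ := exists_hasPtOrd hd (fun h => by
    obtain ⟨b, hb⟩ := X0.jFun_surjective (X0.jFun τ + 1)
    have := congrFun h b
    simp [hb] at this) τ
  have h1 := X0.ordH_jFun_sub τ
  rw [X0.ordH, (analyticAt_coe hd τ).meromorphicOrderAt_eq,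
    show analyticOrderAt ((fun z => X0.jFun z - X0.jFun τ) ∘ ofComplex) (τ : ℂ) = (a : ℕ∞) from ha]
    at h1
  simp only [ENat.map_natCast] at h1
  norm_cast at h1
  subst h1
  have h2 := ha.mul hd MF.isFormFn_delta.mdiff (hasPtOrd_deltaFn τ)
  rw [Nat.add_zero] at h2
  convert h2 using 1
  funext z
  simp only [Pi.sub_apply, Pi.pow_apply, Pi.smul_apply, Pi.mul_apply, smul_eq_mul, sub_mul]
  rw [show X0.jFun z = MF.jFun z from rfl, MF.jFun_mul_delta]

end Fermat.Agent.Mono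

namespace Fermat.Agent.X0

open AlgebraicCurve CongruenceSubgroup Function
open UpperHalfPlane hiding I
open Fermat.Agent.Mono (IsRepOn IsPtPlaceOn IsCuspPlaceOn HasPtOrd HasExpOrd exists_hasPtOrd
  mdiff_slash analyticAt_coe order_ls_point order_ls_cusp)
open scoped MatrixGroups ModularForm Manifold Topology

variable {Γ : Subgroup SL(2, ℤ)} {W : ℕ} {F : IntermediateField ℂ (LaurentSeries ℂ)}

namespace RatioField

variable (D : RatioField Γ W F)
include D

/-- The order at a point of a ratio of forms is the difference of the orders. -/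
theorem pointVal_ord (τ : ℍ) (γ : SL(2, ℤ)) {x : F} {k : ℤ} {A B : ℍ → ℂ}
    (hr : IsRepOn Γ (x : LaurentSeries ℂ) k A B) (hx : x ≠ 0) {a b : ℕ}
    (ha : HasPtOrd A (γ • τ) a) (hb : HasPtOrd B (γ • τ) b) :
    (D.intVal (pointExpansion W τ) γ).ord x = (a : ℤ) - b := by
  have key : ∀ (f : ℍ → ℂ) (hf : MF.IsFormFn Γ k f) (hf0 : f ≠ 0) (c : ℕ),
      HasPtOrd f (γ • τ) c → ((pointExpansion W τ).ls (D.wslash hf γ)).order = (c : ℤ) := by
    intro f hf hf0 c hc
    obtain ⟨c', hc'⟩ := exists_hasPtOrd (mdiff_slash hf.mdiff k γ) (Mono.slash_ne_zero hf0 k γ) τ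
    have h1 : ordH (f ∣[k] γ) τ = ordH f (γ • τ) := ordH_slash γ τ
    rw [ordH, ordH, (analyticAt_coe (mdiff_slash hf.mdiff k γ) τ).meromorphicOrderAt_eq,
      (analyticAt_coe hf.mdiff (γ • τ)).meromorphicOrderAt_eq,
      show analyticOrderAt ((f ∣[k] γ) ∘ ofComplex) (τ : ℂ) = (c' : ℕ∞) from hc',
      show analyticOrderAt (f ∘ ofComplex) ((γ • τ : ℍ) : ℂ) = (c : ℕ∞) from hc] at h1
    simp only [ENat.map_natCast] at h1
    norm_cast at h1
    subst h1
    exact order_ls_point τ _ hc'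
  rw [(D.intVal_ord_rep _ γ hx hr.num hr.den hr.den_ne hr.eq).2,
    key A hr.num (hr.num_ne D.T_mem hx) a ha, key B hr.den hr.den_ne b hb]

/-- The order at a cusp of a ratio of forms, in terms of exponential orders. -/
theorem cuspVal_ord [NeZero W] (δ : SL(2, ℤ)) {x : F} {k : ℤ} {A B : ℍ → ℂ}
    (hr : IsRepOn Γ (x : LaurentSeries ℂ) k A B) (hx : x ≠ 0) {r s : ℚ}
    (ha : HasExpOrd (A ∣[k] δ) r) (hb : HasExpOrd (B ∣[k] δ) s) :
    ((D.intVal (cuspExpansion W) δ).ord x : ℚ) = W * (r - s) := by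
  rw [(D.intVal_ord_rep _ δ hx hr.num hr.den hr.den_ne hr.eq).2, Int.cast_sub, mul_sub,
    order_ls_cusp _ (by exact ha) (Mono.slash_ne_zero (hr.num_ne D.T_mem hx) k δ),
    order_ls_cusp _ (by exact hb) (Mono.slash_ne_zero hr.den_ne k δ)]

end RatioField

namespace JRatioField

variable (D : JRatioField Γ W F)
include D

theorem isRep_jEl_sub (c : ℂ) : IsRepOn Γ ((D.jEl - algebraMap ℂ F c : F) : LaurentSeries ℂ) 12
    (MF.E4fn ^ 3 - c • MF.deltaFn) MF.deltaFn where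
  num := (isFormFn_shiftForm c).mono le_top
  den := MF.isFormFn_delta.mono le_top
  den_ne := MF.deltaFn_ne_zero'
  eq := D.jEl_sub_mul_lq c

/-- Points give places. -/
theorem exists_ptPlace (τ : ℍ) :
    ∃ (v : Place ℂ F) (c : ℕ), 0 < c ∧ IsPtPlaceOn Γ v τ c := by
  set u := D.intVal (pointExpansion W τ) 1
  have hne : ∃ f : F, f ≠ 0 ∧ u.ord f ≠ 0 := ⟨_, D.sub_const_ne_zero (X0.jFun τ), by
    rw [D.pointVal_ord τ 1 (D.isRep_jEl_sub _) (D.sub_const_ne_zero _)
      (by rw [one_smul]; exact Mono.hasPtOrd_num_jC_sub τ) (Mono.hasPtOrd_deltaFn _)]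
    simpa using Nat.one_le_iff_ne_zero.mp (one_le_ellOrder τ)⟩
  obtain ⟨k, hk, h⟩ := u.exists_ord_eq_mul hne
  refine ⟨u.place hne, k, hk, fun x l A B a b hr hx ha hb => ?_⟩
  rw [← h x hx]
  exact D.pointVal_ord τ 1 hr hx (by rwa [one_smul]) (by rwa [one_smul])

/-- Cusps give places. -/
theorem exists_cuspPlace [NeZero W] (δ : SL(2, ℤ)) :
    ∃ (v : Place ℂ F) (w : ℕ), 0 < w ∧ IsCuspPlaceOn Γ v δ w := by
  set u := D.intVal (cuspExpansion W) δ
  have hne : ∃ f : F, f ≠ 0 ∧ u.ord f ≠ 0 := ⟨_, D.jEl_ne_zero, by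
    rw [D.cusp_ord_jEl, neg_ne_zero]
    exact_mod_cast NeZero.ne W⟩
  obtain ⟨k, hk, h⟩ := u.exists_ord_eq_mul hne
  have hkW : k ∣ W := by
    have := h _ D.jEl_ne_zero
    rw [D.cusp_ord_jEl] at this
    exact Int.natCast_dvd_natCast.mp ⟨-(u.place hne).ord D.jEl, by linear_combination -this⟩
  obtain ⟨w, hw⟩ := hkW
  refine ⟨u.place hne, w, Nat.pos_of_ne_zero fun e => NeZero.ne W (by rw [hw, e, mul_zero]),
    fun x l A B r s hr hx ha hb => ?_⟩
  have h1 : ((k : ℤ) * (u.place hne).ord x : ℚ) = (k : ℚ) * ((w : ℚ) * (r - s)) := by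
    rw [← Int.cast_mul, ← h x hx, D.cuspVal_ord δ hr hx ha hb]
    conv_lhs => rw [hw, Nat.cast_mul, mul_assoc]
  push_cast at h1
  exact mul_left_cancel₀ (Nat.cast_ne_zero.mpr hk.ne') h1

end JRatioField

end Fermat.Agent.X0

namespace Fermat.Agent.Mono

open AlgebraicCurve CongruenceSubgroup
open UpperHalfPlane
open scoped MatrixGroups

variable {N : ℕ} [NeZero N]

theorem isRep_jC_sub (c : ℂ) : IsRep N (X0.jC N - algebraMap ℂ (FC N) c) 12
    (MF.E4fn ^ 3 - c • MF.deltaFn) MF.deltaFn :=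
  (X0.curveField N).isRep_jEl_sub c

/-- Points of `X₀(N)` give places. -/
theorem exists_ptPlace (τ : ℍ) :
    ∃ (v : Place ℂ (FC N)) (c : ℕ), 0 < c ∧ IsPtPlace N v τ c :=
  (X0.curveField N).exists_ptPlace τ

end Fermat.Agent.Mono
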